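import Fermat.Agent.S45.Mod.Gen1Inst

/-!
# S45 / modular part : the field `cong` of `EndsMeet` (`S45/Mod/Inst3.lean`)
-/

set_option autoImplicit false
set_option linter.unusedSectionVars false
noncomputable section

namespace Fermat.Agent.S45

open Fermat.Agent.S36

namespace CtxK

variable (D : CtxK)

/-- `q` odd. -/
theorem cong_odd (h2 : D.q ≠ 2) (h4 : 4 ∣ D.M) (K s : ℕ) (h0 : 0 < s) (hs : s < K) :
    ∃ (y : D.Fk K) (c : D.R), y ∈ intCl D.R (D.t K) ∧ IsUnit c ∧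
      (D.OO K s hs.le).valuation (D.vp (hUnit4 D.M D.q h4) K s ^ eK D.q K s / (D.q : D.Fk K) * y
        - algebraMap D.R (D.Fk K) c) < 1 :=
  ⟨D.y₁ h4 K s * D.y₂ h4 K s, D.cOdd,
    Subring.mul_mem _ (D.y₁_mem h4 K s hs.le (D.sysT (by omega)))
      (D.y₂_mem h4 K s h0 hs.le (D.sysT (by omega))),
    D.isUnit_cOdd,
    D.val_odd h2 h4 K s h0 hs (D.redsTo_y₁ h4 K s hs.le) (D.redsTo_y₂ h4 K s h0 hs.le)⟩

/-- `q = 2`. -/
theorem cong_two (h2 : D.q = 2) (h3 : 3 ∣ D.M) (K s : ℕ) (h0 : 0 < s) (hs : s < K) :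
    ∃ (y : D.Fk K) (c : D.R), y ∈ intCl D.R (D.t K) ∧ IsUnit c ∧
      (D.OO K s hs.le).valuation (D.vp (hUnit3 D.M D.q h3) K s ^ eK D.q K s / (D.q : D.Fk K) * y
        - algebraMap D.R (D.Fk K) c) < 1 :=
  ⟨1, 1, Subring.one_mem _, isUnit_one, D.val_two h2 h3 K s h0 hs⟩

end CtxK

end Fermat.Agent.S45
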