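import Fermat.Agent.S45.Mod.Inst5
import Fermat.Agent.S45.Mod.CongOdd

/-!
# S45 : the last step of the instantiation

`hasDatumCtx_of_odd` (`S45/Mod/Inst5.lean`) reduced the whole row to the congruence
`v_s ^ e_s / q * y ≡ c` on the middle components for `q` odd, which is `CtxK.cong_odd`
(`S45/Mod/CongOdd.lean`).  Hence `HasDatumCtx`, `KumK` and the level statement `LvlStmt` are
theorems.
-/

set_option autoImplicit false

namespace Fermat.Agent.S45

/-- The datum exists over every context. -/
theorem hasDatumCtx : HasDatumCtx :=
  hasDatumCtx_of_odd (fun D h2 h4 K s h0 hs => D.cong_odd h2 h4 K s h0 hs)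

/-- The Kummer statement at the levels `M q ^ k`. -/
theorem kumK : KumK := kumK_of_ctx hasDatumCtx

/-- The level statement: a modular model of some non-zero level is modular of the level given by
its conductor. -/
theorem lvlStmt : LvlStmt := lvlStmt_of_kumK kumK

end Fermat.Agent.S45
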