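import Fermat.Agent.S36.Mod.Sys

/-!
# S45 / modular part : `[MODK-TAB]` the table of reductions and `[SYS]`, index-free

Port of `S36/Mod/{SysTab,Sys,SysExp}.lean` (three components, level `M q²`) to an ARBITRARY finite family of embeddings.

* `L` any level, `a i : F0 A M →+* F0 A L` (`i : I`) the degeneracy maps `u ↦ u(q^i τ)`;
* `e s : F0 A L →+* ℚbar((T))` (`s : ι`) the expansions at the cusps;
* `n s i : ℕ` the Frobenius exponents.

`IsTabK A q a e n` : the constants are constants and `red_s (a_i u) = ubar (T ^ (q ^ n s i))`.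
`IsTabK.of_rot_qExpand`, `IsTabK.of_qExpand_rot` : the table from the formulas `e s (a i u) = rot ξ (u (T^(q^n)))`, resp.
`e s (a i u) = (rot z u)(T^(q^n))`, `ξ`, `z` roots of unity of `q`-power order.

Consequences (`O s := gvO ..`): `redsTo_jI`, `isGaussAt`, `exists_res`, `injective` (rows not differing by a constant), `comap_a`,
`a_congr`, and the assembly `gaussSys` (inputs left: the ramification witnesses and the degree).
-/

set_option autoImplicit false
set_option linter.unusedSectionVars false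
noncomputable section

open ModularCurve Polynomial

namespace Fermat.Agent.S45

open Fermat.Agent.S36 Fermat.Agent.S24 Fermat.Agent.RED.Gauss Fermat.Agent.GAL.AD Fermat.Agent.S28

section Root

variable (A : ValuationSubring Kb) {q : ℕ} [Fact q.Prime] (hA : A.LiesOverPrime q)

local notation "π" => IsLocalRing.residue A
local notation "k" => IsLocalRing.ResidueField A

include hA in
/-- a root of unity of `q`-power order is a unit of `A` which reduces to `1`. -/
theorem exists_unit_of_pow_prime_pow_eq_one (ξ : Kbˣ) (m : ℕ) (hξ : ξ ^ (q ^ m) = 1) :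
    ∃ z : Aˣ, Units.map (A.subtype : A →* Kb) z = ξ ∧ π z = 1 := by
  have hq : q.Prime := Fact.out
  have := Fermat.Agent.RED.GalEq.charP_residueField hq hA
  have hξ' : (ξ : Kb) ^ (q ^ m) = 1 := by
    rw [← Units.val_pow_eq_pow_val, hξ, Units.val_one]
  obtain ⟨z, hz⟩ := exists_unit_of_valuation_eq_one (A := A) ξ
    (valuation_eq_one_of_pow_eq_one _ (pow_ne_zero m hq.ne_zero) hξ')
  refine ⟨z, hz, ?_⟩
  have h1 : (z : A) ^ (q ^ m) = 1 := by
    apply Subtype.ext
    have h2 : (((z : A) : Kb)) = (ξ : Kb) := by rw [← hz]; rfl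
    show ((z : A) : Kb) ^ (q ^ m) = 1
    rw [h2, hξ']
  have h3 : (π (z : A) - 1) ^ (q ^ m) = 0 := by
    rw [sub_pow_char_pow, ← map_pow, h1, map_one, one_pow, sub_self]
  exact sub_eq_zero.1 (pow_eq_zero_iff (pow_ne_zero m hq.ne_zero) |>.1 h3)

variable {A}

include hA in
theorem redsTo_rotK {x : LaurentSeries Kb} {y : LaurentSeries k} (h : RedsTo π x y) (ξ : Kbˣ) (m : ℕ)
    (hξ : ξ ^ (q ^ m) = 1) : RedsTo π (rot ξ x) y := by
  obtain ⟨z, hz, hz1⟩ := exists_unit_of_pow_prime_pow_eq_one A hA ξ m hξ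
  exact h.rot ξ z hz hz1

end Root

section Tab

variable (A : ValuationSubring Kb) {M L : ℕ} [NeZero M] [NeZero L] (q : ℕ) [Fact q.Prime]
  {I ι : Type*} (a : I → F0 A M →+* F0 A L) (e : ι → F0 A L →+* LaurentSeries Kb) (n : ι → I → ℕ)

local notation "π" => IsLocalRing.residue A
local notation "k" => IsLocalRing.ResidueField A
local notation "hπ" => isResMap_residue A

/-- the table of reductions. -/
structure IsTabK : Prop where
  const : ∀ s (c : KK A),
    e s (algebraMap (KK A) (F0 A L) c) = HahnSeries.C (algebraMap (KK A) Kb c)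
  tab : ∀ s i (u : F0 A M) (y : LaurentSeries k), RedsTo π (cK A (u : LaurentSeries (KK A))) y →
    RedsTo π (e s (a i u)) (qExpand k (q ^ n s i) y)

variable {A q a e n}

/-- the table from the formulas `e s (a i u) = rot ξ (u (T^(q^n)))`. -/
theorem IsTabK.of_rot_qExpand (hA : A.LiesOverPrime q)
    (hc : ∀ s (c : KK A),
      e s (algebraMap (KK A) (F0 A L) c) = HahnSeries.C (algebraMap (KK A) Kb c))
    (ξ : ι → I → Kbˣ) (m : ι → I → ℕ) (hξ : ∀ s i, ξ s i ^ (q ^ m s i) = 1)
    (h : ∀ s i (u : F0 A M), e s (a i u)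
      = rot (ξ s i) (qExpand Kb (q ^ n s i) (cK A (u : LaurentSeries (KK A))))) :
    IsTabK A q a e n :=
  ⟨hc, fun s i u y hy => by
    rw [h]
    exact redsTo_rotK hA (hy.qExpand _) _ _ (hξ s i)⟩

/-- the table from the formulas `e s (a i u) = (rot z u) (T^(q^n))`. -/
theorem IsTabK.of_qExpand_rot (hA : A.LiesOverPrime q)
    (hc : ∀ s (c : KK A),
      e s (algebraMap (KK A) (F0 A L) c) = HahnSeries.C (algebraMap (KK A) Kb c))
    (ξ : ι → I → Kbˣ) (m : ι → I → ℕ) (hξ : ∀ s i, ξ s i ^ (q ^ m s i) = 1)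
    (h : ∀ s i (u : F0 A M), e s (a i u)
      = qExpand Kb (q ^ n s i) (rot (ξ s i) (cK A (u : LaurentSeries (KK A))))) :
    IsTabK A q a e n :=
  ⟨hc, fun s i u y hy => by
    rw [h]
    exact (redsTo_rotK hA hy _ _ (hξ s i)).qExpand _⟩

variable (T : IsTabK A q a e n) (hA : A.LiesOverPrime q) (hqM : ¬ q ∣ M)
  {lam : ι → Kb} (hd : ∀ s, IsDiscEmb A (lam s) (e s))

/-- the valuation rings -/
def OK (hd : ∀ s, IsDiscEmb A (lam s) (e s)) (s : ι) : ValuationSubring (F0 A L) := gvO π hπ (hd s)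

/-- `j (q^i τ)` -/
def jI (a : I → F0 A M →+* F0 A L) (i : I) : F0 A L := a i (jK (KK A) M 1 (one_dvd M))

include T in
theorem IsTabK.redsTo_of_eq_zero (s : ι) (i : I) (h0 : n s i = 0) {u : F0 A M} {y : LaurentSeries k}
    (h : RedsTo π (cK A (u : LaurentSeries (KK A))) y) : RedsTo π (e s (a i u)) y := by
  have h1 := T.tab s i u y h
  have h2 : qExpand k (q ^ n s i) y = y :=
    (qExpand_congr' (by rw [h0, pow_zero]) y).trans (qExpand_one_apply y)
  rwa [h2] at h1

include T hA in
/-- the reductions of `j (q^i τ)` -/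
theorem IsTabK.redsTo_jI (s : ι) (i : I) : RedsTo π (e s (jI a i)) (jqModC k ^ (q ^ n s i)) := by
  have h0 : RedsTo π (cK A ((jK (KK A) M 1 (one_dvd M) : FK (KK A) M) : LaurentSeries (KK A)))
      (jqModC k) := by
    rw [cK_jK]
    have := redsTo_jqNModC A 1
    rwa [jqNModC_one (K := k)] at this
  have := T.tab s i _ _ h0
  rwa [qExpand_pow_jqModC A hA] at this

include T hA in
theorem IsTabK.jI_mem (s : ι) (i : I) : jI a i ∈ OK hd s :=
  (T.redsTo_jI hA s i).mem_gvO hπ (hd s)

include T hA in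
/-- the field `gauss` -/
theorem IsTabK.isGaussAt (s : ι) (i : I) : IsGaussAt ((q : ℕ) : RK A) (jI a i) (OK hd s) := by
  have hq : q.Prime := Fact.out
  have hs := T.jI_mem hA hd s i
  refine gv_isGaussAt hπ (hd s) (ρ := pi0 A) (hc_of_const A _ (T.const s)) hs
    (dvd_of_pi0_eq_zero A hA) (pi0_natCast_eq_zero A hA) ?_
  rw [(T.redsTo_jI hA s i).gvRed_eq hπ (hd s) hs]
  exact transcendental_jqModC_pow A _ (pow_pos hq.pos _)

include T hA hqM in
/-- the field `res`, with lifts in the range of `a g` (`n s g = 0`) and reductions in `Fb_M` -/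
theorem IsTabK.exists_res (s : ι) (i g : I) (hg : n s g = 0) :
    ∃ (v : Fin (q ^ n s i * dedekindPsi M) → F0 A M)
      (b : Fin (q ^ n s i * dedekindPsi M) → modularFunctionFieldFullC k M),
      (∀ j, RedsTo π (cK A (v j : LaurentSeries (KK A))) (b j : LaurentSeries k)) ∧
      (∀ j, RedsTo π (e s (a g (v j))) (b j : LaurentSeries k)) ∧
      (∀ j, a g (v j) ∈ OK hd s) ∧
      ∀ c : Fin (q ^ n s i * dedekindPsi M) → (RK A)[X],
        (OK hd s).valuation (∑ j, aeval (jI a i) (c j) * a g (v j)) < 1 →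
        ∀ j, C ((q : ℕ) : RK A) ∣ c j := by
  have hq : q.Prime := Fact.out
  have := Fermat.Agent.RED.GalEq.charP_residueField hq hA
  have := Fermat.Agent.RED.GalEq.isAlgClosed_residueField A
  obtain ⟨b, hb⟩ := exists_resInd k q M hqM (n := q ^ n s i) (pow_pos hq.pos _)
  choose v hv using fun j => exists_lift_F0 A hA M hqM (b j)
  have hv' := fun j => T.redsTo_of_eq_zero s g hg (hv j)
  have hω := fun j => (hv' j).mem_gvO hπ (hd s)
  have hs := T.jI_mem hA hd s i
  refine ⟨v, b, hv, hv', hω, ?_⟩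
  refine gv_res hπ (hd s) (ρ := pi0 A) (hc_of_const A _ (T.const s)) hs
    (dvd_of_pi0_eq_zero A hA) _ hω ?_
  intro c hc
  apply hb c
  rw [← hc]
  refine Finset.sum_congr rfl fun j _ => ?_
  rw [(T.redsTo_jI hA s i).gvRed_eq hπ (hd s) hs, (hv' j).gvRed_eq hπ (hd s) (hω j)]
  rfl

include T hA in
/-- `j_i ^ (q^x) - j_i' ^ (q^y)` has valuation `< 1` on the component `s` iff the exponents agree. -/
theorem IsTabK.valuation_sub_lt (s : ι) (i i' : I) (x y : ℕ) (h : n s i + x = n s i' + y) :
    (OK hd s).valuation (jI a i ^ (q ^ x) - jI a i' ^ (q ^ y)) < 1 := by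
  have := ((T.redsTo_jI hA s i).pow (q ^ x)).sub ((T.redsTo_jI hA s i').pow (q ^ y))
  rw [← map_pow, ← map_pow, ← map_sub, ← pow_mul, ← pow_mul, ← pow_add, ← pow_add, h, sub_self] at this
  exact this.valuation_lt_one hπ (hd s)

include T hA in
theorem IsTabK.valuation_sub_eq_one (s : ι) (i i' : I) (x y : ℕ) (h : n s i + x ≠ n s i' + y) :
    (OK hd s).valuation (jI a i ^ (q ^ x) - jI a i' ^ (q ^ y)) = 1 := by
  have hq : q.Prime := Fact.out
  have := ((T.redsTo_jI hA s i).pow (q ^ x)).sub ((T.redsTo_jI hA s i').pow (q ^ y))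
  rw [← map_pow, ← map_pow, ← map_sub, ← pow_mul, ← pow_mul, ← pow_add, ← pow_add] at this
  exact this.valuation_eq_one hπ (hd s)
    (jqModC_pow_sub_ne_zero A fun h' => h (Nat.pow_right_injective hq.two_le h'))

include T hA in
/-- the field `inj` : two rows of the table which do not differ by a constant give different valuation rings. -/
theorem IsTabK.ne_of_rows {s s' : ι} (i i' : I) (h : n s i + n s' i' ≠ n s i' + n s' i) :
    OK hd s ≠ OK hd s' := by
  intro heq
  have h1 := T.valuation_sub_lt hA hd s i i' (n s i') (n s i) (by ring)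
  have h2 := T.valuation_sub_eq_one hA hd s' i i' (n s i') (n s i) (by
    intro h'
    apply h
    omega)
  rw [heq, h2] at h1
  exact lt_irrefl _ h1

include T hA in
theorem IsTabK.injective (hsep : ∀ s s' : ι, s ≠ s' → ∃ i i' : I, n s i + n s' i' ≠ n s i' + n s' i) :
    Function.Injective (OK hd) := by
  intro s s' h
  by_contra hne
  obtain ⟨i, i', hii⟩ := hsep s s' hne
  exact T.ne_of_rows hA hd i i' hii h

include T in
/-- the comaps of the valuation rings under the degeneracy maps -/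
theorem IsTabK.comap_a {lam1 : Kb}
    (hd1 : IsDiscEmb A lam1 (((modularFunctionFieldBar M).val : FN M →+* LaurentSeries Kb).comp
      (embF0 A M))) (s : ι) (i : I) : (OK hd s).comap (a i) = gvO π hπ hd1 := by
  refine gv_comap_eq hπ (hd s) hπ hd1 (a i)
    (fun y hy => (T.tab s i y _ (⟨hy, rfl⟩ : RedsTo π (cK A (y : LaurentSeries (KK A))) _)).1) ?_
  intro y hy h0
  have h1 := T.tab s i y 0 (⟨hy, h0⟩ : RedsTo π (cK A (y : LaurentSeries (KK A))) 0)
  rw [map_zero] at h1
  exact h1.2

include T in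
/-- two degeneracy maps with the same exponent are congruent on the component `s`. -/
theorem IsTabK.a_congr (s : ι) (i i' : I) (h : n s i = n s i') {u : F0 A M} {y : LaurentSeries k}
    (hu : RedsTo π (cK A (u : LaurentSeries (KK A))) y) :
    (OK hd s).valuation (a i u - a i' u) < 1 := by
  have h1 := (T.tab s i u y hu).sub (T.tab s i' u y hu)
  rw [← map_sub, h, sub_self] at h1
  exact h1.valuation_lt_one hπ (hd s)

include T hA hqM in
/-- **[SYS]** the `GaussSys` instance for the chart function `j (q^i τ)`; inputs left: ramification witnesses, degree. -/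
theorem IsTabK.gaussSys [Fintype ι]
    (hsep : ∀ s s' : ι, s ≠ s' → ∃ i i' : I, n s i + n s' i' ≠ n s i' + n s' i)
    (g : ι → I) (hg : ∀ s, n s (g s) = 0) (ev : ι → ℕ)
    (hram : ∀ s, ∃ ϖ : F0 A L, (OK hd s).valuation ϖ < 1 ∧
      (OK hd s).valuation (algebraMap (RK A) (F0 A L) ((q : ℕ) : RK A)) ≤
        (OK hd s).valuation ϖ ^ ev s) (i : I)
    (hfin : FiniteDimensional (IntermediateField.adjoin (KK A) {jI a i}) (F0 A L))
    (hdeg : Module.finrank (IntermediateField.adjoin (KK A) {jI a i}) (F0 A L) ≤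
      ∑ s, ev s * (q ^ n s i * dedekindPsi M)) :
    GaussSys (KK A) ((q : ℕ) : RK A) (jI a i) (OK hd) ev (fun s => q ^ n s i * dedekindPsi M) := by
  refine ⟨T.injective hA hd hsep, fun s => T.isGaussAt hA hd s i, hram, fun s => ?_, hfin, hdeg⟩
  obtain ⟨v, b, -, -, h3, h4⟩ := T.exists_res hA hqM hd s i (g s) (hg s)
  exact ⟨_, h3, h4⟩

end Tab

end Fermat.Agent.S45
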