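import Fermat.Agent.S45.Mod.EpsLemmas
import Fermat.Agent.S45.Mod.Tab
import Fermat.Agent.S36.Mod.SysExp

/-!
# S45 / modular part : the context `CtxK` (all levels `M q^k` at once)

`D : CtxK` extends `S36.Ctx` (place `A | q`, auxiliary level `M`, `ζ`) by a compatible system `z` of roots of unity
(`z 1 = ζ`) and by the expansions `D.E k s` (`s ≤ k`) with their specification `IsEps`.
(Existence: `S45/Mod/Eps.lean : exists_eps`; it is only used at the very end to build a `CtxK`.)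

* `D.Fk k` = function field of level `M q^k` over `D.K`; `D.al k`, `D.be k : D.Fk k → D.Fk (k+1)`; `D.a k i : D.FM → D.Fk k`;
* `D.e k s : D.Fk k →+* ℚbar((T))`, `D.disc`, `D.OO k s hs`, `D.O k : Fin (k+1) → ValuationSubring (D.Fk k)`;
* `D.tab k : IsTabK ..` (helper90's index-free table): all of `S45/Mod/Tab.lean` applies.
-/

set_option autoImplicit false
set_option linter.unusedSectionVars false
noncomputable section

open ModularCurve Polynomial

namespace Fermat.Agent.S45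

open Fermat.Agent.S24 Fermat.Agent.S36 Fermat.Agent.RED.Gauss Fermat.Agent.GAL.AD

/-- the context of the modular part of S45. -/
structure CtxK extends S36.Ctx where
  z : ℕ → Kbˣ
  hz : ZSys q z
  hz1 : z 1 = ζ
  E : (k s : ℕ) → FN (lv M q k) →+* LaurentSeries Kb
  hE : ∀ k s, s ≤ k → @IsEps M q ⟨hM⟩ ⟨hq.ne_zero⟩ z k s (E k s)

namespace CtxK

variable (D : CtxK)

/-- level `M q^k` over `K` -/
abbrev Fk (k : ℕ) : Type := F0 D.A (lv D.M D.q k)

/-- `τ ↦ τ`, level `k → k+1` -/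
abbrev al (k : ℕ) : D.Fk k →ₐ[D.K] D.Fk (k + 1) := alK D.K D.M D.q k

/-- `τ ↦ q τ`, level `k → k+1` -/
abbrev be (k : ℕ) : D.Fk k →ₐ[D.K] D.Fk (k + 1) := beK D.K D.M D.q k

/-- `u ↦ u (q^i τ)`, level `M → M q^k` -/
abbrev a (k i : ℕ) : D.FM →ₐ[D.K] D.Fk k := aL D.K D.M D.q k i

/-- `j (q^i τ)` at level `k` -/
abbrev j (k i : ℕ) : D.Fk k := jL D.K D.M D.q k i

theorem isEps (k s : ℕ) (hs : s ≤ k) : IsEps D.M D.q D.z k s (D.E k s) := D.hE k s hs

/-- the expansion of level `k` along the component `s` -/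
def e (k s : ℕ) : D.Fk k →+* LaurentSeries Kb := (D.E k s).comp (embF0 D.A (lv D.M D.q k))

theorem e_apply (k s : ℕ) (x : D.Fk k) : D.e k s x = D.E k s (embF0 D.A (lv D.M D.q k) x) := rfl

/-- the uniformiser of the coefficient ring -/
def lam (k s : ℕ) : Kb := lamK D.q D.z k s

theorem disc (k s : ℕ) (hs : s ≤ k) : IsDiscEmb D.A (D.lam k s) (D.e k s) :=
  (D.isEps k s hs).disc D.hq D.hA D.hz

theorem e_const (k s : ℕ) (hs : s ≤ k) (c : D.K) :
    D.e k s (algebraMap D.K (D.Fk k) c) = HahnSeries.C (algebraMap D.K Kb c) := by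
  rw [e_apply, embF0_algebraMap, (D.isEps k s hs).c]

/-- **THE TABLE** -/
theorem e_a (k s : ℕ) (hs : s ≤ k) (i : ℕ) (hi : i ≤ k) (u : D.FM) :
    D.e k s (D.a k i u)
      = qExpand Kb (D.q ^ nK k s i) (rot (zT D.z k s i) (cK D.A (u : LaurentSeries D.K))) := by
  rw [e_apply, embF0_aL _ _ _ _ _ hi, (D.isEps k s hs).t i hi, subT_apply, coe_embF0]

/-- the Gauss valuation ring of the component `s` of level `k` -/
def OO (k s : ℕ) (hs : s ≤ k) : ValuationSubring (D.Fk k) := gvO D.π D.hπ (D.disc k s hs)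

/-- the residue map -/
def rd (k s : ℕ) (hs : s ≤ k) : D.OO k s hs →+* LaurentSeries D.k := gvRed D.hπ (D.disc k s hs)

/-- the family of the valuation rings of level `k` -/
def O (k : ℕ) (s : Fin (k + 1)) : ValuationSubring (D.Fk k) := D.OO k s (Nat.lt_succ_iff.1 s.2)

theorem O_mk (k s : ℕ) (hs : s < k + 1) : D.O k ⟨s, hs⟩ = D.OO k s (Nat.lt_succ_iff.1 hs) := rfl

theorem redsTo_rd (k s : ℕ) (hs : s ≤ k) (y : D.OO k s hs) :
    RedsTo D.π (D.e k s y) (D.rd k s hs y) := ⟨y.2, rfl⟩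

theorem rd_eq {k s : ℕ} (hs : s ≤ k) {y : D.Fk k} {w : LaurentSeries D.k}
    (h : RedsTo D.π (D.e k s y) w) (hy : y ∈ D.OO k s hs) : D.rd k s hs ⟨y, hy⟩ = w := h.2

theorem mem_OO {k s : ℕ} (hs : s ≤ k) {y : D.Fk k} {w : LaurentSeries D.k}
    (h : RedsTo D.π (D.e k s y) w) : y ∈ D.OO k s hs := h.1

theorem val_lt_one {k s : ℕ} (hs : s ≤ k) {y : D.Fk k} (h : RedsTo D.π (D.e k s y) 0) :
    (D.OO k s hs).valuation y < 1 := h.valuation_lt_one D.hπ (D.disc k s hs)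

theorem val_eq_one {k s : ℕ} (hs : s ≤ k) {y : D.Fk k} {w : LaurentSeries D.k}
    (h : RedsTo D.π (D.e k s y) w) (hw : w ≠ 0) :
    (D.OO k s hs).valuation y = 1 := h.valuation_eq_one D.hπ (D.disc k s hs) hw

/-- helper90's index-free table, instantiated -/
theorem tab (k : ℕ) : IsTabK D.A D.q (fun i : Fin (k + 1) => (D.a k i : D.FM →+* D.Fk k))
    (fun s : Fin (k + 1) => D.e k s) (fun s i : Fin (k + 1) => nK k s i) :=
  IsTabK.of_qExpand_rot D.hA
    (fun s c => D.e_const k s (Nat.lt_succ_iff.1 s.2) c)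
    (fun s i => zT D.z k s i) (fun _ _ => k)
    (fun s i => zT_pow_eq_one D.hz k s i (Nat.lt_succ_iff.1 i.2))
    (fun s i u => D.e_a k s (Nat.lt_succ_iff.1 s.2) i (Nat.lt_succ_iff.1 i.2) u)

theorem O_eq_OK (k : ℕ) :
    D.O k = OK (A := D.A) (lam := fun s : Fin (k + 1) => D.lam k s)
      (e := fun s : Fin (k + 1) => D.e k s) (fun s => D.disc k s (Nat.lt_succ_iff.1 s.2)) := rfl

/-- the table in `RedsTo` form -/
theorem redsTo_e_a (k s : ℕ) (hs : s ≤ k) (i : ℕ) (hi : i ≤ k) {u : D.FM} {y : LaurentSeries D.k}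
    (h : RedsTo D.π (D.e1 u) y) :
    RedsTo D.π (D.e k s (D.a k i u)) (qExpand D.k (D.q ^ nK k s i) y) :=
  (D.tab k).tab ⟨s, Nat.lt_succ_iff.2 hs⟩ ⟨i, Nat.lt_succ_iff.2 hi⟩ u y h

/-- the chart function `t = j₀ ^ (q²) - j₀` of level `k` -/
def t (k : ℕ) : D.Fk k := D.j k 0 ^ (D.q ^ 2) - D.j k 0

end CtxK

end Fermat.Agent.S45
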