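import Fermat.Agent.S36.Mod.Cusp2

/-!
# S45 / Mod / CuspK : the expansions at the width-one cusps `1/(q^r M c)` of `X₀(M q^(r+s))`, `s ≤ r`

Port of `S36/Mod/Cusp2.lean` (`r = s = 1`).  With `γ = [[1,0],[q^r M c,1]]`, `q^s n₀ + M c B = 1`:

`j (d q^(r+n) γ τ) = j (d q^(r-n) (τ + B / q^r))` for all `0 ≤ n ≤ s`, `d ∣ M`,

so ONE rotation by the primitive `q^r`-th root of unity `ξ = e(B / q^r)` describes the whole table.
The level `L` is a variable (`hL : L = M * q ^ (r + s)`).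
-/

set_option autoImplicit false

open UpperHalfPlane Function Complex ModularForm ModularCurve CongruenceSubgroup
open scoped Manifold MatrixGroups Real
open Fermat.Agent.S24 Fermat.Agent.S36

set_option linter.unusedSectionVars false

noncomputable section

namespace Fermat.Agent.S45

section Matrix

/-- The matrix sending `∞` to the cusp `1/(q^r M c)`. -/
def gamK (M q r : ℕ) (c : ℤ) : SL(2, ℤ) :=
  ⟨!![1, 0; (q : ℤ) ^ r * M * c, 1], by rw [Matrix.det_fin_two_of]; ring⟩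

/-- Auxiliary element of `SL(2,ℤ)`. -/
def delK (q d d' s n : ℕ) (c B n₀ : ℤ) (hn : n ≤ s)
    (h : (q : ℤ) ^ s * n₀ + d * d' * c * B = 1) : SL(2, ℤ) :=
  ⟨!![(q : ℤ) ^ n, -(d * B); d' * c, (q : ℤ) ^ (s - n) * n₀], by
    rw [Matrix.det_fin_two_of]
    have e : (q : ℤ) ^ n * ((q : ℤ) ^ (s - n) * n₀) = (q : ℤ) ^ s * n₀ := by
      rw [← mul_assoc, ← pow_add, Nat.add_sub_cancel' hn]
    rw [e]
    linear_combination h⟩

theorem scal_gamK_smul (M q d d' r s n : ℕ) [NeZero q] [NeZero d] (c B n₀ : ℤ) (hdd : d * d' = M)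
    (hn : n ≤ s) (hsr : s ≤ r) (h : (q : ℤ) ^ s * n₀ + d * d' * c * B = 1) (τ : ℍ) :
    scal (d * q ^ (r + n)) (gamK M q r c • τ)
      = delK q d d' s n c B n₀ hn h • scal (d * q ^ (r - n)) (((B : ℝ) / (q : ℝ) ^ r) +ᵥ τ) := by
  apply UpperHalfPlane.ext
  have hq : (q : ℂ) ≠ 0 := by exact_mod_cast NeZero.ne q
  have hM : (M : ℂ) = d * d' := by exact_mod_cast hdd.symm
  have h' : (q : ℂ) ^ s * n₀ + d * d' * c * B = 1 := by exact_mod_cast h
  have hnr : n ≤ r := hn.trans hsr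
  have e1' : (q : ℂ) ^ r = (q : ℂ) ^ (r - n) * (q : ℂ) ^ n := by
    rw [← pow_add, Nat.sub_add_cancel hnr]
  have e2' : (q : ℂ) ^ s = (q : ℂ) ^ (s - n) * (q : ℂ) ^ n := by
    rw [← pow_add, Nat.sub_add_cancel hn]
  have hden1 : (q : ℂ) ^ r * M * c * (τ : ℂ) + 1 ≠ 0 := by
    have := UpperHalfPlane.linear_ne_zero (cd := ![(q : ℝ) ^ r * M * c, 1]) τ (by
        intro h0
        have := congrFun h0 1
        simp at this)
    simpa using this
  have hden2 : (d' : ℂ) * c * ((d : ℂ) * (q : ℂ) ^ (r - n) * ((B : ℂ) / (q : ℂ) ^ r + τ))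
      + (q : ℂ) ^ (s - n) * n₀ ≠ 0 := by
    intro h0
    apply hden1
    have : (q : ℂ) ^ r * M * c * (τ : ℂ) + 1
        = (q : ℂ) ^ n * ((d' : ℂ) * c * ((d : ℂ) * (q : ℂ) ^ (r - n) * ((B : ℂ) / (q : ℂ) ^ r + τ))
          + (q : ℂ) ^ (s - n) * n₀) := by
      rw [hM, ← h', e2', e1']
      field_simp
      ring
    rw [this, h0, mul_zero]
  rw [coe_scal, UpperHalfPlane.coe_specialLinearGroup_apply,
    UpperHalfPlane.coe_specialLinearGroup_apply, coe_scal, coe_vadd]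
  have e1 : ((algebraMap ℤ ℝ (gamK M q r c 1 0) : ℝ) : ℂ) * (τ : ℂ)
      + ((algebraMap ℤ ℝ (gamK M q r c 1 1) : ℝ) : ℂ) = (q : ℂ) ^ r * M * c * (τ : ℂ) + 1 := by
    simp [gamK]
  have e2 : ((algebraMap ℤ ℝ (delK q d d' s n c B n₀ hn h 1 0) : ℝ) : ℂ) *
      (((d * q ^ (r - n) : ℕ) : ℂ) * ((((B : ℝ) / (q : ℝ) ^ r : ℝ) : ℂ) + τ))
      + ((algebraMap ℤ ℝ (delK q d d' s n c B n₀ hn h 1 1) : ℝ) : ℂ)
      = (d' : ℂ) * c * ((d : ℂ) * (q : ℂ) ^ (r - n) * ((B : ℂ) / (q : ℂ) ^ r + τ))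
        + (q : ℂ) ^ (s - n) * n₀ := by
    simp [delK]
  rw [e1, e2, mul_div_assoc', div_eq_div_iff hden1 hden2]
  simp only [gamK, delK]
  simp
  rw [hM, pow_add, e1']
  field_simp
  rw [e2'] at h'
  linear_combination ((d : ℂ) * (q : ℂ) ^ (r - n) * (q : ℂ) ^ n * τ) * h'

theorem gamK_mem_Gamma0 (M q r : ℕ) (c : ℤ) : gamK M q r c ∈ Gamma0 (M * q ^ r) := by
  rw [Gamma0_mem]
  have : ((gamK M q r c) 1 0 : ℤ) = ((M * q ^ r : ℕ) : ℤ) * c := by
    have h1 : ((gamK M q r c) 1 0 : ℤ) = (q : ℤ) ^ r * M * c := by simp [gamK]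
    rw [h1]; push_cast; ring
  rw [this, Int.cast_mul, Int.cast_natCast, ZMod.natCast_self, zero_mul]

theorem jd_gamK_smul (M q d r s n : ℕ) [NeZero q] [NeZero d] (c B n₀ : ℤ) (hd : d ∣ M)
    (hn : n ≤ s) (hsr : s ≤ r) (h : (q : ℤ) ^ s * n₀ + M * c * B = 1) (τ : ℍ) :
    jd (d * q ^ (r + n)) (gamK M q r c • τ)
      = jd (d * q ^ (r - n)) (((B : ℝ) / (q : ℝ) ^ r) +ᵥ τ) := by
  obtain ⟨d', hdd⟩ := hd
  have h' : (q : ℤ) ^ s * n₀ + d * d' * c * B = 1 := by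
    rw [← h, hdd]; push_cast; ring
  rw [jd, scal_gamK_smul M q d d' r s n c B n₀ hdd.symm hn hsr h', jfun_isSLInvariant, jd]

theorem exists_decompK {M q r s D : ℕ} (hq : q.Prime) (hD : D ∣ M * q ^ (r + s)) :
    D ∣ M * q ^ r ∨ ∃ d n, d ∣ M ∧ n ≤ s ∧ D = d * q ^ (r + n) := by
  obtain ⟨d, e, hd, he, rfl⟩ := exists_dvd_and_dvd_of_dvd_mul hD
  obtain ⟨i, hi, rfl⟩ := (Nat.dvd_prime_pow hq).1 he
  rcases le_total i r with hir | hir
  · left
    exact mul_dvd_mul hd (pow_dvd_pow q hir)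
  · right
    exact ⟨d, i - r, hd, by omega, by rw [Nat.add_sub_cancel' hir]⟩

end Matrix

section SigmaK

variable (M q r s : ℕ) [NeZero M] [NeZero q] (L : ℕ) [NeZero L] (hL : L = M * q ^ (r + s))
  (hsr : s ≤ r) (c B n₀ : ℤ)

theorem actHol_gamK_inv_jdHol (d n : ℕ) [NeZero d] (hd : d ∣ M) (hn : n ≤ s) (hsr : s ≤ r)
    (h : (q : ℤ) ^ s * n₀ + M * c * B = 1) :
    actHol (gamK M q r c)⁻¹ (jdHol (d * q ^ (r + n)))
      = transHol ((B : ℝ) / (q : ℝ) ^ r) (jdHol (d * q ^ (r - n))) := by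
  apply Subtype.ext
  funext τ
  rw [actHol_apply, inv_inv, transHol_apply]
  exact jd_gamK_smul M q d r s n c B n₀ hd hn hsr h τ

/-- `f ↦ (Θ f) ∘ γ`. -/
def preK : FN L →+* Mer := sigma0 L (gamK M q r c)⁻¹

theorem preK_apply (f : FN L) :
    preK M q r L c f = actMer (gamK M q r c)⁻¹ (ThetaMer L f) := rfl

theorem preK_algebraMap (a : Kb) :
    preK M q r L c (algebraMap Kb (FN L) a) = algebraMap ℂ Mer (iotaK a) :=
  sigma0_algebraMap _ _ a

theorem preK_jBar_of_dvd (D : ℕ) [NeZero D] (hDL : D ∣ L) (hD : D ∣ M * q ^ r) :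
    preK M q r L c (jBar L D hDL) = algebraMap Hol Mer (jdHol D) := by
  rw [preK, sigma0_jBar,
    actHol_jdHol_of_mem jfun_isSLInvariant hD (inv_mem (gamK_mem_Gamma0 M q r c))]

theorem preK_jBar_mul (d n : ℕ) [NeZero d] (hDL : d * q ^ (r + n) ∣ L) (hd : d ∣ M) (hn : n ≤ s)
    (hsr : s ≤ r) (h : (q : ℤ) ^ s * n₀ + M * c * B = 1) :
    preK M q r L c (jBar L (d * q ^ (r + n)) hDL)
      = algebraMap Hol Mer (transHol ((B : ℝ) / (q : ℝ) ^ r) (jdHol (d * q ^ (r - n)))) := by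
  rw [preK, sigma0_jBar, actHol_gamK_inv_jdHol M q r s c B n₀ d n hd hn hsr h]

variable (hq : q.Prime) (h : (q : ℤ) ^ s * n₀ + M * c * B = 1)

include hq h hL hsr in
theorem preK_mem_range (f : FN L) : preK M q r L c f ∈ (toMer 1).fieldRange := by
  apply map_mem_of_gen
  · intro a
    exact ⟨algebraMap ℂ (MerPer 1) (iotaK a), by rw [toMer_const, preK_algebraMap]⟩
  · intro D _ hD
    rcases exists_decompK hq (hL ▸ hD) with hD' | ⟨d, n, hd, hn, rfl⟩
    · exact ⟨jdPer D, by rw [toMer_jdPer, preK_jBar_of_dvd M q r L c D hD hD']⟩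
    · have : NeZero d := ⟨fun h0 => NeZero.ne (d * q ^ (r + n)) (by rw [h0]; simp)⟩
      exact ⟨transMerPer 1 ((B : ℝ) / (q : ℝ) ^ r) (jdPer (d * q ^ (r - n))), by
        rw [toMer_transMerPer, toMer_jdPer, transMer_algebraMap,
          preK_jBar_mul M q r s L c B n₀ d n hD hd hn hsr h]⟩

/-- `preK` with values in `MerPer 1`. -/
def perK : FN L →+* MerPer 1 :=
  liftThrough (toMer 1) (preK M q r L c) (preK_mem_range M q r s L hL hsr c B n₀ hq h)

theorem toMer_perK (f : FN L) :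
    toMer 1 (perK M q r s L hL hsr c B n₀ hq h f) = actMer (gamK M q r c)⁻¹ (ThetaMer L f) :=
  liftThrough_spec _ _ _ f

theorem perK_eq_iff (f : FN L) (u : MerPer 1) :
    perK M q r s L hL hsr c B n₀ hq h f = u ↔ preK M q r L c f = toMer 1 u :=
  liftThrough_eq_iff _ _ _ f u

/-- The `q`-expansion (over `ℂ`) at the cusp `γ ∞`. -/
def lauK : FN L →+* LaurentSeries ℂ := (toLaurent 1).comp (perK M q r s L hL hsr c B n₀ hq h)

theorem lauK_apply (f : FN L) :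
    lauK M q r s L hL hsr c B n₀ hq h f = toLaurent 1 (perK M q r s L hL hsr c B n₀ hq h f) := rfl

theorem lauK_algebraMap (a : Kb) :
    lauK M q r s L hL hsr c B n₀ hq h (algebraMap Kb (FN L) a) = HahnSeries.C (iotaK a) := by
  have : perK M q r s L hL hsr c B n₀ hq h (algebraMap Kb (FN L) a)
      = algebraMap ℂ (MerPer 1) (iotaK a) := by
    rw [perK_eq_iff, preK_algebraMap, toMer_const]
  rw [lauK_apply, this, toLaurent_const]

theorem lauK_jBar_of_dvd (D : ℕ) [NeZero D] (hDL : D ∣ L) (hD : D ∣ M * q ^ r) :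
    lauK M q r s L hL hsr c B n₀ hq h (jBar L D hDL) = jqNModC ℂ D := by
  have : perK M q r s L hL hsr c B n₀ hq h (jBar L D hDL) = jdPer D := by
    rw [perK_eq_iff, preK_jBar_of_dvd M q r L c D hDL hD, toMer_jdPer]
  rw [lauK_apply, this, toLaurent_jdPer]

theorem lauK_jBar_mul (d n : ℕ) [NeZero d] (hDL : d * q ^ (r + n) ∣ L) (hd : d ∣ M)
    (hn : n ≤ s) :
    lauK M q r s L hL hsr c B n₀ hq h (jBar L (d * q ^ (r + n)) hDL)
      = rot (expU 1 ((B : ℝ) / (q : ℝ) ^ r)) (jqNModC ℂ (d * q ^ (r - n))) := by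
  have : perK M q r s L hL hsr c B n₀ hq h (jBar L (d * q ^ (r + n)) hDL)
      = transMerPer 1 ((B : ℝ) / (q : ℝ) ^ r) (jdPer (d * q ^ (r - n))) := by
    rw [perK_eq_iff, preK_jBar_mul M q r s L c B n₀ d n hDL hd hn hsr h, toMer_transMerPer,
      toMer_jdPer, transMer_algebraMap]
  rw [lauK_apply, this, toLaurent_transMerPer, toLaurent_jdPer]

/-! ### Descent of the coefficients to `Kb` -/

variable (ξ : Kbˣ) (hξ : iotaK (ξ : Kb) = (expU 1 ((B : ℝ) / (q : ℝ) ^ r) : ℂ))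

include hξ in
theorem lauK_mem_range (f : FN L) :
    lauK M q r s L hL hsr c B n₀ hq h f ∈ (coeffMap iotaK.toRingHom).fieldRange := by
  apply map_mem_of_gen
  · intro a
    refine ⟨HahnSeries.C a, ?_⟩
    rw [lauK_algebraMap, coeffMap_C]
    rfl
  · intro D _ hD
    rcases exists_decompK hq (hL ▸ hD) with hD' | ⟨d, n, hd, hn, rfl⟩
    · exact ⟨jqNModC Kb D, by
        rw [S24.coeffMap_jqNModC, lauK_jBar_of_dvd M q r s L hL hsr c B n₀ hq h D hD hD']⟩
    · have : NeZero d := ⟨fun h0 => NeZero.ne (d * q ^ (r + n)) (by rw [h0]; simp)⟩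
      exact ⟨rot ξ (jqNModC Kb (d * q ^ (r - n))), by
        rw [coeffMap_rot iotaK.toRingHom ξ _ hξ, S24.coeffMap_jqNModC,
          lauK_jBar_mul M q r s L hL hsr c B n₀ hq h d n hD hd hn]⟩

/-- **The expansion at the cusp `1/(q^r M c)`**, with coefficients in `Kb`. -/
def sigmaK : FN L →+* LaurentSeries Kb :=
  liftThrough (coeffMap iotaK.toRingHom) (lauK M q r s L hL hsr c B n₀ hq h)
    (lauK_mem_range M q r s L hL hsr c B n₀ hq h ξ hξ)

theorem coeffMap_sigmaK (f : FN L) :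
    coeffMap iotaK.toRingHom (sigmaK M q r s L hL hsr c B n₀ hq h ξ hξ f)
      = lauK M q r s L hL hsr c B n₀ hq h f :=
  liftThrough_spec _ _ _ f

theorem sigmaK_eq_iff (f : FN L) (x : LaurentSeries Kb) :
    sigmaK M q r s L hL hsr c B n₀ hq h ξ hξ f = x ↔
      lauK M q r s L hL hsr c B n₀ hq h f = coeffMap iotaK.toRingHom x :=
  liftThrough_eq_iff _ _ _ f x

theorem sigmaK_algebraMap (a : Kb) :
    sigmaK M q r s L hL hsr c B n₀ hq h ξ hξ (algebraMap Kb (FN L) a) = HahnSeries.C a := by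
  rw [sigmaK_eq_iff, lauK_algebraMap, coeffMap_C]
  rfl

theorem sigmaK_jBar_of_dvd (D : ℕ) [NeZero D] (hDL : D ∣ L) (hD : D ∣ M * q ^ r) :
    sigmaK M q r s L hL hsr c B n₀ hq h ξ hξ (jBar L D hDL) = jqNModC Kb D := by
  rw [sigmaK_eq_iff, lauK_jBar_of_dvd M q r s L hL hsr c B n₀ hq h D hDL hD,
    S24.coeffMap_jqNModC]

theorem sigmaK_jBar_mul (d n : ℕ) [NeZero d] (hDL : d * q ^ (r + n) ∣ L) (hd : d ∣ M)
    (hn : n ≤ s) :
    sigmaK M q r s L hL hsr c B n₀ hq h ξ hξ (jBar L (d * q ^ (r + n)) hDL)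
      = rot ξ (jqNModC Kb (d * q ^ (r - n))) := by
  rw [sigmaK_eq_iff, lauK_jBar_mul M q r s L hL hsr c B n₀ hq h d n hDL hd hn,
    coeffMap_rot iotaK.toRingHom ξ _ hξ, S24.coeffMap_jqNModC]

/-- the explicit `sigmaK` satisfies `IsSigK` (stated below). -/
theorem sigmaK_spec :
    (∀ a : Kb, sigmaK M q r s L hL hsr c B n₀ hq h ξ hξ (algebraMap Kb (FN L) a) = HahnSeries.C a) ∧
    (∀ (D : ℕ) [NeZero D] (hDL : D ∣ L), D ∣ M * q ^ r →
      sigmaK M q r s L hL hsr c B n₀ hq h ξ hξ (jBar L D hDL) = jqNModC Kb D) ∧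
    (∀ (d n : ℕ) [NeZero d] (hDL : d * q ^ (r + n) ∣ L), d ∣ M → n ≤ s →
      sigmaK M q r s L hL hsr c B n₀ hq h ξ hξ (jBar L (d * q ^ (r + n)) hDL)
        = rot ξ (jqNModC Kb (d * q ^ (r - n)))) :=
  ⟨sigmaK_algebraMap M q r s L hL hsr c B n₀ hq h ξ hξ,
    fun D _ hDL hD => sigmaK_jBar_of_dvd M q r s L hL hsr c B n₀ hq h ξ hξ D hDL hD,
    fun d n _ hDL hd hn => sigmaK_jBar_mul M q r s L hL hsr c B n₀ hq h ξ hξ d n hDL hd hn⟩

/-- the Bezout datum attached to a primitive `q^r`-th root of unity. -/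
theorem exists_bezoutK (M q : ℕ) (hq : q.Prime) (hqM : ¬ q ∣ M) (r s : ℕ) (ξ : Kbˣ)
    (hξ : IsPrimitiveRoot ξ (q ^ r)) :
    ∃ c B n₀ : ℤ, (q : ℤ) ^ s * n₀ + M * c * B = 1 ∧
      iotaK (ξ : Kb) = (expU 1 ((B : ℝ) / (q : ℝ) ^ r) : ℂ) := by
  have h1 : IsPrimitiveRoot (iotaK (ξ : Kb)) (q ^ r) :=
    (IsPrimitiveRoot.coe_units_iff.mpr hξ).map_of_injective iotaK.toRingHom.injective
  obtain ⟨i, -, hcop, hexp⟩ := (Complex.isPrimitiveRoot_iff _ (q ^ r) (pow_ne_zero r hq.ne_zero)).1 h1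
  obtain ⟨i', hi', hexp'⟩ : ∃ i' : ℕ, i'.Coprime q ∧
      Complex.exp (2 * π * Complex.I * (i' / (q ^ r : ℕ))) = iotaK (ξ : Kb) := by
    rcases Nat.eq_zero_or_pos r with rfl | hr
    · refine ⟨1, Nat.coprime_one_left q, ?_⟩
      have : iotaK (ξ : Kb) = 1 := by
        have := h1.pow_eq_one
        simpa using this
      rw [this]
      simp
    · exact ⟨i, Nat.Coprime.coprime_dvd_right (dvd_pow_self q hr.ne') hcop, hexp⟩
  have hc : IsCoprime ((q : ℤ) ^ s) ((M * i' : ℕ) : ℤ) := by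
    apply IsCoprime.pow_left
    rw [Nat.isCoprime_iff_coprime]
    exact Nat.Coprime.mul_right ((Nat.Prime.coprime_iff_not_dvd hq).mpr hqM) hi'.symm
  obtain ⟨a, b, hab⟩ := hc
  refine ⟨b, i', a, ?_, ?_⟩
  · rw [← hab]; push_cast; ring
  · rw [← hexp', coe_expU]
    congr 1
    push_cast
    ring

end SigmaK

/-- the characterisation of the expansion at the cusp `1/(q^r M c)` of `X₀(L)`, `L = M q^(r+s)`. -/
structure IsSigK (M q r s L : ℕ) [NeZero q] (ξ : Kbˣ) (σ : FN L →+* LaurentSeries Kb) : Prop where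
  const : ∀ a : Kb, σ (algebraMap Kb (FN L) a) = HahnSeries.C a
  low : ∀ (D : ℕ) [NeZero D] (hDL : D ∣ L), D ∣ M * q ^ r → σ (jBar L D hDL) = jqNModC Kb D
  high : ∀ (d n : ℕ) [NeZero d] (hDL : d * q ^ (r + n) ∣ L), d ∣ M → n ≤ s →
    σ (jBar L (d * q ^ (r + n)) hDL) = rot ξ (jqNModC Kb (d * q ^ (r - n)))

section Series

variable {M q r s L : ℕ} [NeZero M] [NeZero q] [NeZero L] {ξ : Kbˣ}
  {σ : FN L →+* LaurentSeries Kb}

/-- a ring hom `FN M → FN L` which is `T ↦ T ^ e` on the expansions fixes the constants. -/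
theorem map_const_of_series (e : ℕ) [NeZero e] (ι : FN M →+* FN L)
    (hι : ∀ u : FN M, ((ι u : FN L) : LaurentSeries Kb) = qExpand Kb e (u : LaurentSeries Kb))
    (a : Kb) : ι (algebraMap Kb (FN M) a) = algebraMap Kb (FN L) a := by
  apply Subtype.ext
  rw [hι]
  show qExpand Kb e (algebraMap Kb (LaurentSeries Kb) a) = algebraMap Kb (LaurentSeries Kb) a
  rw [algebraMap_laurentSeries_eq_single, qExpand_single, mul_zero]

/-- a ring hom `FN M → FN L` which is `T ↦ T ^ e` on the expansions sends `j (d τ)` to `j (d e τ)`. -/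
theorem map_jBar_of_series (e : ℕ) [NeZero e] (ι : FN M →+* FN L)
    (hι : ∀ u : FN M, ((ι u : FN L) : LaurentSeries Kb) = qExpand Kb e (u : LaurentSeries Kb))
    (d : ℕ) [NeZero d] (hd : d ∣ M) (hDL : d * e ∣ L) :
    ι (jBar M d hd) = jBar L (d * e) hDL := by
  apply Subtype.ext
  rw [hι, coe_jBar, coe_jBar, jqNModC, jqNModC, qExpand_qExpand]
  exact qExpand_congr (mul_comm e d) _

/-- `σ (u (q^i τ)) = u (T ^ (q^i))` for `i ≤ r`. -/
theorem IsSigK.apply_low (H : IsSigK M q r s L ξ σ) (hL : L = M * q ^ (r + s)) {i : ℕ}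
    (hi : i ≤ r) (ι : FN M →+* FN L)
    (hι : ∀ u : FN M, ((ι u : FN L) : LaurentSeries Kb) = qExpand Kb (q ^ i) (u : LaurentSeries Kb))
    (u : FN M) : σ (ι u) = qExpand Kb (q ^ i) (u : LaurentSeries Kb) := by
  have : σ.comp ι = (qExpand Kb (q ^ i)).comp (modularFunctionFieldBar M).val.toRingHom := by
    apply ringHom_ext_bar
    · intro a
      simp only [RingHom.comp_apply]
      rw [map_const_of_series (q ^ i) ι hι, H.const]
      show _ = qExpand Kb (q ^ i) (algebraMap Kb (LaurentSeries Kb) a)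
      rw [algebraMap_laurentSeries_eq_single, qExpand_single, mul_zero, HahnSeries.C_apply]
    · intro d _ hd
      simp only [RingHom.comp_apply]
      have hDL : d * q ^ i ∣ L := by
        rw [hL]; exact mul_dvd_mul hd (pow_dvd_pow q (by omega))
      rw [map_jBar_of_series (q ^ i) ι hι d hd hDL,
        H.low (d * q ^ i) hDL (mul_dvd_mul hd (pow_dvd_pow q hi))]
      show _ = qExpand Kb (q ^ i) ((jBar M d hd : FN M) : LaurentSeries Kb)
      rw [coe_jBar, jqNModC, jqNModC, qExpand_qExpand]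
      exact qExpand_congr (mul_comm d (q ^ i)) _
  exact congrArg (fun φ => φ u) this

/-- `σ (u (q^(r+n) τ)) = u ((ξ T) ^ (q^(r-n)))` for `n ≤ s`. -/
theorem IsSigK.apply_high (H : IsSigK M q r s L ξ σ) (hL : L = M * q ^ (r + s)) {n : ℕ}
    (hn : n ≤ s) (ι : FN M →+* FN L)
    (hι : ∀ u : FN M,
      ((ι u : FN L) : LaurentSeries Kb) = qExpand Kb (q ^ (r + n)) (u : LaurentSeries Kb))
    (u : FN M) : σ (ι u) = rot ξ (qExpand Kb (q ^ (r - n)) (u : LaurentSeries Kb)) := by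
  have : σ.comp ι = ((rotHom ξ).comp (qExpand Kb (q ^ (r - n)))).comp
      (modularFunctionFieldBar M).val.toRingHom := by
    apply ringHom_ext_bar
    · intro a
      simp only [RingHom.comp_apply]
      rw [map_const_of_series (q ^ (r + n)) ι hι, H.const]
      show _ = rot ξ (qExpand Kb (q ^ (r - n)) (algebraMap Kb (LaurentSeries Kb) a))
      rw [algebraMap_laurentSeries_eq_single, qExpand_single, mul_zero, ← HahnSeries.C_apply, S36.rot_C]
    · intro d _ hd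
      simp only [RingHom.comp_apply]
      have hDL : d * q ^ (r + n) ∣ L := by
        rw [hL]; exact mul_dvd_mul hd (pow_dvd_pow q (by omega))
      rw [map_jBar_of_series (q ^ (r + n)) ι hι d hd hDL, H.high d n hDL hd hn]
      show _ = rot ξ (qExpand Kb (q ^ (r - n)) ((jBar M d hd : FN M) : LaurentSeries Kb))
      rw [coe_jBar, jqNModC, jqNModC, qExpand_qExpand]
      congr 1
      exact qExpand_congr (mul_comm d (q ^ (r - n))) _
  exact congrArg (fun φ => φ u) this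

/-- rotation of a series in `T ^ e` : only `ξ ^ e` matters. -/
theorem rot_qExpand (e : ℕ) [NeZero e] (ξ : Kbˣ) (x : LaurentSeries Kb) :
    rot ξ (qExpand Kb e x) = qExpand Kb e (rot (ξ ^ e) x) := by
  ext m
  by_cases hm : (e : ℤ) ∣ m
  · obtain ⟨k, rfl⟩ := hm
    rw [rot_coeff, qExpand_coeff_mul, qExpand_coeff_mul, rot_coeff, ← zpow_natCast, ← zpow_mul]
  · rw [rot_coeff, qExpand_coeff_of_not_dvd e _ hm, qExpand_coeff_of_not_dvd e _ hm, mul_zero]

/-- an embedding `σ` as in `IsSigK` is determined by `ξ`. -/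
theorem IsSigK.ext (hq : q.Prime) (hL : L = M * q ^ (r + s)) {σ' : FN L →+* LaurentSeries Kb}
    (H : IsSigK M q r s L ξ σ) (H' : IsSigK M q r s L ξ σ') : σ = σ' := by
  apply ringHom_ext_bar
  · intro a
    rw [H.const, H'.const]
  · intro D _ hD
    rcases exists_decompK hq (hL ▸ hD) with hD' | ⟨d, n, hd, hn, rfl⟩
    · rw [H.low D hD hD', H'.low D hD hD']
    · have : NeZero d := ⟨fun h0 => NeZero.ne (d * q ^ (r + n)) (by rw [h0]; simp)⟩
      rw [H.high d n hD hd hn, H'.high d n hD hd hn]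

end Series

/-- **[V_k]** For every primitive `q^r`-th root of unity `ξ` and `s ≤ r` there is an embedding of the
function field of `X₀(M q^(r+s))` into `Kb((T))` (the expansion at a cusp `1/(q^r M c)`, of width one)
which is the standard expansion on `j (D τ)`, `D ∣ M q^r`, and sends `j (d q^(r+n) τ)` to
`j_{d q^(r-n)} (ξ T)` (`d ∣ M`, `n ≤ s`). -/
theorem exists_sigmaK (M q : ℕ) [NeZero M] [NeZero q] (hq : q.Prime) (hqM : ¬ q ∣ M) (r s : ℕ)
    (hsr : s ≤ r) (L : ℕ) [NeZero L] (hL : L = M * q ^ (r + s)) (ξ : Kbˣ)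
    (hξ : IsPrimitiveRoot ξ (q ^ r)) :
    ∃ σ : FN L →+* LaurentSeries Kb, IsSigK M q r s L ξ σ := by
  obtain ⟨c, B, n₀, h, hξ'⟩ := exists_bezoutK M q hq hqM r s ξ hξ
  obtain ⟨h1, h2, h3⟩ := sigmaK_spec M q r s L hL hsr c B n₀ hq h ξ hξ'
  exact ⟨sigmaK M q r s L hL hsr c B n₀ hq h ξ hξ', h1, h2, h3⟩

end Fermat.Agent.S45
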