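import Fermat.Agent.S45.Mod.Objects
import Fermat.Agent.S45.Mod.CuspK
import Fermat.Agent.S36.Mod.AL2

/-!
# S45 / Mod / Eps : `[MODK-EPS]` existence of the expansions `E_{k,s}` of THE TABLE (`Objects.lean`)

* first regime `2 s ≤ k` : `exists_sigmaK` (`CuspK.lean`) with `r = k - s`, `ξ = z r`;
* second regime `k < 2 s` : (first regime of `(k, k - s)` for the system `z⁻¹`) `∘ W_{q^k}` (`S36.alW`).
-/

set_option autoImplicit false
set_option linter.unusedSectionVars false
noncomputable section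

open ModularCurve

namespace Fermat.Agent.S45

open Fermat.Agent.S24 Fermat.Agent.S36

section Z

variable {q : ℕ} {z : ℕ → Kbˣ}

theorem ZSys.pow_pow_eps (hz : ZSys q z) (n m : ℕ) : z (n + m) ^ (q ^ m) = z n := by
  induction m with
  | zero => simp
  | succ m ih => rw [← add_assoc, pow_succ', pow_mul, hz.succ, ih]

theorem ZSys.prim_eps (hq : q.Prime) (hz : ZSys q z) (n : ℕ) : IsPrimitiveRoot (z n) (q ^ n) := by
  cases n with
  | zero => rw [hz.zero, pow_zero]; exact IsPrimitiveRoot.one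
  | succ n =>
    have : Fact q.Prime := ⟨hq⟩
    have h1 : ¬ z (n + 1) ^ q ^ n = 1 := by
      rw [add_comm n 1, hz.pow_pow_eps 1 n]; exact hz.one
    have h2 : z (n + 1) ^ q ^ (n + 1) = 1 := by
      have := hz.pow_pow_eps 0 (n + 1)
      rw [zero_add] at this
      rw [this, hz.zero]
    rw [← orderOf_eq_prime_pow h1 h2]
    exact IsPrimitiveRoot.orderOf _

theorem ZSys.inv_eps (hz : ZSys q z) : ZSys q (fun n => (z n)⁻¹) where
  zero := by simp [hz.zero]
  succ n := by simp [inv_pow, hz.succ]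
  one := by simpa using hz.one

end Z

theorem subT_congr {ζ ζ' : Kbˣ} {x x' : ℕ} [NeZero x] [NeZero x'] (hζ : ζ = ζ') (hx : x = x')
    (f : LaurentSeries Kb) : subT ζ x f = subT ζ' x' f := by
  subst hζ hx; rfl

variable (M q : ℕ) [NeZero M] [NeZero q]

/-- **first regime** -/
theorem exists_eps_first (hq : q.Prime) (hqM : ¬ q ∣ M) {z : ℕ → Kbˣ} (hz : ZSys q z) (k s : ℕ)
    (h2 : 2 * s ≤ k) : ∃ E, IsEps M q z k s E := by
  obtain ⟨r, rfl⟩ : ∃ r, k = r + s := ⟨k - s, by omega⟩
  have hsr : s ≤ r := by omega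
  have hL : lv M q (r + s) = M * q ^ (r + s) := lv_eq M q (r + s)
  obtain ⟨σ, H⟩ := exists_sigmaK M q hq hqM r s hsr (lv M q (r + s)) hL (z r) (hz.prim_eps hq r)
  refine ⟨σ, H.const, fun i hi u => ?_⟩
  rcases le_or_gt i r with hir | hir
  · have := H.apply_low hL hir (aL Kb M q (r + s) i : FN M →+* FN (lv M q (r + s)))
      (fun u => coe_aL Kb M q (r + s) i hi u) u
    refine this.trans ?_
    have e1 : zT z (r + s) s i = 1 := by
      rw [zT, if_pos h2, show i - (r + s - s) = 0 by omega, hz.zero]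
    have e2 : nK (r + s) s i = i := by
      rw [nK, if_pos h2, if_pos (by omega)]
    rw [subT_congr e1 (congrArg (q ^ ·) e2), subT_apply, rot_one_left]
  · obtain ⟨n, rfl⟩ : ∃ n, i = r + n := ⟨i - r, by omega⟩
    have hn : n ≤ s := by omega
    have := H.apply_high hL hn (aL Kb M q (r + s) (r + n) : FN M →+* FN (lv M q (r + s)))
      (fun u => coe_aL Kb M q (r + s) (r + n) hi u) u
    refine this.trans ?_
    have e1 : zT z (r + s) s (r + n) = z r ^ (q ^ (r - n)) := by
      rw [zT, if_pos h2, show r + n - (r + s - s) = n by omega]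
      have := hz.pow_pow_eps n (r - n)
      rw [show n + (r - n) = r by omega] at this
      exact this.symm
    have e2 : nK (r + s) s (r + n) = r - n := by
      rw [nK, if_pos h2, if_neg (by omega)]
      omega
    rw [subT_congr e1 (congrArg (q ^ ·) e2), subT_apply, rot_qExpand]

/-- the Atkin–Lehner involution `W_{q^k}` exchanges `u (q^i τ)` and `u (q^(k-i) τ)`. -/
theorem exists_WK (hq : q.Prime) (hqM : ¬ q ∣ M) (k : ℕ) :
    ∃ w : FN (lv M q k) →+* FN (lv M q k),
      (∀ a : Kb, w (algebraMap Kb _ a) = algebraMap Kb _ a) ∧ (∀ f, w (w f) = f) ∧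
      ∀ i, i ≤ k → ∀ u : FN M, w (aL Kb M q k i u) = aL Kb M q k (k - i) u := by
  have hcop : IsCoprime ((q ^ k : ℕ) : ℤ) (M : ℤ) := by
    apply Nat.isCoprime_iff_coprime.mpr
    exact Nat.Coprime.pow_left k ((Nat.Prime.coprime_iff_not_dvd hq).mpr hqM)
  obtain ⟨a, b, hab⟩ := hcop
  have h : ((q ^ k : ℕ) : ℤ) * a - M * (-b) = 1 := by linear_combination hab
  have hL := lv_eq M q k
  refine ⟨alW (lv M q k) M (q ^ k) hL a (-b) h, alW_algebraMap _ _ _ _ _ _ _,
    alW_alW _ _ _ _ _ _ _, fun i hi u => ?_⟩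
  have : (alW (lv M q k) M (q ^ k) hL a (-b) h).comp
      (aL Kb M q k i : FN M →+* FN (lv M q k))
      = (aL Kb M q k (k - i) : FN M →+* FN (lv M q k)) := by
    apply ringHom_ext_bar
    · intro c
      simp only [RingHom.comp_apply, RingHom.coe_coe, AlgHom.commutes]
      exact alW_algebraMap _ _ _ _ _ _ _ c
    · intro d _ hd
      simp only [RingHom.comp_apply]
      have hD1 : d * q ^ i ∣ lv M q k := by
        rw [hL]; exact mul_dvd_mul hd (pow_dvd_pow q hi)
      have hD2 : d * q ^ (k - i) ∣ lv M q k := by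
        rw [hL]; exact mul_dvd_mul hd (pow_dvd_pow q (by omega))
      rw [map_jBar_of_series (q ^ i) (aL Kb M q k i : FN M →+* FN (lv M q k))
          (fun u => coe_aL Kb M q k i hi u) d hd hD1,
        map_jBar_of_series (q ^ (k - i)) (aL Kb M q k (k - i) : FN M →+* FN (lv M q k))
          (fun u => coe_aL Kb M q k (k - i) (by omega) u) d hd hD2]
      exact alW_jBar' _ _ _ _ _ _ _ d (q ^ i) (q ^ (k - i)) _ _ hd
        (by rw [← pow_add, Nat.add_sub_cancel' hi]) (mul_comm _ _) (mul_comm _ _) _ _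
  exact congrArg (fun φ => φ u) this

/-- **second regime** -/
theorem exists_eps_second (hq : q.Prime) (hqM : ¬ q ∣ M) {z : ℕ → Kbˣ} (hz : ZSys q z) (k s : ℕ)
    (hs : s ≤ k) (h2 : k < 2 * s) : ∃ E, IsEps M q z k s E := by
  obtain ⟨E', H'⟩ := exists_eps_first M q hq hqM hz.inv_eps k (k - s) (by omega)
  obtain ⟨w, hw0, -, hw⟩ := exists_WK M q hq hqM k
  refine ⟨E'.comp w, fun a => ?_, fun i hi u => ?_⟩
  · rw [RingHom.comp_apply, hw0, H'.c]
  · rw [RingHom.comp_apply, hw i hi u, H'.t (k - i) (by omega) u]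
    have e1 : zT (fun n => (z n)⁻¹) k (k - s) (k - i) = zT z k s i := by
      have a1 : zT (fun n => (z n)⁻¹) k (k - s) (k - i) = (z (k - i - (k - (k - s))))⁻¹ := by
        unfold zT; rw [if_pos (by omega)]
      have a2 : zT z k s i = (z (k - s - i))⁻¹ := by
        unfold zT; rw [if_neg (by omega)]
      rw [a1, a2, show k - i - (k - (k - s)) = k - s - i by omega]
    have e2 : nK k (k - s) (k - i) = nK k s i := by
      have a1 : nK k (k - s) (k - i)
          = if k - i ≤ k - (k - s) then k - i else 2 * (k - (k - s)) - (k - i) := by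
        unfold nK; rw [if_pos (by omega)]
      have a2 : nK k s i = if k - s ≤ i then k - i else s + i - (k - s) := by
        unfold nK; rw [if_neg (by omega)]
      rw [a1, a2]
      by_cases h : k - s ≤ i
      · rw [if_pos (by omega), if_pos h]
      · rw [if_neg (by omega), if_neg h]
        omega
    exact subT_congr e1 (congrArg (q ^ ·) e2) _

/-- **[MODK-EPS]** -/
theorem exists_eps (hq : q.Prime) (hqM : ¬ q ∣ M) {z : ℕ → Kbˣ} (hz : ZSys q z) (k s : ℕ)
    (hs : s ≤ k) : ∃ E, IsEps M q z k s E := by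
  rcases le_or_gt (2 * s) k with h | h
  · exact exists_eps_first M q hq hqM hz k s h
  · exact exists_eps_second M q hq hqM hz k s hs h

end Fermat.Agent.S45
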