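import Fermat.Agent.S45.Mod.Objects

/-!
# S45 / modular part : compatible systems of roots of unity
-/

set_option autoImplicit false
set_option linter.unusedSectionVars false
noncomputable section

namespace Fermat.Agent.S45

open Fermat.Agent.S24 Fermat.Agent.S36

variable {q : ℕ} {z : ℕ → Kbˣ}

theorem ZSys.pow_pow (hz : ZSys q z) (n m : ℕ) : z (n + m) ^ (q ^ m) = z n := by
  induction m with
  | zero => simp
  | succ m ih => rw [← add_assoc, pow_succ', pow_mul, hz.succ, ih]

theorem ZSys.pow_eq_one (hz : ZSys q z) (n : ℕ) : z n ^ (q ^ n) = 1 := by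
  have := hz.pow_pow 0 n
  rwa [zero_add, hz.zero] at this

theorem ZSys.prim (hz : ZSys q z) (hq : q.Prime) (n : ℕ) : IsPrimitiveRoot (z n) (q ^ n) := by
  rcases n with _ | n
  · rw [pow_zero, hz.zero]; exact IsPrimitiveRoot.one
  · have : Fact q.Prime := ⟨hq⟩
    refine (IsPrimitiveRoot.iff_def _ _).2 ⟨hz.pow_eq_one _, ?_⟩
    intro l hl
    have hord : orderOf (z (n + 1)) = q ^ (n + 1) := by
      refine orderOf_eq_prime_pow ?_ (hz.pow_eq_one _)
      have := hz.pow_pow 1 n
      rw [add_comm 1 n] at this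
      rw [this]
      exact hz.one
    rw [← hord]
    exact orderOf_dvd_of_pow_eq_one hl

theorem ZSys.inv (hz : ZSys q z) : ZSys q (fun n => (z n)⁻¹) where
  zero := by simp [hz.zero]
  succ n := by simp [inv_pow, hz.succ]
  one := by simpa using hz.one

theorem exists_zSys (hq : q.Prime) (ζ : Kbˣ) (hζ : IsPrimitiveRoot ζ q) :
    ∃ z : ℕ → Kbˣ, ZSys q z ∧ z 1 = ζ := by
  classical
  have hroot : ∀ x : Kbˣ, ∃ y : Kbˣ, y ^ q = x := by
    intro x
    obtain ⟨y, hy⟩ := IsAlgClosed.exists_pow_nat_eq (x : Kb) hq.pos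
    have hy0 : y ≠ 0 := by
      rintro rfl
      rw [zero_pow hq.ne_zero] at hy
      exact x.ne_zero hy.symm
    exact ⟨Units.mk0 y hy0, Units.ext (by simpa using hy)⟩
  let w : ℕ → Kbˣ := fun n => Nat.rec ζ (fun _ x => (hroot x).choose) n
  have hw : ∀ n, w (n + 1) ^ q = w n := fun n => (hroot (w n)).choose_spec
  refine ⟨fun n => Nat.casesOn n 1 w, ⟨rfl, ?_, ?_⟩, rfl⟩
  · intro n
    rcases n with _ | n
    · exact hζ.pow_eq_one
    · exact hw n
  · exact hζ.ne_one hq.one_lt

end Fermat.Agent.S45
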