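import Fermat.Agent.S36.Mod.SysTab

/-!
# S45 / modular part : levels `lv M q k = M q^k`, the maps `u ↦ u (q^i τ)`, and THE TABLE

Numbering of the `k + 1` components of `X₀(M q^k)` mod `q`: `s = 0, …, k`;  `s = 0` is the
component of the cusp `∞`, `s = k` the component of the cusp `0`.  With `a = k - s`: the chain
`E_0 → … → E_k` has `a` Frobenius steps followed by `s` Verschiebung steps.
-/

set_option autoImplicit false
set_option linter.unusedSectionVars false
noncomputable section

open ModularCurve Polynomial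

namespace Fermat.Agent.S45

open Fermat.Agent.S24 Fermat.Agent.S36 Fermat.Agent.RED.Gauss Fermat.Agent.GAL.AD

/-- the level `M q^k`, defined by recursion so that `lv (k+1) = lv k * q` is `rfl`. -/
def lv (M q : ℕ) : ℕ → ℕ
  | 0 => M
  | k + 1 => lv M q k * q

@[simp] theorem lv_zero (M q : ℕ) : lv M q 0 = M := rfl
@[simp] theorem lv_succ (M q k : ℕ) : lv M q (k + 1) = lv M q k * q := rfl

theorem lv_eq (M q k : ℕ) : lv M q k = M * q ^ k := by
  induction k with
  | zero => simp
  | succ k ih => rw [lv_succ, ih, pow_succ, mul_assoc]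

instance instNeZeroLv (M q k : ℕ) [NeZero M] [NeZero q] : NeZero (lv M q k) :=
  ⟨by rw [lv_eq]; exact mul_ne_zero (NeZero.ne M) (pow_ne_zero _ (NeZero.ne q))⟩

section Maps

variable (K : Type*) [Field K] [CharZero K] (M q : ℕ) [NeZero M] [NeZero q]

/-- `α_k : level (k) → level (k+1)`, `u ↦ u(τ)`. -/
abbrev alK (k : ℕ) : FK K (lv M q k) →ₐ[K] FK K (lv M q (k + 1)) := heckeAlphaBar K (lv M q k) q

/-- `β_k : level (k) → level (k+1)`, `u ↦ u(q τ)`. -/
abbrev beK (k : ℕ) : FK K (lv M q k) →ₐ[K] FK K (lv M q (k + 1)) := heckeBetaBar K (lv M q k) q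

theorem coe_alK (k : ℕ) (x : FK K (lv M q k)) :
    ((alK K M q k x : FK K (lv M q (k + 1))) : LaurentSeries K) = (x : LaurentSeries K) :=
  coe_heckeAlphaBar (lv M q k) q x

theorem coe_beK (k : ℕ) (x : FK K (lv M q k)) :
    ((beK K M q k x : FK K (lv M q (k + 1))) : LaurentSeries K)
      = qExpand K q (x : LaurentSeries K) :=
  coe_heckeBetaBar (lv M q k) q x

/-- `u ↦ u(q^i τ)`, level `M → M q^k` (`i ≤ k`; junk value `i = k` for `i > k`). -/
def aL : (k : ℕ) → ℕ → (FK K M →ₐ[K] FK K (lv M q k))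
  | 0, _ => AlgHom.id K _
  | k + 1, i => if i ≤ k then (alK K M q k).comp (aL k i) else (beK K M q k).comp (aL k k)

theorem aL_zero (i : ℕ) (u : FK K M) : aL K M q 0 i u = u := rfl

theorem aL_succ_of_le (k i : ℕ) (hi : i ≤ k) (u : FK K M) :
    aL K M q (k + 1) i u = alK K M q k (aL K M q k i u) := by
  rw [aL, if_pos hi]; rfl

theorem aL_succ_self (k : ℕ) (u : FK K M) :
    aL K M q (k + 1) (k + 1) u = beK K M q k (aL K M q k k u) := by
  rw [aL, if_neg (by omega)]; rfl

/-- **the characterisation of `aL`**. -/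
theorem coe_aL (k i : ℕ) (hi : i ≤ k) (u : FK K M) :
    ((aL K M q k i u : FK K (lv M q k)) : LaurentSeries K)
      = qExpand K (q ^ i) (u : LaurentSeries K) := by
  induction k generalizing i with
  | zero =>
    obtain rfl : i = 0 := by omega
    rw [aL_zero, qExpand_congr (pow_zero q), qExpand_one_apply]
  | succ k ih =>
    rcases Nat.lt_or_ge k i with h | h
    · obtain rfl : i = k + 1 := by omega
      rw [aL_succ_self, coe_beK, ih k le_rfl, qExpand_qExpand]
      exact qExpand_congr (by rw [pow_succ, mul_comm]) _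
    · rw [aL_succ_of_le K M q k i h, coe_alK, ih i h]

theorem aL_succ_succ (k i : ℕ) (hi : i ≤ k) (u : FK K M) :
    aL K M q (k + 1) (i + 1) u = beK K M q k (aL K M q k i u) := by
  apply Subtype.ext
  rw [coe_aL K M q (k + 1) (i + 1) (by omega), coe_beK, coe_aL K M q k i hi,
    qExpand_qExpand]
  exact qExpand_congr (by rw [pow_succ, mul_comm]) _

/-- `j(q^i τ)` at level `M q^k`. -/
def jL (k i : ℕ) : FK K (lv M q k) := aL K M q k i (jK K M 1 (one_dvd M))

end Maps

/-! ### THE TABLE

Component `s ≤ k`, `a := k - s`.  The expansion `E_{k,s}` sends `u (q^i τ)` to `u (t_i)`,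
`t_i = zT z k s i * T ^ (q ^ nK k s i)`:

* first regime `s ≤ a` (`2 s ≤ k`):  `t_i = T^(q^i)` (`i ≤ a`),  `t_i = z_(i-a) T^(q^(2a-i))` (`i ≥ a`);
* second regime `a < s` (`k < 2 s`): `t_i = T^(q^(k-i))` (`i ≥ a`),
  `t_i = z_(a-i)⁻¹ T^(q^(s-a+i))` (`i ≤ a`).

`z_n` is a compatible system of primitive `q^n`-th roots of unity (`ZSys`).  THE INVERSE in the second
regime makes all the transition formulas `E_{k+1,s} ∘ α`, `E_{k+1,s} ∘ β` monomial substitutions
of `E_{k,s'}` (no Galois conjugation), see `Trans.lean`.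
-/

/-- a compatible system of primitive `q^n`-th roots of unity. -/
structure ZSys (q : ℕ) (z : ℕ → Kbˣ) : Prop where
  zero : z 0 = 1
  succ : ∀ n, z (n + 1) ^ q = z n
  one : z 1 ≠ 1

/-- the exponents of the table: `red_s (u (q^i τ)) = ubar (T ^ (q ^ nK k s i))`. -/
def nK (k s i : ℕ) : ℕ :=
  if 2 * s ≤ k then (if i ≤ k - s then i else 2 * (k - s) - i)
  else (if k - s ≤ i then k - i else s + i - (k - s))

/-- the roots of unity of the table. -/
def zT (z : ℕ → Kbˣ) (k s i : ℕ) : Kbˣ :=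
  if 2 * s ≤ k then z (i - (k - s)) else (z (k - s - i))⁻¹

/-- the substitution `u(T) ↦ u(ζ T^x)`. -/
def subT (ζ : Kbˣ) (x : ℕ) [NeZero x] : LaurentSeries Kb →+* LaurentSeries Kb :=
  (qExpand Kb x).comp (rotHom ζ)

theorem subT_apply (ζ : Kbˣ) (x : ℕ) [NeZero x] (f : LaurentSeries Kb) :
    subT ζ x f = qExpand Kb x (rot ζ f) := rfl

section Eps

variable (M q : ℕ) [NeZero M] [NeZero q]

/-- **the specification of the expansion `E_{k,s}` of level `M q^k` along the component `s`.** -/
structure IsEps (z : ℕ → Kbˣ) (k s : ℕ) (E : FN (lv M q k) →+* LaurentSeries Kb) : Prop where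
  c : ∀ a : Kb, E (algebraMap Kb (FN (lv M q k)) a) = HahnSeries.C a
  t : ∀ i, i ≤ k → ∀ u : FN M,
    E (aL Kb M q k i u) = subT (zT z k s i) (q ^ nK k s i) (u : LaurentSeries Kb)

variable (A : ValuationSubring Kb)

theorem embF0_aL (k i : ℕ) (hi : i ≤ k) (u : F0 A M) :
    embF0 A (lv M q k) (aL (KK A) M q k i u) = aL Kb M q k i (embF0 A M u) := by
  apply Subtype.ext
  rw [coe_embF0, coe_aL _ _ _ _ _ hi, coe_aL _ _ _ _ _ hi, coe_embF0, cK, coeffMap_qExpand]

/-- multiplicity of the component `s` of level `k`: `φ(q^min(s,k-s))`. -/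
def eK (q k s : ℕ) : ℕ := Nat.totient (q ^ min s (k - s))

/-- the uniformiser of the coefficient ring of the component `s`: `q` or `1 - z_(min(s,k-s))`. -/
def lamK (q : ℕ) (z : ℕ → Kbˣ) (k s : ℕ) : Kb :=
  if min s (k - s) = 0 then (q : Kb) else 1 - (z (min s (k - s)) : Kb)

/-- the image of the component `s` of level `k + 1` in level `k` under `α` (forget `E_(k+1)`). -/
def idxA (s : ℕ) : ℕ := s - 1

/-- the image of the component `s` of level `k + 1` in level `k` under `β` (forget `E_0`). -/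
def idxB (k s : ℕ) : ℕ := min s k

end Eps

end Fermat.Agent.S45
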