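import Fermat.Agent.S36.Mod.Deg
import Fermat.Agent.S45.Mod.Objects

/-!
# S45 / modular part : `[MODK-DEG]` degrees and numerics

* `dedekindPsi_mul_pow_succ` : `ψ (M q^(k+1)) = q^k (q+1) ψ(M)`;
* `finrank_adjoin_of_series` : `[FN L : Kb(j(Dτ))] = ψ(L)` for every `D ∣ L`;
  `finrank_F0_le_of_series` : the same (`≤`) over `KK A`;
* arithmetic of the table `nK k s i`, `eK q k s` of `Objects.lean`;
* `sum_eK_nK` : `∑_s e_s q^(n(s,i)) = q^(k-1) (q+1)` for every `i ≤ k`.
-/

set_option autoImplicit false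
set_option linter.unusedSectionVars false
noncomputable section

open ModularCurve IntermediateField
open Fermat.Agent.S24 Fermat.Agent.RED.Desc Fermat.Agent.S36

namespace Fermat.Agent.S45

/-! ### `ψ` -/

theorem dedekindPsi_mul_pow_succ {M q : ℕ} (hM : M ≠ 0) (hq : q.Prime) (hqM : ¬ q ∣ M) (k : ℕ) :
    dedekindPsi (M * q ^ (k + 1)) = q ^ k * (q + 1) * dedekindPsi M := by
  induction k with
  | zero =>
    rw [zero_add, pow_one, pow_zero, one_mul,
      Fermat.Agent.S20.dedekindPsi_mul_prime_of_not_dvd hM hq hqM]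
  | succ k ih =>
    rw [pow_succ q (k + 1), ← mul_assoc,
      Fermat.Agent.S20.dedekindPsi_mul_prime_of_dvd
        (Nat.mul_ne_zero hM (pow_ne_zero _ hq.ne_zero)) hq
        (Dvd.dvd.mul_left (dvd_pow_self q (Nat.succ_ne_zero k)) M), ih]
    ring

theorem dedekindPsi_mul_pow {M q : ℕ} (hM : M ≠ 0) (hq : q.Prime) (hqM : ¬ q ∣ M) {k : ℕ}
    (hk : 1 ≤ k) : dedekindPsi (M * q ^ k) = q ^ (k - 1) * (q + 1) * dedekindPsi M := by
  obtain ⟨k, rfl⟩ : ∃ m, k = m + 1 := ⟨k - 1, by omega⟩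
  exact dedekindPsi_mul_pow_succ hM hq hqM k

/-! ### the degree of `j (D τ)` -/

theorem finrank_adjoin_of_series_aux (D c : ℕ) [NeZero D] [NeZero c] (y : FN (1 * D * c))
    (hy : (y : LaurentSeries Kb) = jqNModC Kb D) :
    Module.finrank Kb⟮y⟯ (FN (1 * D * c)) = Nat.card (XN (1 * D * c)) := by
  have h : y = heckeAlphaBar Kb (1 * D) c (heckeBetaBar Kb 1 D (jF 1)) := by
    apply Subtype.ext
    rw [hy, coe_heckeAlphaBar, coe_heckeBetaBar, RED.Desc.coe_jF, jqNModC]
  rw [h]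
  exact finrank_adjoin_alpha _ _ (finrank_adjoin_beta _ _ (finrank_adjoin_jF 1))

/-- `[FN L : Kb(j(Dτ))] = ψ(L)` -/
theorem finrank_adjoin_of_series {L D : ℕ} [NeZero L] [NeZero D] (hD : D ∣ L) (y : FN L)
    (hy : (y : LaurentSeries Kb) = jqNModC Kb D) :
    Module.finrank Kb⟮y⟯ (FN L) = Nat.card (XN L) := by
  obtain ⟨c, hc⟩ := hD
  have hc0 : NeZero c := ⟨fun h => NeZero.ne L (by rw [hc, h, mul_zero])⟩
  have hL : L = 1 * D * c := by rw [one_mul, hc]
  subst hL
  exact finrank_adjoin_of_series_aux D c y hy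

theorem finrank_adjoin_jBar {L D : ℕ} [NeZero L] [NeZero D] (hD : D ∣ L) :
    Module.finrank Kb⟮jBar L D hD⟯ (FN L) = Nat.card (XN L) :=
  finrank_adjoin_of_series hD _ (coe_jBar L D hD)

/-- **[DEG_k]** -/
theorem finrank_F0_le_of_series {A : ValuationSubring Kb} {L D : ℕ} [NeZero L] [NeZero D]
    (hD : D ∣ L) (y : F0 A L) (hy : (y : LaurentSeries (KK A)) = jqNModC (KK A) D) :
    FiniteDimensional (KK A)⟮y⟯ (F0 A L) ∧
      Module.finrank (KK A)⟮y⟯ (F0 A L) ≤ dedekindPsi L := by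
  apply finrank_F0_le
  apply finrank_adjoin_of_series hD
  rw [coe_embF0, hy, cK, ModularCurve.coeffMap_jqNModC]

/-! ### the table -/

theorem nK_of_le {k s i : ℕ} (hs : s ≤ k) (h : i ≤ k - s) : nK k s i = i + (2 * s - k) := by
  unfold nK
  split_ifs <;> omega

theorem nK_of_lt {k s i : ℕ} (h : k - s < i) (hi : i ≤ k) :
    nK k s i = max (2 * (k - s)) k - i := by
  unfold nK
  split_ifs <;> omega

/-- steps of type `F` -/
theorem nK_succ_of_lt {k s i : ℕ} (h : i < k - s) : nK k s (i + 1) = nK k s i + 1 := by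
  unfold nK
  split_ifs <;> omega

/-- steps of type `V` -/
theorem nK_succ_of_le {k s i : ℕ} (hs : s ≤ k) (h : k - s ≤ i) (hi : i < k) :
    nK k s i = nK k s (i + 1) + 1 := by
  unfold nK
  split_ifs <;> omega

theorem nK_zero_right {k s : ℕ} (hs : s ≤ k) : nK k s 0 = 2 * s - k := by
  unfold nK
  split_ifs <;> omega

theorem nK_self_right {k s : ℕ} (hs : s ≤ k) : nK k s k = k - 2 * s := by
  unfold nK
  split_ifs <;> omega

/-- on every component one of the two end maps has Frobenius exponent `0` -/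
theorem exists_nK_eq_zero {k s : ℕ} (hs : s ≤ k) : nK k s 0 = 0 ∨ nK k s k = 0 := by
  rw [nK_zero_right hs, nK_self_right hs]
  omega

theorem nK_zero_left {k i : ℕ} (hi : i ≤ k) : nK k 0 i = i := by
  unfold nK
  split_ifs <;> omega

theorem nK_self_left {k i : ℕ} (hi : i ≤ k) : nK k k i = k - i := by
  unfold nK
  split_ifs <;> omega

/-- the mirror symmetry (Atkin-Lehner) -/
theorem nK_mirror {k s i : ℕ} (hs : s ≤ k) (hi : i ≤ k) : nK k (k - s) (k - i) = nK k s i := by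
  unfold nK
  split_ifs <;> omega

theorem eK_mirror {q k s : ℕ} (hs : s ≤ k) : eK q k (k - s) = eK q k s := by
  unfold eK
  congr 2
  omega

theorem eK_zero (q k : ℕ) : eK q k 0 = 1 := by
  rw [eK, Nat.zero_min, pow_zero, Nat.totient_one]

theorem eK_self (q k : ℕ) : eK q k k = 1 := by
  rw [eK, Nat.sub_self, Nat.min_zero, pow_zero, Nat.totient_one]

theorem eK_of_mid {q k s : ℕ} (hq : q.Prime) (h0 : 0 < s) (hs : s < k) :
    eK q k s = q ^ (min s (k - s) - 1) * (q - 1) :=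
  Nat.totient_prime_pow hq (by omega)

/-- separation of the components by the table -/
theorem nK_sep {k s s' : ℕ} (hs' : s' ≤ k) (h : s < s') :
    nK k s' (k - s') = nK k s' (k - s' + 1) + 1 ∧ nK k s (k - s') ≠ nK k s (k - s' + 1) + 1 := by
  refine ⟨nK_succ_of_le hs' le_rfl (by omega), ?_⟩
  rw [nK_succ_of_lt (by omega)]
  omega

/-- separation of the components, in the shape of `IsTabK.injective` -/
theorem nK_rows {k s s' : ℕ} (hs : s ≤ k) (hs' : s' ≤ k) (h : s ≠ s') :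
    ∃ i i', i ≤ k ∧ i' ≤ k ∧ nK k s i + nK k s' i' ≠ nK k s i' + nK k s' i := by
  rcases Nat.lt_or_gt_of_ne h with h | h
  · obtain ⟨h1, h2⟩ := nK_sep hs' h
    exact ⟨k - s', k - s' + 1, by omega, by omega, by omega⟩
  · obtain ⟨h1, h2⟩ := nK_sep hs h
    exact ⟨k - s, k - s + 1, by omega, by omega, by omega⟩

section Sum

variable {q k : ℕ} (hq : q.Prime)

include hq

theorem term_low {s i : ℕ} (h0 : 0 < s) (hs : s < k) (h : s ≤ k - i) (hi : i ≤ k) :
    eK q k s * q ^ nK k s i = (q - 1) * q ^ (i + (s - 1)) := by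
  rw [eK_of_mid hq h0 hs, nK_of_le hs.le (by omega)]
  have : i + (s - 1) = (min s (k - s) - 1) + (i + (2 * s - k)) := by omega
  rw [this, pow_add]
  ring

theorem term_high {s i : ℕ} (h0 : 0 < s) (hs : s < k) (h : k - i < s) (hi : i ≤ k) :
    eK q k s * q ^ nK k s i = (q - 1) * q ^ (k - i + (k - s - 1)) := by
  rw [eK_of_mid hq h0 hs, nK_of_lt (by omega) hi]
  have : k - i + (k - s - 1) = (min s (k - s) - 1) + (max (2 * (k - s)) k - i) := by omega
  rw [this, pow_add]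
  ring

theorem pred_mul_add (x : ℕ) : x + (q - 1) * x = q * x := by
  obtain ⟨r, rfl⟩ : ∃ r, q = r + 1 := ⟨q - 1, by have := hq.one_le; omega⟩
  rw [Nat.add_sub_cancel]
  ring

theorem sum_low {i : ℕ} (hi : i ≤ k) (m : ℕ) (hm : m < k) (hmi : m ≤ k - i) :
    ∑ s ∈ Finset.range (m + 1), eK q k s * q ^ nK k s i = q ^ (i + m) := by
  induction m with
  | zero =>
    rw [zero_add, Finset.sum_range_one, eK_zero, nK_zero_left hi, one_mul, add_zero]
  | succ m ih =>
    rw [Finset.sum_range_succ, ih (by omega) (by omega),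
      term_low hq (s := m + 1) (Nat.succ_pos m) hm hmi hi, Nat.add_sub_cancel, pred_mul_add hq,
      ← add_assoc, pow_succ']

theorem sum_high {i : ℕ} (hi : i ≤ k) (m : ℕ) (hm : m < k) (hmi : m < i) :
    ∑ s ∈ Finset.range (m + 1), eK q k (k - s) * q ^ nK k (k - s) i = q ^ (k - i + m) := by
  induction m with
  | zero =>
    rw [zero_add, Finset.sum_range_one, Nat.sub_zero, eK_self, nK_self_left hi, one_mul, add_zero]
  | succ m ih =>
    rw [Finset.sum_range_succ, ih (by omega) (by omega),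
      term_high hq (by omega) (by omega) (by omega) hi]
    have : k - (k - (m + 1)) - 1 = m := by omega
    rw [this, pred_mul_add hq, ← add_assoc, pow_succ']

/-- **the sum formula** `∑ e_s q^(n(s,i)) = q^(k-1) (q+1)`. -/
theorem sum_eK_nK (hk : 1 ≤ k) {i : ℕ} (hi : i ≤ k) :
    ∑ s ∈ Finset.range (k + 1), eK q k s * q ^ nK k s i = q ^ (k - 1) * (q + 1) := by
  obtain ⟨k', rfl⟩ : ∃ m, k = m + 1 := ⟨k - 1, by omega⟩
  rcases Nat.eq_zero_or_pos i with rfl | h0
  · rw [Finset.sum_range_succ, sum_low hq hi k' (by omega) (by omega), eK_self,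
      nK_self_left (Nat.zero_le _), Nat.add_sub_cancel, Nat.sub_zero, zero_add, pow_succ]
    ring
  · have e1 : k' + 1 + 1 = (k' + 1 - i + 1) + i := by omega
    rw [e1, Finset.sum_range_add, sum_low hq hi (k' + 1 - i) (by omega) le_rfl,
      ← Finset.sum_range_reflect]
    have e2 : ∑ j ∈ Finset.range i, eK q (k' + 1) (k' + 1 - i + 1 + (i - 1 - j)) *
        q ^ nK (k' + 1) (k' + 1 - i + 1 + (i - 1 - j)) i
        = ∑ j ∈ Finset.range (i - 1 + 1), eK q (k' + 1) (k' + 1 - j) *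
          q ^ nK (k' + 1) (k' + 1 - j) i := by
      rw [Nat.sub_add_cancel h0]
      refine Finset.sum_congr rfl fun j hj => ?_
      rw [Finset.mem_range] at hj
      have : k' + 1 - i + 1 + (i - 1 - j) = k' + 1 - j := by omega
      rw [this]
    rw [e2, sum_high hq hi (i - 1) (by omega) (by omega), Nat.add_sub_cancel]
    have e3 : i + (k' + 1 - i) = k' + 1 := by omega
    have e4 : k' + 1 - i + (i - 1) = k' := by omega
    rw [e3, e4, pow_succ]
    ring

theorem sum_fin_eK_nK (hk : 1 ≤ k) (i : Fin (k + 1)) :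
    ∑ s : Fin (k + 1), eK q k s * q ^ nK k s i = q ^ (k - 1) * (q + 1) := by
  rw [Fin.sum_univ_eq_sum_range (fun s => eK q k s * q ^ nK k s i) (k + 1)]
  exact sum_eK_nK hq hk (Nat.lt_succ_iff.1 i.2)

end Sum

/-! ### the degree bound for the chart functions `j (q^i τ)` at the level `M q^k` -/

section Level

variable (A : ValuationSubring Kb) (M q : ℕ) [NeZero M] [NeZero q]

theorem coe_jL (K : Type*) [Field K] [CharZero K] (k i : ℕ) (hi : i ≤ k) :
    ((jL K M q k i : GAL.AD.FK K (lv M q k)) : LaurentSeries K) = jqNModC K (q ^ i) := by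
  rw [jL, coe_aL K M q k i hi, GAL.AD.coe_jK, jqNModC, jqNModC, qExpand_qExpand]
  exact qExpand_congr' (mul_one _) _

theorem pow_dvd_lv (k i : ℕ) (hi : i ≤ k) : q ^ i ∣ lv M q k := by
  rw [lv_eq]
  exact Dvd.dvd.mul_left (pow_dvd_pow q hi) M

theorem dedekindPsi_lv (hq : q.Prime) (hqM : ¬ q ∣ M) {k : ℕ} (hk : 1 ≤ k) :
    dedekindPsi (lv M q k) = q ^ (k - 1) * (q + 1) * dedekindPsi M := by
  rw [lv_eq]
  exact dedekindPsi_mul_pow (NeZero.ne M) hq hqM hk

/-- **[MODK-DEG]** `[F0 A (M q^k) : KK (j (q^i τ))] ≤ ∑_s e_s (q^(n(s,i)) ψ(M))`. -/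
theorem finrank_jL_le (hq : q.Prime) (hqM : ¬ q ∣ M) {k : ℕ} (hk : 1 ≤ k) (i : Fin (k + 1)) :
    FiniteDimensional (KK A)⟮jL (KK A) M q k i⟯ (F0 A (lv M q k)) ∧
      Module.finrank (KK A)⟮jL (KK A) M q k i⟯ (F0 A (lv M q k)) ≤
        ∑ s : Fin (k + 1), eK q k s * (q ^ nK k s i * dedekindPsi M) := by
  have hi : (i : ℕ) ≤ k := Nat.lt_succ_iff.1 i.2
  have h := finrank_F0_le_of_series (A := A) (pow_dvd_lv M q k i hi) (jL (KK A) M q k i)
    (coe_jL M q (KK A) k i hi)
  refine ⟨h.1, h.2.trans (le_of_eq ?_)⟩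
  rw [dedekindPsi_lv M q hq hqM hk, ← sum_fin_eK_nK hq hk i, Finset.sum_mul]
  exact Finset.sum_congr rfl fun s _ => mul_assoc _ _ _

end Level

end Fermat.Agent.S45
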