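import Fermat.Agent.S45.Haupt.CuspModK
import Fermat.Agent.S45.Mod.Ctx
import Fermat.Agent.S45.Mod.DegK

/-!
# S45 / modular part : `[CUSP-MOD_k]` the hypotheses `hz`, `hres` of `JTupleK.cusp` for `D : CtxK`

Middle component `0 < s < k`, `c = k - s`, `n = min s (k - s)`, `w_s = 1 - j (q^(c-n) τ) / j (q^(c+n) τ)`,
`E = eK q k s = q^(n-1) (q-1)`.  Both `j`'s have the exponent `x = nK k s (c - n)`; the root of unity `z_n` sits on the
second one in the first regime (`2 s ≤ k`), its inverse on the first one in the second regime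
(`redTo_sigma_j_pow_swapK` : `1 - u = - u (1 - u⁻¹)`, `u ≡ 1`, `(-1)^E = 1` in `k`).

* `CtxK.redTo_zK`  : `w_s ^ E / q ≡ - w_J ^ (q^(x + n - 1) (q - 1))`;
* `CtxK.cusp_hz`, `CtxK.cusp_hres`, `CtxK.cusp_lt`.
-/

set_option autoImplicit false
set_option linter.unusedSectionVars false

open ModularCurve Polynomial Fermat.Agent.S24 Fermat.Agent.S28 Fermat.Agent.RED.Gauss
open Fermat.Agent.S36 Fermat.Agent.GAL.AD

noncomputable section

namespace Fermat.Agent.S45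

/-! ### the pair `(x, y)`, both orders -/

section Pair

variable {L : Type*} [Field L] [CharZero L] {A : ValuationSubring L} {k : Type*} [Field k]
  {π : A →+* k} (hπ : IsResMap π) {F : Type*} [Field F] (σ : F →+* LaurentSeries L)
  {q : ℕ} [NeZero q] [ExpChar k q] (a : ℕ) (ξ : Lˣ) {x y : F}
  (hv : A.valuation (1 - ((ξ ^ (q ^ a) : Lˣ) : L)) < 1)

theorem neg_one_pow_eq_oneK (hq : q.Prime) {m : ℕ} :
    ((-1 : LaurentSeries k)) ^ (q ^ m * (q - 1)) = 1 := by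
  rcases hq.eq_two_or_odd' with rfl | h
  · have : CharP k 2 := by
      obtain ⟨p, hp⟩ := CharP.exists k
      have h0 : p ≠ 0 := fun h => by
        have := (expChar_one_iff_char_zero (R := k) p 2).2 h
        omega
      have h1 : p = 2 := (char_eq_expChar_iff (R := k) p 2).2
        ((CharP.char_is_prime_or_zero k p).resolve_right h0)
      exact h1 ▸ hp
    have h2 : (-1 : LaurentSeries k) = 1 := by
      have h3 : (2 : LaurentSeries k) = 0 := by
        have : ((2 : ℕ) : LaurentSeries k) = HahnSeries.C ((2 : ℕ) : k) := (map_natCast _ 2).symm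
        have h4 : ((2 : ℕ) : k) = 0 := CharP.cast_eq_zero k 2
        rw [h4, map_zero] at this
        exact_mod_cast this
      linear_combination -h3
    rw [h2, one_pow]
  · obtain ⟨r, hr⟩ := h
    exact Even.neg_one_pow (Even.mul_left ⟨r, by omega⟩ _)

include hπ hv in
/-- the rotated element in the numerator. -/
theorem redTo_sigma_j_pow_swapK (hq : q.Prime) {s : ℕ} (hs : s ≠ 0)
    (hz : IsPrimitiveRoot (ξ ^ (q ^ a)) (q ^ s))
    (hx : σ x = rot ξ (qExpand L (q ^ a) (castLS L (jqModC ℤ))))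
    (hy : σ y = qExpand L (q ^ a) (castLS L (jqModC ℤ))) :
    RedTo π (σ (1 - x * y⁻¹) ^ (q ^ (s - 1) * (q - 1)) / HahnSeries.C (q : L))
      (-(castLS k wJS) ^ (q ^ a * (q ^ (s - 1) * (q - 1)))) := by
  have h1 := redTo_sigma_j_powK hπ σ a ξ hv hq hs hz hy hx
  have hz1 : IsIntegral ℤ ((ξ ^ (q ^ a) : Lˣ) : L) :=
    (IsPrimitiveRoot.coe_units_iff.2 hz).isIntegral (pow_pos hq.pos _)
  have hz2 : IsIntegral ℤ (((ξ ^ (q ^ a))⁻¹ : Lˣ) : L) :=
    (IsPrimitiveRoot.coe_units_iff.2 hz.inv).isIntegral (pow_pos hq.pos _)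
  obtain ⟨w, hw, h3⟩ := exists_sigma_redK hπ σ (q ^ a) ξ jInvSer_mul hy hx hv hz1 hz2
  have h4 : RedTo π (σ (1 - y * x⁻¹)) 0 := by
    rw [h3]
    exact ((redTo_C_zero hπ hv).mul hw).congr rfl (zero_mul _)
  have h5 : RedTo π (σ (y * x⁻¹)) 1 := by
    have := redTo_one.sub h4
    rw [← map_one σ, ← map_sub, sub_sub_cancel, sub_zero] at this
    exact this
  have hJ : qExpand L (q ^ a) (castLS L (jqModC ℤ)) ≠ 0 := by
    intro h0
    have h6 := (map_eq_zero (qExpand L (q ^ a))).1 h0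
    have h7 : castLS L jInvSer * castLS L (jqModC ℤ) = 1 := by
      rw [← map_mul, jInvSer_mul, map_one]
    rw [h6, mul_zero] at h7
    exact zero_ne_one h7
  have hy0 : y ≠ 0 := by
    rintro rfl
    rw [map_zero] at hy
    exact hJ hy.symm
  have hx0 : x ≠ 0 := by
    rintro rfl
    rw [map_zero] at hx
    have h6 : rot ξ (qExpand L (q ^ a) (castLS L (jqModC ℤ))) = rotHom ξ _ := rfl
    rw [h6] at hx
    exact hJ ((map_eq_zero (rotHom ξ)).1 hx.symm)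
  have h6 : RedTo π (σ (x * y⁻¹)) 1 := by
    have := h5.inv one_ne_zero
    rw [← map_inv₀, mul_inv, inv_inv, inv_one, mul_comm] at this
    exact this
  have e1 : (1 - x * y⁻¹) = (-1) * (x * y⁻¹) * (1 - y * x⁻¹) := by
    field_simp
    ring
  have e2 : σ (1 - x * y⁻¹) ^ (q ^ (s - 1) * (q - 1)) / HahnSeries.C (q : L)
      = ((-1) * σ (x * y⁻¹)) ^ (q ^ (s - 1) * (q - 1))
        * (σ (1 - y * x⁻¹) ^ (q ^ (s - 1) * (q - 1)) / HahnSeries.C (q : L)) := by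
    rw [e1, map_mul, map_mul, map_neg, map_one, mul_pow, mul_div_assoc]
  rw [e2]
  refine ((((redTo_one.neg).mul h6).pow _).mul h1).congr rfl ?_
  rw [mul_one, neg_one_pow_eq_oneK hq, one_mul]

end Pair

/-! ### the instance on `CtxK` -/

namespace CtxK

variable (D : CtxK)

instance ctExpChar : ExpChar D.k D.q := ExpChar.prime D.hq

/-- the expansions of the `j (q^i τ)`. -/
theorem ct_e_j (k s : ℕ) (hs : s ≤ k) (i : ℕ) (hi : i ≤ k) :
    D.e k s (D.j k i)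
      = qExpand Kb (D.q ^ nK k s i) (rot (zT D.z k s i) (castLS Kb (jqModC ℤ))) := by
  have h := D.e_a k s hs i hi (jK D.K D.M 1 (one_dvd D.M))
  rw [cK_jK, jqNModC_one, ← coeffMap_jqModC (Int.castRingHom Kb)] at h
  exact h

theorem ct_e_natCast (k s : ℕ) (n : ℕ) : D.e k s (n : D.Fk k) = HahnSeries.C (n : Kb) := by
  rw [map_natCast, map_natCast]

theorem ct_val_one_sub_z {m : ℕ} (hm : m ≠ 0) : D.A.valuation (1 - ((D.z m : Kbˣ) : Kb)) < 1 := by
  obtain ⟨r, rfl⟩ := Nat.exists_eq_succ_of_ne_zero hm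
  exact valuation_one_sub_zetaK_lt D.hq D.hA r (IsPrimitiveRoot.coe_units_iff.2 (D.hz.prim D.hq _))

theorem ct_val_one_sub_z_inv {m : ℕ} (hm : m ≠ 0) :
    D.A.valuation (1 - (((D.z m)⁻¹ : Kbˣ) : Kb)) < 1 := by
  obtain ⟨r, rfl⟩ := Nat.exists_eq_succ_of_ne_zero hm
  exact valuation_one_sub_zetaK_lt D.hq D.hA r
    (IsPrimitiveRoot.coe_units_iff.2 (D.hz.prim D.hq _).inv)

theorem ct_e_z_eq (k s : ℕ) (x y : D.Fk k) (E : ℕ) :
    D.e k s ((1 - x / y) ^ E / (D.q : D.Fk k))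
      = D.e k s (1 - x * y⁻¹) ^ E / HahnSeries.C (D.q : Kb) := by
  rw [map_div₀, map_pow, ct_e_natCast, div_eq_mul_inv x y]

/-- first regime: the root of unity sits on `j (q^(i₂) τ)`. -/
theorem redTo_z_aux₁ (k s : ℕ) (hs : s ≤ k) (i₁ i₂ a m : ℕ) (hi₁ : i₁ ≤ k) (hi₂ : i₂ ≤ k)
    (hm : m ≠ 0) (n₁ : nK k s i₁ = a) (n₂ : nK k s i₂ = a) (z₁ : zT D.z k s i₁ = 1)
    (z₂ : zT D.z k s i₂ = D.z m) :
    RedTo D.π (D.e k s ((1 - D.j k i₁ / D.j k i₂) ^ (D.q ^ (m - 1) * (D.q - 1)) / (D.q : D.Fk k)))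
      (-(castLS D.k wJS) ^ (D.q ^ (a + (m - 1)) * (D.q - 1))) := by
  have hξ : D.z (m + a) ^ (D.q ^ a) = D.z m := D.hz.pow_pow m a
  rw [ct_e_z_eq, pow_add, mul_assoc]
  refine redTo_sigma_j_powK D.hπ (D.e k s) a (D.z (m + a)) (by rw [hξ]; exact D.ct_val_one_sub_z hm)
    D.hq hm (by rw [hξ]; exact D.hz.prim D.hq m) ?_ ?_
  · rw [ct_e_j D k s hs i₁ hi₁, n₁, z₁, rot_one_left]
  · rw [ct_e_j D k s hs i₂ hi₂, n₂, z₂, rot_qExpandK, hξ]

/-- second regime: the root of unity sits on `j (q^(i₁) τ)`. -/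
theorem redTo_z_aux₂ (k s : ℕ) (hs : s ≤ k) (i₁ i₂ a m : ℕ) (hi₁ : i₁ ≤ k) (hi₂ : i₂ ≤ k)
    (hm : m ≠ 0) (n₁ : nK k s i₁ = a) (n₂ : nK k s i₂ = a) (z₁ : zT D.z k s i₁ = (D.z m)⁻¹)
    (z₂ : zT D.z k s i₂ = 1) :
    RedTo D.π (D.e k s ((1 - D.j k i₁ / D.j k i₂) ^ (D.q ^ (m - 1) * (D.q - 1)) / (D.q : D.Fk k)))
      (-(castLS D.k wJS) ^ (D.q ^ (a + (m - 1)) * (D.q - 1))) := by
  have hξ : (D.z (m + a))⁻¹ ^ (D.q ^ a) = (D.z m)⁻¹ := by rw [inv_pow, D.hz.pow_pow m a]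
  rw [ct_e_z_eq, pow_add, mul_assoc]
  refine redTo_sigma_j_pow_swapK D.hπ (D.e k s) a (D.z (m + a))⁻¹
    (by rw [hξ]; exact D.ct_val_one_sub_z_inv hm) D.hq hm
    (by rw [hξ]; exact (D.hz.prim D.hq m).inv) ?_ ?_
  · rw [ct_e_j D k s hs i₁ hi₁, n₁, z₁, rot_qExpandK, hξ]
  · rw [ct_e_j D k s hs i₂ hi₂, n₂, z₂, rot_one_left]

/-- **the reduction of `z_s = w_s ^ e_s / q`, `w_s = 1 - j (q^(c-n) τ) / j (q^(c+n) τ)`, `c = k - s`,
`n = min s (k - s)`.** -/
theorem redTo_zK (k s : ℕ) (h0 : 0 < s) (hsk : s < k) :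
    RedTo D.π (D.e k s ((1 - D.j k (k - s - min s (k - s)) / D.j k (k - s + min s (k - s)))
        ^ eK D.q k s / (D.q : D.Fk k)))
      (-(castLS D.k wJS) ^
        (D.q ^ (nK k s (k - s - min s (k - s)) + (min s (k - s) - 1)) * (D.q - 1))) := by
  rw [eK_of_mid D.hq h0 hsk]
  have hm : min s (k - s) ≠ 0 := by omega
  by_cases h : 2 * s ≤ k
  · refine D.redTo_z_aux₁ k s hsk.le _ _ _ _ (by omega) (by omega) hm rfl ?_ ?_ ?_
    · unfold nK; split_ifs <;> omega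
    · rw [zT, if_pos h, show k - s - min s (k - s) - (k - s) = 0 by omega, D.hz.zero]
    · rw [zT, if_pos h, show k - s + min s (k - s) - (k - s) = min s (k - s) by omega]
  · refine D.redTo_z_aux₂ k s hsk.le _ _ _ _ (by omega) (by omega) hm rfl ?_ ?_ ?_
    · unfold nK; split_ifs <;> omega
    · rw [zT, if_neg h, show k - s - (k - s - min s (k - s)) = min s (k - s) by omega]
    · rw [zT, if_neg h, show k - s - (k - s + min s (k - s)) = 0 by omega, D.hz.zero, inv_one]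

/-- the reduction of `j (q^i τ)` along the component `s`. -/
theorem ct_redTo_j (k s : ℕ) (hs : s ≤ k) (i : ℕ) (hi : i ≤ k) :
    RedTo D.π (D.e k s (D.j k i)) (jqModC D.k ^ (D.q ^ nK k s i)) := by
  exact (D.tab k).redsTo_jI D.hA ⟨s, Nat.lt_succ_iff.2 hs⟩ ⟨i, Nat.lt_succ_iff.2 hi⟩

theorem ct_algebraMap_q (k : ℕ) : algebraMap D.R (D.Fk k) ((D.q : ℕ) : D.R) = (D.q : D.Fk k) :=
  map_natCast _ _

/-- **the hypothesis `hz` of `JTupleK.cusp`** (`c s = k - s`, `n = min s (k - s)`, `E = eK q k s`). -/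
theorem cusp_hz (k s : ℕ) (h0 : 0 < s) (hsk : s < k) :
    (D.OO k s hsk.le).valuation
      ((1 - D.j k (k - s - min s (k - s)) / D.j k (k - s + min s (k - s))) ^ eK D.q k s
        / algebraMap D.R (D.Fk k) ((D.q : ℕ) : D.R)) = 1 := by
  rw [ct_algebraMap_q]
  exact hzK D.A (D.disc k s hsk.le) _ (D.redTo_zK k s h0 hsk)

/-- **the hypothesis `hres` of `JTupleK.cusp`.** -/
theorem cusp_hres (k s : ℕ) (h0 : 0 < s) (hsk : s < k) :
    ∃ (S c' : D.R[X]) (d : ℕ), S.natDegree ≤ d ∧ c'.natDegree ≤ d ∧ IsUnit (S.coeff d) ∧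
      IsUnit (c'.coeff d) ∧ (D.OO k s hsk.le).valuation
        (aeval (D.j k (k - s - min s (k - s))) S *
          ((1 - D.j k (k - s - min s (k - s)) / D.j k (k - s + min s (k - s))) ^ eK D.q k s
            / algebraMap D.R (D.Fk k) ((D.q : ℕ) : D.R))
          - aeval (D.j k (k - s - min s (k - s))) c') < 1 := by
  rw [ct_algebraMap_q]
  exact hresK D.A D.hq D.hA (D.disc k s hsk.le) (D.e_const k s hsk.le) _ _
    (D.ct_redTo_j k s hsk.le _ (by omega)) (D.redTo_zK k s h0 hsk)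

/-- `w_s` lies in the maximal ideal of the component `s`. -/
theorem cusp_lt (k s : ℕ) (h0 : 0 < s) (hsk : s < k) :
    (D.OO k s hsk.le).valuation
      (1 - D.j k (k - s - min s (k - s)) / D.j k (k - s + min s (k - s))) < 1 := by
  have h1 := D.cusp_hz k s h0 hsk
  rw [ct_algebraMap_q, map_div₀, map_pow] at h1
  have hq1 : (D.OO k s hsk.le).valuation (D.q : D.Fk k) < 1 := by
    refine gv_val_lt_one_of_redTo D.hπ (D.disc k s hsk.le) ?_
    rw [ct_e_natCast]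
    exact redTo_C_zero D.hπ (D.A.mem_nonunits_iff.mp D.hA)
  by_contra hcon
  have h2 : 1 ≤ (D.OO k s hsk.le).valuation
      (1 - D.j k (k - s - min s (k - s)) / D.j k (k - s + min s (k - s))) ^ eK D.q k s :=
    one_le_pow₀ (not_lt.1 hcon)
  have hq0 : (D.OO k s hsk.le).valuation (D.q : D.Fk k) ≠ 0 :=
    (Valuation.ne_zero_iff _).2 (by exact_mod_cast D.hq.ne_zero)
  rw [div_eq_one_iff_eq hq0] at h1
  rw [h1] at h2
  exact absurd hq1 (not_lt.2 h2)

end CtxK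

end Fermat.Agent.S45
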