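import Fermat.Agent.S36.Haupt.RotD

/-!
# S45 / modular part : `[CYCLO_k]`, `[ROTPOW_k]`

Generalisation of `S36/Haupt/RotD.lean` (`exists_cyclo_unit`, `exists_rot_pow`) from primitive
`q`-th roots of unity to primitive `q ^ s`-th roots of unity (`s ≥ 1`):

* `(1 - z) ^ φ(q^s) = q (-1 + (1 - z) ε)` with `ε` integral;
* `(1 - u(zT)/u(T)) ^ φ(q^s) = q (-(Du/u) ^ φ(q^s) + (1 - z) R)`;
* `(u(T) - u(zT)) ^ φ(q^s) = q (-(Du) ^ φ(q^s) + (1 - z) R)`.
-/

set_option autoImplicit false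

open ModularCurve Fermat.Agent.S24 Fermat.Agent.S28 Fermat.Agent.S36

noncomputable section

namespace Fermat.Agent.S45.CycK

/-! ### ring theoretic part -/

section Ring

open Polynomial in
/-- `(1 - X)^q = (1 - X^q) + q (1 - X) E`. -/
theorem exists_one_sub_pow_prime_poly {q : ℕ} (hq : q.Prime) :
    ∃ E : Polynomial ℤ, (1 - X) ^ q = (1 - X ^ q) + C (q : ℤ) * (1 - X) * E := by
  set P : Polynomial ℤ := (1 - X) ^ q - (1 - X ^ q) with hP
  -- divisibility by `q`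
  have hdvd : C (q : ℤ) ∣ P := by
    have h1 : (P.map (Int.castRingHom (ZMod q))) = 0 := by
      have : Fact q.Prime := ⟨hq⟩
      rw [hP]
      simp only [Polynomial.map_sub, Polynomial.map_pow, Polynomial.map_one, Polynomial.map_X]
      rw [sub_pow_char (R := Polynomial (ZMod q)), one_pow, sub_self]
    rw [C_dvd_iff_dvd_coeff]
    intro i
    have h2 := congrArg (fun p => p.coeff i) h1
    simp only [coeff_map, coeff_zero, eq_intCast] at h2
    exact (ZMod.intCast_zmod_eq_zero_iff_dvd _ _).1 h2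
  obtain ⟨P', hP'⟩ := hdvd
  have hroot : P'.IsRoot 1 := by
    have h1 : P.eval 1 = 0 := by
      rw [hP]
      simp [hq.ne_zero]
    rw [hP', eval_mul, eval_C] at h1
    exact (mul_eq_zero.1 h1).resolve_left (by exact_mod_cast hq.ne_zero)
  obtain ⟨E, hE⟩ := dvd_iff_isRoot.2 hroot
  refine ⟨-E, ?_⟩
  have : (1 - X) ^ q = P + (1 - X ^ q) := by rw [hP]; ring
  rw [this, hP', hE]
  simp only [map_one]
  ring

theorem exists_one_sub_pow_prime {R : Type*} [CommRing R] {q : ℕ} (hq : q.Prime) (z : R) :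
    ∃ E : R, (1 - z) ^ q = (1 - z ^ q) + q * (1 - z) * E := by
  obtain ⟨E, hE⟩ := exists_one_sub_pow_prime_poly hq
  refine ⟨Polynomial.aeval z E, ?_⟩
  have := congrArg (Polynomial.aeval z) hE
  simpa using this

theorem exists_add_mul_pow {R : Type*} [CommRing R] (a c : R) (n : ℕ) :
    ∃ r : R, (a + c) ^ n = a ^ n + c * r := by
  obtain ⟨r, hr⟩ := sub_dvd_pow_sub_pow (a + c) a n
  refine ⟨r, ?_⟩
  have : a + c - a = c := by ring
  rw [this] at hr
  linear_combination hr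

/-- the induction: from order `q` to order `q ^ (s + 1)`. -/
theorem exists_cyclo_ring {R : Type*} [CommRing R] {q : ℕ} (hq : q.Prime) (s : ℕ) :
    ∀ z : R, (∃ ε₀ : R, (1 - z ^ (q ^ s)) ^ (q - 1) = q * (-1 + (1 - z ^ (q ^ s)) * ε₀)) →
      ∃ ε : R, (1 - z) ^ ((q - 1) * q ^ s) = q * (-1 + (1 - z) * ε) := by
  induction s with
  | zero =>
    intro z h
    simpa using h
  | succ s ih =>
    intro z h
    have h' : ∃ ε₀ : R, (1 - (z ^ q) ^ (q ^ s)) ^ (q - 1)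
        = q * (-1 + (1 - (z ^ q) ^ (q ^ s)) * ε₀) := by
      have e : (z ^ q) ^ (q ^ s) = z ^ (q ^ (s + 1)) := by
        rw [← pow_mul, pow_succ']
      rw [e]
      exact h
    obtain ⟨ε', hε'⟩ := ih (z ^ q) h'
    obtain ⟨E, hE⟩ := exists_one_sub_pow_prime hq z
    obtain ⟨r, hr⟩ := exists_add_mul_pow (1 - z ^ q) (q * (1 - z) * E) ((q - 1) * q ^ s)
    have hg : (1 - z) * (∑ i ∈ Finset.range q, z ^ i) = 1 - z ^ q := by
      have := mul_neg_geom_sum z q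
      exact this
    refine ⟨(∑ i ∈ Finset.range q, z ^ i) * ε' + E * r, ?_⟩
    have e1 : (1 - z) ^ ((q - 1) * q ^ (s + 1)) = ((1 - z) ^ q) ^ ((q - 1) * q ^ s) := by
      rw [← pow_mul]
      congr 1
      rw [pow_succ]
      ring
    rw [e1, hE, hr, hε', ← hg]
    ring

end Ring

variable {K : Type*} [Field K]

/-- **[CYCLO_k]** `(1-z)^((q-1) q^s) = q (-1 + (1-z) ε)`, `ε` integral, `z` a primitive
`q^(s+1)`-th root of unity. -/
theorem exists_cyclo_unitK_aux [CharZero K] {q : ℕ} (hq : q.Prime) (s : ℕ) (z : K)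
    (hz : IsPrimitiveRoot z (q ^ (s + 1))) : ∃ ε : K, IsIntegral ℤ ε ∧
      (1 - z) ^ ((q - 1) * q ^ s) = (q : K) * (-1 + (1 - z) * ε) := by
  have hint : IsIntegral ℤ z := hz.isIntegral (pow_pos hq.pos _)
  have hz' : IsPrimitiveRoot (z ^ (q ^ s)) q :=
    hz.pow (pow_pos hq.pos _) (by rw [pow_succ])
  obtain ⟨ε₀, hε₀, h₀⟩ := exists_cyclo_unit_aux hq (z ^ (q ^ s)) hz'
  let x : integralClosure ℤ K := ⟨z, hint⟩
  obtain ⟨ε, hε⟩ := exists_cyclo_ring hq s x ⟨⟨ε₀, hε₀⟩, by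
    apply Subtype.ext
    simpa [x] using h₀⟩
  refine ⟨(ε : K), ε.2, ?_⟩
  have h1 := congrArg (fun w : integralClosure ℤ K => (w : K)) hε
  simpa [x] using h1

/-- **[CYCLO_k]**, with `φ(q^s)`. -/
theorem exists_cyclo_unitK [CharZero K] {q : ℕ} (hq : q.Prime) {s : ℕ} (hs : s ≠ 0) (z : Kˣ)
    (hz : IsPrimitiveRoot z (q ^ s)) : ∃ ε : K, IsIntegral ℤ ε ∧
      (1 - (z : K)) ^ (Nat.totient (q ^ s)) = (q : K) * (-1 + (1 - (z : K)) * ε) := by
  obtain ⟨s, rfl⟩ := Nat.exists_eq_succ_of_ne_zero hs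
  rw [Nat.succ_eq_add_one, Nat.totient_prime_pow_succ hq, mul_comm]
  exact exists_cyclo_unitK_aux hq s (z : K) (IsPrimitiveRoot.coe_units_iff.2 hz)

theorem isIntegral_of_isPrimitiveRoot_units {n : ℕ} (hn : 0 < n) (z : Kˣ)
    (hz : IsPrimitiveRoot z n) : IsIntegral ℤ (z : K) ∧ IsIntegral ℤ ((z⁻¹ : Kˣ) : K) :=
  ⟨(IsPrimitiveRoot.coe_units_iff.2 hz).isIntegral hn,
    (IsPrimitiveRoot.coe_units_iff.2 hz.inv).isIntegral hn⟩

/-- the common computation: `(C (1-z) (a + C (1-z) r))^φ = C q (- a^φ + C (1-z) R)`. -/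
theorem exists_pow_totient [CharZero K] {q : ℕ} (hq : q.Prime) {s : ℕ} (hs : s ≠ 0) (z : Kˣ)
    (hz : IsPrimitiveRoot z (q ^ s)) {a r : LaurentSeries K} (ha : IntS a) (hr : IntS r) :
    ∃ R : LaurentSeries K, IntS R ∧
      (HahnSeries.C (1 - (z : K)) * (a + HahnSeries.C (1 - (z : K)) * r)) ^ (Nat.totient (q ^ s))
        = HahnSeries.C (q : K) * (- a ^ (Nat.totient (q ^ s)) + HahnSeries.C (1 - (z : K)) * R) := by
  obtain ⟨h1, -⟩ := isIntegral_of_isPrimitiveRoot_units (pow_pos hq.pos s) z hz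
  have hπ : IsIntegral ℤ (1 - (z : K)) := isIntegral_one.sub h1
  obtain ⟨ε, hε, hcy⟩ := exists_cyclo_unitK hq hs z hz
  obtain ⟨r', hr', h'⟩ := exists_add_C_mul_pow (1 - (z : K)) hπ ha hr (Nat.totient (q ^ s))
  refine ⟨HahnSeries.C ε * a ^ (Nat.totient (q ^ s)) + -r' +
      HahnSeries.C (1 - (z : K)) * (HahnSeries.C ε * r'), ?_, ?_⟩
  · exact (((intS_C hε).mul (ha.pow _)).add hr'.neg).add ((intS_C hπ).mul ((intS_C hε).mul hr'))
  · have hC : (HahnSeries.C (1 - (z : K)) : LaurentSeries K) ^ (Nat.totient (q ^ s)) =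
        HahnSeries.C (q : K) * (-1 + HahnSeries.C (1 - (z : K)) * HahnSeries.C ε) := by
      rw [← map_pow, hcy, map_mul, map_add, map_neg, map_one, map_mul]
    rw [mul_pow, h', hC]
    ring

/-- **[ROTPOW_k]** `(1 - u(zT)/u(T))^φ(q^s) = q (-(Du/u)^φ(q^s) + (1-z) R)`. -/
theorem exists_rot_powK [CharZero K] {q : ℕ} (hq : q.Prime) {s : ℕ} (hs : s ≠ 0) (z : Kˣ)
    (hz : IsPrimitiveRoot z (q ^ s)) (u v : LaurentSeries ℤ) (huv : u * v = 1) :
    ∃ R : LaurentSeries K, IntS R ∧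
      (1 - rot z (castLS K u) * (castLS K u)⁻¹) ^ (Nat.totient (q ^ s))
        = HahnSeries.C (q : K) *
          (- castLS K ((DL u * v) ^ (Nat.totient (q ^ s))) + HahnSeries.C (1 - (z : K)) * R) := by
  obtain ⟨h1, h2⟩ := isIntegral_of_isPrimitiveRoot_units (pow_pos hq.pos s) z hz
  obtain ⟨r, hr, h⟩ := exists_rot_quot z h1 h2 u v huv
  obtain ⟨R, hR, h'⟩ := exists_pow_totient hq hs z hz (intS_castLS (K := K) (DL u * v)) hr
  refine ⟨R, hR, ?_⟩
  have hp : castLS K ((DL u * v) ^ (Nat.totient (q ^ s))) =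
      castLS K (DL u * v) ^ (Nat.totient (q ^ s)) := map_pow (coeffMap (Int.castRingHom K)) _ _
  rw [h, h', hp]

/-- **[ROTPOW_k]**, difference form: `(u(T) - u(zT))^φ(q^s) = q (-(Du)^φ(q^s) + (1-z) R)`. -/
theorem exists_rot_sub_powK [CharZero K] {q : ℕ} (hq : q.Prime) {s : ℕ} (hs : s ≠ 0) (z : Kˣ)
    (hz : IsPrimitiveRoot z (q ^ s)) (u : LaurentSeries ℤ) :
    ∃ R : LaurentSeries K, IntS R ∧
      (castLS K u - rot z (castLS K u)) ^ (Nat.totient (q ^ s))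
        = HahnSeries.C (q : K) *
          (- castLS K ((DL u) ^ (Nat.totient (q ^ s))) + HahnSeries.C (1 - (z : K)) * R) := by
  obtain ⟨h1, h2⟩ := isIntegral_of_isPrimitiveRoot_units (pow_pos hq.pos s) z hz
  obtain ⟨r, hr, h⟩ := exists_rot_rem z h1 h2 u
  obtain ⟨R, hR, h'⟩ := exists_pow_totient hq hs z hz (intS_castLS (K := K) (DL u)) hr
  refine ⟨R, hR, ?_⟩
  have hp : castLS K ((DL u) ^ (Nat.totient (q ^ s))) =
      castLS K (DL u) ^ (Nat.totient (q ^ s)) := map_pow (coeffMap (Int.castRingHom K)) _ _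
  rw [h, h', hp]

end Fermat.Agent.S45.CycK
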