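import Fermat.Agent.S45.Mod.Objects
import Fermat.Agent.S45.Abs.DedK
import Fermat.Agent.S36.Mod.JTrip

/-!
# S45 / modular part : `[MODK-JINT]`  mutual integrality of the `j (q^i τ)` at level `M q^k`, `k ≥ 2`

By TRANSPORT from the level `M q²` (`S36.Ctx.jTriple`) along `u ↦ u (q^i τ)`, level `M q² → M q^(2+n)`.  No Gauss system for the charts
`j (q^l τ)` at level `M q^k`, no modular equation of level `q^k`.
-/

set_option autoImplicit false
set_option linter.unusedSectionVars false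
noncomputable section

open ModularCurve Polynomial

namespace Fermat.Agent.S45

open Fermat.Agent.S24 Fermat.Agent.S36 Fermat.Agent.RED.Gauss Fermat.Agent.GAL.AD

section Maps

variable (K : Type*) [Field K] [CharZero K] (M q : ℕ) [NeZero M] [NeZero q]

/-- `u ↦ u(q^i τ)`, level `M q^k₀ → M q^(k₀+n)` (`i ≤ n`; junk value `i = n` for `i > n`). -/
def bL (k₀ : ℕ) : (n : ℕ) → ℕ → (FK K (lv M q k₀) →ₐ[K] FK K (lv M q (k₀ + n)))
  | 0, _ => AlgHom.id K _
  | n + 1, i => if i ≤ n then (alK K M q (k₀ + n)).comp (bL k₀ n i)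
      else (beK K M q (k₀ + n)).comp (bL k₀ n n)

theorem bL_zero (k₀ i : ℕ) (u : FK K (lv M q k₀)) : bL K M q k₀ 0 i u = u := rfl

theorem bL_succ_of_le (k₀ n i : ℕ) (hi : i ≤ n) (u : FK K (lv M q k₀)) :
    bL K M q k₀ (n + 1) i u = alK K M q (k₀ + n) (bL K M q k₀ n i u) := by
  rw [bL, if_pos hi]; rfl

theorem bL_succ_self (k₀ n : ℕ) (u : FK K (lv M q k₀)) :
    bL K M q k₀ (n + 1) (n + 1) u = beK K M q (k₀ + n) (bL K M q k₀ n n u) := by
  rw [bL, if_neg (by omega)]; rfl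

/-- **the characterisation of `bL`**. -/
theorem coe_bL (k₀ n i : ℕ) (hi : i ≤ n) (u : FK K (lv M q k₀)) :
    ((bL K M q k₀ n i u : FK K (lv M q (k₀ + n))) : LaurentSeries K)
      = qExpand K (q ^ i) (u : LaurentSeries K) := by
  induction n generalizing i with
  | zero =>
    obtain rfl : i = 0 := by omega
    rw [bL_zero, qExpand_congr (pow_zero q), qExpand_one_apply]
  | succ n ih =>
    rcases Nat.lt_or_ge n i with h | h
    · obtain rfl : i = n + 1 := by omega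
      rw [bL_succ_self]
      erw [coe_beK]
      rw [ih n le_rfl, qExpand_qExpand]
      exact qExpand_congr (by rw [pow_succ, mul_comm]) _
    · rw [bL_succ_of_le K M q k₀ n i h]
      erw [coe_alK]
      rw [ih i h]

theorem bL_aL (k₀ n i l : ℕ) (hi : i ≤ n) (hl : l ≤ k₀) (u : FK K M) :
    bL K M q k₀ n i (aL K M q k₀ l u) = aL K M q (k₀ + n) (l + i) u := by
  apply Subtype.ext
  rw [coe_bL K M q k₀ n i hi, coe_aL K M q k₀ l hl, coe_aL K M q (k₀ + n) (l + i) (by omega),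
    qExpand_qExpand]
  exact qExpand_congr (by rw [pow_add, mul_comm]) _

theorem bL_jL (k₀ n i l : ℕ) (hi : i ≤ n) (hl : l ≤ k₀) :
    bL K M q k₀ n i (jL K M q k₀ l) = jL K M q (k₀ + n) (l + i) :=
  bL_aL K M q k₀ n i l hi hl _

end Maps

/-! ### level `M q²` -/

section Two

variable (C : Ctx)

theorem j_zero_eq_jL : C.j 0 = jL C.K C.M C.q 2 0 := by
  rw [jL, aL_succ_of_le _ _ _ 1 0 (by omega), aL_succ_of_le _ _ _ 0 0 le_rfl, aL_zero,
    ← Ctx.jM_eq_jK]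
  rfl

theorem j_one_eq_jL : C.j 1 = jL C.K C.M C.q 2 1 := by
  rw [jL, aL_succ_of_le _ _ _ 1 1 le_rfl, aL_succ_self, aL_zero, ← Ctx.jM_eq_jK]
  rfl

theorem j_two_eq_jL : C.j 2 = jL C.K C.M C.q 2 2 := by
  rw [jL, aL_succ_self, aL_succ_self, aL_zero, ← Ctx.jM_eq_jK]
  rfl

/-- the statement missing in `S36.JTriple`. -/
theorem ctx_inf10 : C.j 0 / C.j 1 ^ C.q ∈ intCl C.R (C.j 1)⁻¹ := by
  obtain ⟨-, -, -, J2⟩ := C.jt_level2_int
  refine C.jt_mem_intCl_j_inv 1 (C.jt_j_div_mem_O3 0 1) ?_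
  have := SS.isIntegralElem_map (heckeAlphaBar Kb (C.M * C.q) C.q) J2
  rw [map_inv₀, map_mul, map_pow, map_inv₀] at this
  rw [div_eq_mul_inv, map_mul, map_inv₀, map_pow, ← inv_pow, Ctx.jt_embF0_j_zero,
    Ctx.jt_embF0_j_one]
  exact this

end Two

/-! ### level `M q^k` -/

section Int

variable (A : ValuationSubring Kb) (M q : ℕ) [NeZero M] [NeZero q]

/-- an `S36` context -/
theorem exists_ctx (hq : q.Prime) (hA : A.LiesOverPrime q) (hqM : ¬ q ∣ M) :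
    ∃ C : Ctx, C.A = A ∧ C.M = M ∧ C.q = q := by
  obtain ⟨ζ, hζ⟩ := HasEnoughRootsOfUnity.exists_primitiveRoot Kb q
  have hζ0 : ζ ≠ 0 := hζ.ne_zero hq.ne_zero
  exact ⟨{ A := A, q := q, M := M, hq := hq, hA := hA, hM := NeZero.ne M, hqM := hqM
           ζ := Units.mk0 ζ hζ0
           hζ := by rw [← IsPrimitiveRoot.coe_units_iff]; exact hζ }, rfl, rfl, rfl⟩

theorem jL_int_two (hq : q.Prime) (hA : A.LiesOverPrime q) (hqM : ¬ q ∣ M) :
    (jL (KK A) M q 2 1 ∈ intCl (RK A) (jL (KK A) M q 2 0) ∧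
      jL (KK A) M q 2 0 ∈ intCl (RK A) (jL (KK A) M q 2 1) ∧
      jL (KK A) M q 2 2 ∈ intCl (RK A) (jL (KK A) M q 2 1) ∧
      jL (KK A) M q 2 1 ∈ intCl (RK A) (jL (KK A) M q 2 2)) ∧
    (jL (KK A) M q 2 1 / jL (KK A) M q 2 0 ^ q ∈ intCl (RK A) (jL (KK A) M q 2 0)⁻¹ ∧
      jL (KK A) M q 2 0 / jL (KK A) M q 2 1 ^ q ∈ intCl (RK A) (jL (KK A) M q 2 1)⁻¹ ∧
      jL (KK A) M q 2 2 / jL (KK A) M q 2 1 ^ q ∈ intCl (RK A) (jL (KK A) M q 2 1)⁻¹ ∧
      jL (KK A) M q 2 1 / jL (KK A) M q 2 2 ^ q ∈ intCl (RK A) (jL (KK A) M q 2 2)⁻¹) := by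
  obtain ⟨C, rfl, rfl, rfl⟩ := exists_ctx A M q hq hA hqM
  have J := C.jTriple
  have h10 := ctx_inf10 C
  have h01 := J.int01
  have h10' := J.int10
  have h12 := J.int12
  have h21 := J.int21
  have i01 := J.inf01
  have i12 := J.inf12
  have i21 := J.inf21
  rw [j_zero_eq_jL, j_one_eq_jL] at h10 h01 h10' i01
  rw [j_two_eq_jL, j_one_eq_jL] at h12 h21 i12 i21
  exact ⟨⟨h01, h10', h12, h21⟩, i01, h10, i12, i21⟩

/-- transport of a membership `x ∈ intCl R s` from the level `M q²`. -/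
theorem bL_mem_intCl (n i : ℕ) {x s : F0 A (lv M q 2)} (h : x ∈ intCl (RK A) s) :
    bL (KK A) M q 2 n i x ∈ intCl (RK A) (bL (KK A) M q 2 n i s) :=
  map_mem_intCl_aux (R := RK A) (bL (KK A) M q 2 n i) h

variable {M q}

theorem jL_int_up (hq : q.Prime) (hA : A.LiesOverPrime q) (hqM : ¬ q ∣ M) {k i : ℕ} (hk : 2 ≤ k)
    (hi : i < k) : jL (KK A) M q k (i + 1) ∈ intCl (RK A) (jL (KK A) M q k i) := by
  obtain ⟨n, rfl⟩ := Nat.exists_eq_add_of_le hk
  obtain ⟨⟨h01, -, h12, -⟩, -⟩ := jL_int_two A M q hq hA hqM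
  rcases Nat.lt_or_ge n i with h | h
  · obtain rfl : i = 1 + n := by omega
    have e : 1 + n + 1 = 2 + n := by omega
    rw [e]
    have := bL_mem_intCl A M q n n h12
    rwa [bL_jL _ _ _ _ _ _ _ le_rfl (by omega), bL_jL _ _ _ _ _ _ _ le_rfl (by omega)] at this
  · have := bL_mem_intCl A M q n i h01
    rwa [bL_jL _ _ _ _ _ _ _ h (by omega), bL_jL _ _ _ _ _ _ _ h (by omega), zero_add,
      add_comm 1 i] at this

theorem jL_int_dn (hq : q.Prime) (hA : A.LiesOverPrime q) (hqM : ¬ q ∣ M) {k i : ℕ} (hk : 2 ≤ k)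
    (hi : i < k) : jL (KK A) M q k i ∈ intCl (RK A) (jL (KK A) M q k (i + 1)) := by
  obtain ⟨n, rfl⟩ := Nat.exists_eq_add_of_le hk
  obtain ⟨⟨-, h10, -, h21⟩, -⟩ := jL_int_two A M q hq hA hqM
  rcases Nat.lt_or_ge n i with h | h
  · obtain rfl : i = 1 + n := by omega
    have e : 1 + n + 1 = 2 + n := by omega
    rw [e]
    have := bL_mem_intCl A M q n n h21
    rwa [bL_jL _ _ _ _ _ _ _ le_rfl (by omega), bL_jL _ _ _ _ _ _ _ le_rfl (by omega)] at this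
  · have := bL_mem_intCl A M q n i h10
    rwa [bL_jL _ _ _ _ _ _ _ h (by omega), bL_jL _ _ _ _ _ _ _ h (by omega), zero_add,
      add_comm 1 i] at this

theorem jL_inf_up (hq : q.Prime) (hA : A.LiesOverPrime q) (hqM : ¬ q ∣ M) {k i : ℕ} (hk : 2 ≤ k)
    (hi : i < k) : jL (KK A) M q k (i + 1) / jL (KK A) M q k i ^ q
      ∈ intCl (RK A) (jL (KK A) M q k i)⁻¹ := by
  obtain ⟨n, rfl⟩ := Nat.exists_eq_add_of_le hk
  obtain ⟨-, h01, -, h12, -⟩ := jL_int_two A M q hq hA hqM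
  rcases Nat.lt_or_ge n i with h | h
  · obtain rfl : i = 1 + n := by omega
    have e : 1 + n + 1 = 2 + n := by omega
    rw [e]
    have := bL_mem_intCl A M q n n h12
    rwa [map_div₀, map_pow, map_inv₀, bL_jL _ _ _ _ _ _ _ le_rfl (by omega),
      bL_jL _ _ _ _ _ _ _ le_rfl (by omega)] at this
  · have := bL_mem_intCl A M q n i h01
    rwa [map_div₀, map_pow, map_inv₀, bL_jL _ _ _ _ _ _ _ h (by omega),
      bL_jL _ _ _ _ _ _ _ h (by omega), zero_add, add_comm 1 i] at this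

theorem jL_inf_dn (hq : q.Prime) (hA : A.LiesOverPrime q) (hqM : ¬ q ∣ M) {k i : ℕ} (hk : 2 ≤ k)
    (hi : i < k) : jL (KK A) M q k i / jL (KK A) M q k (i + 1) ^ q
      ∈ intCl (RK A) (jL (KK A) M q k (i + 1))⁻¹ := by
  obtain ⟨n, rfl⟩ := Nat.exists_eq_add_of_le hk
  obtain ⟨-, -, h10, -, h21⟩ := jL_int_two A M q hq hA hqM
  rcases Nat.lt_or_ge n i with h | h
  · obtain rfl : i = 1 + n := by omega
    have e : 1 + n + 1 = 2 + n := by omega
    rw [e]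
    have := bL_mem_intCl A M q n n h21
    rwa [map_div₀, map_pow, map_inv₀, bL_jL _ _ _ _ _ _ _ le_rfl (by omega),
      bL_jL _ _ _ _ _ _ _ le_rfl (by omega)] at this
  · have := bL_mem_intCl A M q n i h10
    rwa [map_div₀, map_pow, map_inv₀, bL_jL _ _ _ _ _ _ _ h (by omega),
      bL_jL _ _ _ _ _ _ _ h (by omega), zero_add, add_comm 1 i] at this

/-- all the charts `intCl R (j (q^i τ))`, `i ≤ k`, coincide. -/
theorem intCl_jL_eq (hq : q.Prime) (hA : A.LiesOverPrime q) (hqM : ¬ q ∣ M) {k : ℕ} (hk : 2 ≤ k)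
    {i : ℕ} (hi : i ≤ k) :
    intCl (RK A) (jL (KK A) M q k i) = intCl (RK A) (jL (KK A) M q k 0) := by
  induction i with
  | zero => rfl
  | succ i ih =>
    rw [← ih (by omega)]
    exact le_antisymm (intCl_le_intCl_of_mem_aux (jL_int_up A hq hA hqM hk (by omega)))
      (intCl_le_intCl_of_mem_aux (jL_int_dn A hq hA hqM hk (by omega)))

theorem jL_int (hq : q.Prime) (hA : A.LiesOverPrime q) (hqM : ¬ q ∣ M) {k : ℕ} (hk : 2 ≤ k)
    {i i' : ℕ} (hi : i ≤ k) (hi' : i' ≤ k) :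
    jL (KK A) M q k i' ∈ intCl (RK A) (jL (KK A) M q k i) := by
  rw [intCl_jL_eq A hq hA hqM hk hi, ← intCl_jL_eq A hq hA hqM hk hi']
  exact self_mem_intCl _ _

end Int

end Fermat.Agent.S45
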