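import Fermat.Agent.S45.Mod.Ctx
import Fermat.Agent.S45.Mod.DegK
import Fermat.Agent.S36.Mod.SysTop
import Fermat.Agent.S36.Abs.DedLevel
import Fermat.Agent.S36.Mod.DedK

/-!
# S45 / modular part : [MODK-SYS] the fields `sys`, `glob` of `GeomDatumK` at level `M q^k`

Input left: `D.Ram k` (the ramification witnesses, `[MODK-RAM]`).

* `CtxK.sys_j hk hr i` : `GaussSys` for the chart function `j (q^i τ)`, every `i ≤ k`;
* `CtxK.sys hk hr` : `GaussSys` for `t = j₀^(q²) - j₀`;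
* `CtxK.intCl_t`, `CtxK.glob`.
-/

set_option autoImplicit false
set_option linter.unusedSectionVars false
noncomputable section

open ModularCurve Polynomial

namespace Fermat.Agent.S45

open Fermat.Agent.S24 Fermat.Agent.S36 Fermat.Agent.RED.Gauss Fermat.Agent.GAL.AD

namespace CtxK

variable (D : CtxK)

/-- the ramification witnesses of level `k` -/
def Ram (k : ℕ) : Prop :=
  ∀ s : Fin (k + 1), ∃ w : D.Fk k, (D.O k s).valuation w < 1 ∧
    (D.O k s).valuation (algebraMap D.R (D.Fk k) ((D.q : ℕ) : D.R)) ≤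
      (D.O k s).valuation w ^ eK D.q k s

/-- the index of a Gauss coordinate of residue degree `ψ(M)` on the component `s` -/
def gIdx (k : ℕ) (s : Fin (k + 1)) : Fin (k + 1) := if 2 * (s : ℕ) ≤ k then 0 else Fin.last k

theorem nK_gIdx (k : ℕ) (s : Fin (k + 1)) : nK k s (gIdx k s) = 0 := by
  have hs : (s : ℕ) ≤ k := Nat.lt_succ_iff.1 s.2
  unfold gIdx
  split_ifs with h
  · rw [Fin.val_zero, nK_zero_right hs]; omega
  · rw [Fin.val_last, nK_self_right hs]; omega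

/-- the residue degrees over `k (red (j (q^i τ)))` -/
def fj (k : ℕ) (i : Fin (k + 1)) (s : Fin (k + 1)) : ℕ := D.q ^ nK k s i * dedekindPsi D.M

/-- the multiplicities -/
def ev (k : ℕ) (s : Fin (k + 1)) : ℕ := eK D.q k s

/-- **[MODK-SYS]** for the chart functions `j (q^i τ)`. -/
theorem sys_j {k : ℕ} (hk : 1 ≤ k) (hr : D.Ram k) (i : Fin (k + 1)) :
    GaussSys D.K ((D.q : ℕ) : D.R) (D.j k i) (D.O k) (D.ev k) (D.fj k i) := by
  have h := finrank_jL_le D.A D.M D.q D.hq D.hqM hk i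
  exact (D.tab k).gaussSys D.hA D.hqM (fun s => D.disc k s (Nat.lt_succ_iff.1 s.2))
    (fun s s' hss => by
      obtain ⟨i, i', hi, hi', h⟩ := nK_rows (Nat.lt_succ_iff.1 s.2) (Nat.lt_succ_iff.1 s'.2)
        (fun h => hss (Fin.ext h))
      exact ⟨⟨i, Nat.lt_succ_iff.2 hi⟩, ⟨i', Nat.lt_succ_iff.2 hi'⟩, h⟩)
    (gIdx k) (nK_gIdx k) (D.ev k) hr i h.1 h.2

/-- the residue degrees over `k (red t)` -/
def fdeg (k : ℕ) (s : Fin (k + 1)) : ℕ := D.q ^ 2 * D.fj k 0 s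

theorem aeval_Pt (k : ℕ) : aeval (D.j k 0) D.Pt = D.t k := by
  simp [S36.Ctx.Pt, t]

/-- **the field `sys` of `GeomDatumK`** -/
theorem sys {k : ℕ} (hk : 1 ≤ k) (hr : D.Ram k) :
    GaussSys D.K ((D.q : ℕ) : D.R) (D.t k) (D.O k) (D.ev k) (D.fdeg k) := by
  rw [← D.aeval_Pt k]
  exact (D.sys_j hk hr 0).comp_poly D.irr D.Pt_monic D.Pt_natDegree D.one_lt_q_sq.le

theorem intCl_t (k : ℕ) : intCl D.R (D.t k) = intCl D.R (D.j k 0) := by
  rw [← D.aeval_Pt k]
  exact intCl_aeval_eq (D.j k 0) D.Pt_monic (by rw [D.Pt_natDegree]; exact D.one_lt_q_sq.le)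

/-- **the field `glob` of `GeomDatumK`** -/
theorem glob {k : ℕ} (hk : 1 ≤ k) (hr : D.Ram k) :
    ∀ x, x ∈ intCl D.R (D.t k) → x ∈ intCl D.R (D.t k)⁻¹ →
      x ∈ Set.range (algebraMap D.R (D.Fk k)) :=
  (D.sys hk hr).glob D.irr (fun x hx => F0_const_of_isIntegral D.A _ x hx)

end CtxK

end Fermat.Agent.S45
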