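import Fermat.Agent.S45.Mod.Ctx
import Fermat.Agent.S45.Mod.DegK
import Fermat.Agent.S45.Mod.SysK
import Fermat.Agent.S45.Mod.JInt
import Fermat.Agent.S45.Abs.DedRes
import Fermat.Agent.S36.Mod.DedTop

/-!
# S45 / modular part : the fields `glob`, `ded₁`, `ded₂` of `GeomDatumK`  (`[DED_k]`, helper47)

Input: ANY Gauss system `S` for the chart function `D.t k = j₀ ^ (q²) - j₀` and the valuation rings `D.O k`, with
`f s = q² * (q ^ nK k s 0 * ψ(M))`  (the shape produced by `IsTabK.gaussSys` for `i = 0` followed by `GaussSys.comp_poly`).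
Everything else comes from THE TABLE (`D.tab k`), `S45/Mod/JInt.lean` and the level `M` (`S36/Mod/DedM.lean`).
-/

set_option autoImplicit false
set_option linter.unusedSectionVars false
noncomputable section

open ModularCurve Polynomial

namespace Fermat.Agent.S45

open Fermat.Agent.S24 Fermat.Agent.S36 Fermat.Agent.RED.Gauss Fermat.Agent.GAL.AD

namespace CtxK

variable (D : CtxK)

/-- **the field `glob`** for any system (`CtxK.glob` of `SysK.lean` is the case `S = D.sys hk hr`) -/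
theorem glob_of_sys (k : ℕ) {ev f : Fin (k + 1) → ℕ}
    (S : GaussSys D.K ((D.q : ℕ) : D.R) (D.t k) (D.O k) ev f) :
    ∀ x, x ∈ intCl D.R (D.t k) → x ∈ intCl D.R (D.t k)⁻¹ →
      x ∈ Set.range (algebraMap D.R (D.Fk k)) :=
  S.glob D.irr (fun x hx => F0_const_of_isIntegral D.A _ x hx)

theorem ded_a_jM (k i : ℕ) : D.a k i D.jM = D.j k i := by
  rw [Ctx.jM_eq_jK]
  rfl

/-- the row of `j` in the table -/
theorem ded_val_j_sub_lt (k : ℕ) (s : Fin (k + 1)) {i i' : ℕ} (hi : i ≤ k) (hi' : i' ≤ k) (x y : ℕ)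
    (h : nK k s i + x = nK k s i' + y) :
    (D.O k s).valuation (D.j k i ^ (D.q ^ x) - D.j k i' ^ (D.q ^ y)) < 1 :=
  (D.tab k).valuation_sub_lt D.hA (fun s => D.disc k s (Nat.lt_succ_iff.1 s.2)) s
    ⟨i, Nat.lt_succ_iff.2 hi⟩ ⟨i', Nat.lt_succ_iff.2 hi'⟩ x y h

/-- the comaps -/
theorem ded_comap_a (k : ℕ) (s : Fin (k + 1)) {i : ℕ} (hi : i ≤ k) :
    (D.O k s).comap (D.a k i : D.FM →+* D.Fk k) = D.O1 :=
  (D.tab k).comap_a (fun s => D.disc k s (Nat.lt_succ_iff.1 s.2)) D.disc1 s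
    ⟨i, Nat.lt_succ_iff.2 hi⟩

/-- **the pair `(j₀, j_k)`** -/
theorem jPair {k : ℕ} (hk : 2 ≤ k) : JPair D.R D.q (D.O k) (D.j k 0) (D.j k k) where
  int := jL_int D.A D.hq D.hA D.hqM hk (Nat.zero_le k) le_rfl
  int' := jL_int D.A D.hq D.hA D.hqM hk le_rfl (Nat.zero_le k)
  rel := fun s => by
    have hs : (s : ℕ) ≤ k := Nat.lt_succ_iff.1 s.2
    rcases exists_nK_eq_zero hs with h | h
    · refine ⟨nK k s k, Or.inl ?_⟩
      have := D.ded_val_j_sub_lt k s le_rfl (Nat.zero_le k) 0 (nK k s k) (by rw [h]; ring)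
      rwa [pow_zero, pow_one] at this
    · refine ⟨nK k s 0, Or.inr ?_⟩
      have := D.ded_val_j_sub_lt k s (Nat.zero_le k) le_rfl 0 (nK k s 0) (by rw [h]; ring)
      rwa [pow_zero, pow_one] at this

/-- **the rows** -/
theorem dedRow {k : ℕ} (hk : 2 ≤ k) {f : Fin (k + 1) → ℕ}
    (hf : ∀ s, f s = D.q ^ 2 * (D.q ^ nK k s 0 * dedekindPsi D.M)) (s : Fin (k + 1)) :
    DedRow D.R D.K D.q (D.O k) f (fun _ : Fin 1 => D.O1) (fun _ => D.q ^ 2 * D.psi)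
      (D.j k 0) D.jM s := by
  have hs : (s : ℕ) ≤ k := Nat.lt_succ_iff.1 s.2
  rcases exists_nK_eq_zero hs with h | h
  · refine ⟨D.a k 0, 0, 0, ?_, D.ded_comap_a k s (Nat.zero_le k), ?_, ?_⟩
    · rw [ded_a_jM]; exact JPair.refl _ _ _ _
    · rw [ded_a_jM, pow_zero, pow_one, sub_self, map_zero]; exact zero_lt_one
    · rw [hf, h, pow_zero, one_mul, mul_one]; rfl
  · refine ⟨D.a k k, 0, nK k s 0, ?_, D.ded_comap_a k s le_rfl, ?_, ?_⟩
    · rw [ded_a_jM]; exact D.jPair hk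
    · rw [ded_a_jM]
      have := D.ded_val_j_sub_lt k s (Nat.zero_le k) le_rfl 0 (nK k s 0) (by rw [h]; ring)
      rwa [pow_zero, pow_one] at this
    · rw [hf]
      show _ = D.q ^ 2 * dedekindPsi D.M * _
      ring

/-- **the field `ded₁`** -/
theorem ded₁ (h49 : Fermat.Agent.RED.aux D.q ∣ D.M) {k : ℕ} (hk : 2 ≤ k)
    {ev f : Fin (k + 1) → ℕ} (S : GaussSys D.K ((D.q : ℕ) : D.R) (D.t k) (D.O k) ev f)
    (hf : ∀ s, f s = D.q ^ 2 * (D.q ^ nK k s 0 * dedekindPsi D.M)) (s : Fin (k + 1)) :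
    IsDedekindDomain (intCl D.R (D.t k) ⧸ S.p s) :=
  ded₁K D.hq D.irr S D.sys_tM
    (fun i₁ => by
      obtain rfl : i₁ = 0 := Subsingleton.elim _ _
      exact D.dedM₁ (D.h49_of_aux h49)) s (D.dedRow hk hf s)

/-- **the field `ded₂`** -/
theorem ded₂ (h49 : Fermat.Agent.RED.aux D.q ∣ D.M) {k : ℕ} (hk : 2 ≤ k)
    {ev f : Fin (k + 1) → ℕ} (S : GaussSys D.K ((D.q : ℕ) : D.R) (D.t k) (D.O k) ev f)
    (hf : ∀ s, f s = D.q ^ 2 * (D.q ^ nK k s 0 * dedekindPsi D.M)) (s : Fin (k + 1)) :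
    IsDedekindDomain (intCl D.R (D.t k)⁻¹ ⧸ (S.inv D.irr).p s) :=
  ded₂K D.hq D.irr S D.sys_tM
    (fun i₁ => by
      obtain rfl : i₁ = 0 := Subsingleton.elim _ _
      exact D.dedM₂ (D.h49_of_aux h49)) s (D.dedRow hk hf s)

/-- **the field `ded₁`** for helper90's `D.sys` -/
theorem ded₁_sys (h49 : Fermat.Agent.RED.aux D.q ∣ D.M) {k : ℕ} (hk : 2 ≤ k) (hk1 : 1 ≤ k)
    (hr : D.Ram k) (s : Fin (k + 1)) :
    IsDedekindDomain (intCl D.R (D.t k) ⧸ (D.sys hk1 hr).p s) :=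
  D.ded₁ h49 hk (D.sys hk1 hr) (fun _ => rfl) s

/-- **the field `ded₂`** for helper90's `D.sys` -/
theorem ded₂_sys (h49 : Fermat.Agent.RED.aux D.q ∣ D.M) {k : ℕ} (hk : 2 ≤ k) (hk1 : 1 ≤ k)
    (hr : D.Ram k) (s : Fin (k + 1)) :
    IsDedekindDomain (intCl D.R (D.t k)⁻¹ ⧸ ((D.sys hk1 hr).inv D.irr).p s) :=
  D.ded₂ h49 hk (D.sys hk1 hr) (fun _ => rfl) s

end CtxK

end Fermat.Agent.S45
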