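import Fermat.Agent.S36.Mod.Lz

/-!
# S45 / modular part : `[LZ_k]` the valuation `A` is discrete on `K0(ζ_{q^s})`, `s ≥ 1`,
with uniformizer `1 - ζ_{q^s}`

`∏_{μ primitive} (1 - μ) = Φ_{q^s}(1) = q` and all `1 - μ` have the same valuation, so
`v(1 - ζ)^φ(q^s) = v(q)`.  `[K0(ζ) : K0] ≤ φ(q^s)`, so the fundamental inequality
(`ExtSys.isUnif`) shows that `1 - ζ` is a uniformizer of `A ∩ K0(ζ)`.
-/

set_option autoImplicit false

namespace Fermat.Agent.S45

open Fermat.Agent.S36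

local notation "Qbar" => AlgebraicClosure ℚ

section General

variable {L : Type*} [Field L]

/-- two primitive `n`-th roots of unity: `1 - μ` and `1 - ζ` have the same valuation -/
theorem valuation_one_sub_eq_of_primitive {Γ : Type*} [LinearOrderedCommGroupWithZero Γ]
    (v : Valuation L Γ) {n : ℕ} (hn : n ≠ 0) {ζ μ : L} (hζ : IsPrimitiveRoot ζ n)
    (hμ : IsPrimitiveRoot μ n) : v (1 - μ) = v (1 - ζ) := by
  have : NeZero n := ⟨hn⟩
  obtain ⟨i, -, hi⟩ := hζ.eq_pow_of_pow_eq_one hμ.pow_eq_one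
  obtain ⟨j, -, hj⟩ := hμ.eq_pow_of_pow_eq_one hζ.pow_eq_one
  refine le_antisymm ?_ ?_
  · rw [← hi]
    exact valuation_one_sub_le_of_pow v hn hζ.pow_eq_one _
  · rw [← hj]
    exact valuation_one_sub_le_of_pow v hn hμ.pow_eq_one _

theorem valuation_one_sub_pow_of_coprime {Γ : Type*} [LinearOrderedCommGroupWithZero Γ]
    (v : Valuation L Γ) {n : ℕ} (hn : n ≠ 0) {ζ : L} (hζ : IsPrimitiveRoot ζ n) {i : ℕ}
    (hi : i.Coprime n) : v (1 - ζ ^ i) = v (1 - ζ) :=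
  valuation_one_sub_eq_of_primitive v hn hζ (hζ.pow_of_coprime i hi)

/-- `v(1 - ζ)^φ(q^(s+1)) = v(q)` for a primitive `q^(s+1)`-th root of unity `ζ`. -/
theorem valuation_one_sub_pow_totient {Γ : Type*} [LinearOrderedCommGroupWithZero Γ]
    (v : Valuation L Γ) {q : ℕ} (hq : q.Prime) (s : ℕ) {ζ : L}
    (hζ : IsPrimitiveRoot ζ (q ^ (s + 1))) :
    v (1 - ζ) ^ (Nat.totient (q ^ (s + 1))) = v (q : L) := by
  have hn : q ^ (s + 1) ≠ 0 := pow_ne_zero _ hq.ne_zero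
  have : Fact q.Prime := ⟨hq⟩
  have h1 : Polynomial.eval 1 (Polynomial.cyclotomic (q ^ (s + 1)) L) = (q : L) :=
    Polynomial.eval_one_cyclotomic_prime_pow s
  rw [Polynomial.cyclotomic_eq_prod_X_sub_primitiveRoots hζ, Polynomial.eval_prod] at h1
  rw [← h1, map_prod]
  symm
  calc _ = ∏ _μ ∈ primitiveRoots (q ^ (s + 1)) L, v (1 - ζ) := by
        refine Finset.prod_congr rfl (fun μ hμ => ?_)
        rw [mem_primitiveRoots (Nat.pos_of_ne_zero hn)] at hμ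
        rw [Polynomial.eval_sub, Polynomial.eval_X, Polynomial.eval_C]
        exact valuation_one_sub_eq_of_primitive v hn hζ hμ
    _ = _ := by rw [Finset.prod_const, hζ.card_primitiveRoots]

theorem totient_prime_pow_succ' {q : ℕ} (hq : q.Prime) (s : ℕ) :
    Nat.totient (q ^ (s + 1)) = q ^ s * (q - 1) :=
  Nat.totient_prime_pow_succ hq s

/-- `v(1 - ζ^(q^j)) = v(1 - ζ)^(q^j)` for `j ≤ s`, `ζ` a primitive `q^(s+1)`-th root of unity. -/
theorem valuation_one_sub_pow_prime_pow {Γ : Type*} [LinearOrderedCommGroupWithZero Γ]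
    (v : Valuation L Γ) {q : ℕ} (hq : q.Prime) {s j : ℕ} (hj : j ≤ s) {ζ : L}
    (hζ : IsPrimitiveRoot ζ (q ^ (s + 1))) :
    v (1 - ζ ^ (q ^ j)) = v (1 - ζ) ^ (q ^ j) := by
  obtain ⟨t, rfl⟩ := Nat.exists_eq_add_of_le hj
  have hζ' : IsPrimitiveRoot (ζ ^ (q ^ j)) (q ^ (t + 1)) := by
    refine hζ.pow (pow_pos hq.pos _) ?_
    rw [← pow_add, add_assoc]
  have h1 := valuation_one_sub_pow_totient v hq t hζ'
  have h2 := valuation_one_sub_pow_totient v hq (j + t) hζ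
  rw [totient_prime_pow_succ' hq] at h1 h2
  have h3 : (v (1 - ζ) ^ (q ^ j)) ^ (q ^ t * (q - 1)) = v (q : L) := by
    rw [← h2, ← pow_mul]
    congr 1
    rw [pow_add]
    ring
  have hne : q ^ t * (q - 1) ≠ 0 :=
    Nat.mul_ne_zero (pow_ne_zero _ hq.ne_zero) (by have := hq.two_le; omega)
  exact (pow_left_inj₀ zero_le zero_le hne).mp (h1.trans h3.symm)

end General

variable {A : ValuationSubring Qbar} {q : ℕ}

theorem valuation_one_sub_zetaK_pow (hq : q.Prime) (s : ℕ) {ζ : Qbar}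
    (hζ : IsPrimitiveRoot ζ (q ^ (s + 1))) :
    A.valuation (1 - ζ) ^ (Nat.totient (q ^ (s + 1))) = A.valuation (q : Qbar) :=
  valuation_one_sub_pow_totient A.valuation hq s hζ

theorem valuation_one_sub_zetaK_pow' (hq : q.Prime) (s : ℕ) {ζ : Qbar}
    (hζ : IsPrimitiveRoot ζ (q ^ (s + 1))) :
    A.valuation (1 - ζ) ^ (q ^ s * (q - 1)) = A.valuation (q : Qbar) := by
  rw [← totient_prime_pow_succ' hq]
  exact valuation_one_sub_zetaK_pow hq s hζ

theorem valuation_one_sub_zetaK_lt (hq : q.Prime) (hA : A.LiesOverPrime q) (s : ℕ) {ζ : Qbar}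
    (hζ : IsPrimitiveRoot ζ (q ^ (s + 1))) : A.valuation (1 - ζ) < 1 := by
  have h := valuation_one_sub_zetaK_pow (A := A) hq s hζ
  have hq1 : A.valuation (q : Qbar) < 1 := A.mem_nonunits_iff.mp hA
  by_contra hcon
  have h2 : 1 ≤ A.valuation (1 - ζ) ^ (Nat.totient (q ^ (s + 1))) := one_le_pow₀ (not_lt.mp hcon)
  rw [h] at h2
  exact absurd hq1 (not_lt.mpr h2)

theorem one_sub_zetaK_ne_zero (hq : q.Prime) (s : ℕ) {ζ : Qbar}
    (hζ : IsPrimitiveRoot ζ (q ^ (s + 1))) : (1 : Qbar) - ζ ≠ 0 :=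
  sub_ne_zero.mpr (hζ.ne_one (Nat.one_lt_pow (Nat.succ_ne_zero s) hq.one_lt)).symm

theorem aeval_zetaK_cyclotomic (hq : q.Prime) (s : ℕ) {ζ : Qbar}
    (hζ : IsPrimitiveRoot ζ (q ^ (s + 1))) :
    Polynomial.aeval ζ (Polynomial.cyclotomic (q ^ (s + 1)) (K0 A)) = 0 := by
  rw [Polynomial.aeval_def, ← Polynomial.eval_map, Polynomial.map_cyclotomic]
  exact hζ.isRoot_cyclotomic (pow_pos hq.pos _)

theorem isIntegral_zetaK (hq : q.Prime) (s : ℕ) {ζ : Qbar}
    (hζ : IsPrimitiveRoot ζ (q ^ (s + 1))) : IsIntegral (K0 A) ζ :=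
  ⟨_, Polynomial.cyclotomic.monic (q ^ (s + 1)) (K0 A), aeval_zetaK_cyclotomic hq s hζ⟩

theorem finrank_adjoin_zetaK_le (hq : q.Prime) (s : ℕ) {ζ : Qbar}
    (hζ : IsPrimitiveRoot ζ (q ^ (s + 1))) :
    Module.finrank (K0 A) (IntermediateField.adjoin (K0 A) {ζ}) ≤ Nat.totient (q ^ (s + 1)) := by
  rw [IntermediateField.adjoin.finrank (isIntegral_zetaK hq s hζ)]
  have h1 := Polynomial.natDegree_le_of_dvd (minpoly.dvd (K0 A) ζ (aeval_zetaK_cyclotomic hq s hζ))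
    (Polynomial.cyclotomic_ne_zero (q ^ (s + 1)) (K0 A))
  rwa [Polynomial.natDegree_cyclotomic] at h1

theorem extSys_zetaK (hq : q.Prime) (hA : A.LiesOverPrime q) (s : ℕ) {ζ : Qbar}
    (hζ : IsPrimitiveRoot ζ (q ^ (s + 1))) :
    ExtSys (F' := K0 A) (F := IntermediateField.adjoin (K0 A) {ζ}) (R0 A) (q : K0 A)
      (fun _ : Unit => A.comap (algebraMap (IntermediateField.adjoin (K0 A) {ζ}) Qbar))
      (fun _ => Nat.totient (q ^ (s + 1))) (fun _ => 1) := by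
  have hE := isEquiv_valuation_comap A (algebraMap (IntermediateField.adjoin (K0 A) {ζ}) Qbar)
  have hE0 := isEquiv_valuation_comap A (algebraMap (K0 A) Qbar)
  refine ⟨isUnif_R0 hq hA, fun _ _ _ => rfl, fun _ => ?_, fun _ => ?_, fun _ => ?_, ?_⟩
  · rw [ValuationSubring.comap_comap]
    rfl
  · refine ⟨1 - ⟨ζ, IntermediateField.mem_adjoin_simple_self _ ζ⟩, ?_, ?_⟩
    · refine hE.lt_one_iff_lt_one.mpr ?_
      exact valuation_one_sub_zetaK_lt hq hA s hζ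
    · rw [← map_pow]
      refine (hE _ _).mpr ?_
      rw [Valuation.comap_apply, Valuation.comap_apply, map_natCast, map_natCast, map_pow, map_pow]
      exact (valuation_one_sub_zetaK_pow hq s hζ).ge
  · refine ⟨fun _ => 1, fun _ => one_mem _, fun c _ h k => ?_⟩
    have hk : k = 0 := Subsingleton.elim _ _
    subst hk
    rw [Fin.sum_univ_one, mul_one] at h
    have h2 := hE.lt_one_iff_lt_one.mp h
    exact hE0.lt_one_iff_lt_one.mpr h2
  · simpa using finrank_adjoin_zetaK_le hq s hζ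

/-- `1 - ζ` is a uniformizer of `A ∩ K0(ζ)`. -/
theorem isUnif_zetaK (hq : q.Prime) (hA : A.LiesOverPrime q) (s : ℕ) {ζ : Qbar}
    (hζ : IsPrimitiveRoot ζ (q ^ (s + 1))) :
    IsUnif (A.comap (algebraMap (IntermediateField.adjoin (K0 A) {ζ}) Qbar))
      (1 - ⟨ζ, IntermediateField.mem_adjoin_simple_self _ ζ⟩) := by
  have hE := isEquiv_valuation_comap A (algebraMap (IntermediateField.adjoin (K0 A) {ζ}) Qbar)
  have : FiniteDimensional (K0 A) (IntermediateField.adjoin (K0 A) {ζ}) :=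
    IntermediateField.adjoin.finiteDimensional (isIntegral_zetaK hq s hζ)
  have S := extSys_zetaK hq hA s hζ
  have h1 : (A.comap (algebraMap (IntermediateField.adjoin (K0 A) {ζ}) Qbar)).valuation
      (1 - ⟨ζ, IntermediateField.mem_adjoin_simple_self _ ζ⟩) < 1 :=
    hE.lt_one_iff_lt_one.mpr (valuation_one_sub_zetaK_lt hq hA s hζ)
  have h2 : (A.comap (algebraMap (IntermediateField.adjoin (K0 A) {ζ}) Qbar)).valuation
      (algebraMap (K0 A) (IntermediateField.adjoin (K0 A) {ζ}) (q : K0 A)) ≤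
      (A.comap (algebraMap (IntermediateField.adjoin (K0 A) {ζ}) Qbar)).valuation
      (1 - ⟨ζ, IntermediateField.mem_adjoin_simple_self _ ζ⟩) ^ (Nat.totient (q ^ (s + 1))) := by
    rw [← map_pow]
    refine (hE _ _).mpr ?_
    rw [Valuation.comap_apply, Valuation.comap_apply, map_natCast, map_natCast, map_pow, map_pow]
    exact (valuation_one_sub_zetaK_pow hq s hζ).ge
  exact (S.isUnif () h1 h2).1

/-- **[LZ_k]** -/
theorem exists_zpow_of_mem_adjoin_zetaK (hq : q.Prime) (hA : A.LiesOverPrime q) (s : ℕ) {ζ : Qbar}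
    (hζ : IsPrimitiveRoot ζ (q ^ (s + 1))) {x : Qbar} (hx0 : x ≠ 0)
    (hx : x ∈ IntermediateField.adjoin (K0 A) {ζ}) :
    ∃ n : ℤ, A.valuation x = A.valuation (1 - ζ) ^ n := by
  have hE := isEquiv_valuation_comap A (algebraMap (IntermediateField.adjoin (K0 A) {ζ}) Qbar)
  have hU := isUnif_zetaK hq hA s hζ
  obtain ⟨n, hn⟩ := hU.disc ⟨x, hx⟩ (fun h => hx0 (congrArg Subtype.val h))
  refine ⟨n, ?_⟩
  rw [← map_zpow₀] at hn
  have h3 := hE.eq_iff.mp hn
  rw [Valuation.comap_apply, Valuation.comap_apply, map_zpow₀, map_zpow₀] at h3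
  exact h3

/-- integral version -/
theorem exists_pow_of_mem_adjoin_zetaK (hq : q.Prime) (hA : A.LiesOverPrime q) (s : ℕ) {ζ : Qbar}
    (hζ : IsPrimitiveRoot ζ (q ^ (s + 1))) {x : Qbar} (hx0 : x ≠ 0)
    (hx : x ∈ IntermediateField.adjoin (K0 A) {ζ}) (hxA : A.valuation x ≤ 1) :
    ∃ n : ℕ, A.valuation x = A.valuation (1 - ζ) ^ n := by
  obtain ⟨n, hn⟩ := exists_zpow_of_mem_adjoin_zetaK hq hA s hζ hx0 hx
  have hlt := valuation_one_sub_zetaK_lt hq hA s hζ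
  have hne : (1 : Qbar) - ζ ≠ 0 := one_sub_zetaK_ne_zero hq s hζ
  have hpos : 0 < A.valuation (1 - ζ) := zero_lt_iff.mpr ((Valuation.ne_zero_iff _).mpr hne)
  rw [hn, zpow_le_one_iff_right_of_lt_one₀ hpos hlt] at hxA
  obtain ⟨k, rfl⟩ := Int.eq_ofNat_of_zero_le hxA
  exact ⟨k, by rw [hn, zpow_natCast]⟩

/-- the tower: `K0(ζ^(q^j)) ⊆ K0(ζ)` -/
theorem adjoin_zetaK_pow_le (ζ : Qbar) (i : ℕ) :
    IntermediateField.adjoin (K0 A) {ζ ^ i} ≤ IntermediateField.adjoin (K0 A) {ζ} := by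
  rw [IntermediateField.adjoin_simple_le_iff]
  exact pow_mem (IntermediateField.mem_adjoin_simple_self _ ζ) i

theorem valuation_one_sub_zetaK_prime_pow (hq : q.Prime) {s j : ℕ} (hj : j ≤ s) {ζ : Qbar}
    (hζ : IsPrimitiveRoot ζ (q ^ (s + 1))) :
    A.valuation (1 - ζ ^ (q ^ j)) = A.valuation (1 - ζ) ^ (q ^ j) :=
  valuation_one_sub_pow_prime_pow A.valuation hq hj hζ

theorem valuation_one_sub_zetaK_of_not_dvd (hq : q.Prime) (s : ℕ) {ζ : Qbar}
    (hζ : IsPrimitiveRoot ζ (q ^ (s + 1))) {i : ℕ} (hi : ¬ q ∣ i) :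
    A.valuation (1 - ζ ^ i) = A.valuation (1 - ζ) :=
  valuation_one_sub_pow_of_coprime A.valuation (pow_ne_zero _ hq.ne_zero) hζ
    (Nat.Coprime.pow_right _ ((Nat.Prime.coprime_iff_not_dvd hq).mpr hi).symm)

end Fermat.Agent.S45
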