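import Fermat.Agent.S36.Mod.Disc
import Fermat.Agent.S45.Mod.Lz
import Fermat.Agent.S45.Mod.CuspK

/-!
# S45 / modular part : `[MODK-DISC]` the embeddings `eps_(k,s)` have discrete coefficients

Port of the last section of `S36/Mod/Disc.lean` to roots of unity of order `q ^ (s+1)`,
architecture independent: the level `L` is a variable and the embedding `σ : FN L → ℚbar((T))` is arbitrary.

* `isDiscEmb_K0zetaK` : the criterion for `L₁ = K0(ζ)`, `ζ` primitive of order `q ^ (s+1)`;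
* `emb_mem_fracField` : generation principle (constants + the generators `j (D τ)`);
* `rot_mem_fracField`, `rot_jq_mem_fracField`, `qExpand_rot_jq_mem_fracField`, `jq_mem_fracField` : members;
* `discK_K0`, `discK_zeta` : `IsDiscEmb` of `σ ∘ embF0` from the images of the generators;
* `IsSigK.disc_zero`, `IsSigK.disc_succ` : the expansions of `S45/Mod/CuspK.lean`.
-/

set_option autoImplicit false
set_option linter.unusedSectionVars false
noncomputable section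

open ModularCurve

namespace Fermat.Agent.S45

open Fermat.Agent.S24 Fermat.Agent.RED.Gauss Fermat.Agent.S36

variable {A : ValuationSubring Kb} {q : ℕ}

/-- the criterion for `L₁ = K0(ζ)`, `ζ` of order `q ^ (s+1)`. -/
theorem isDiscEmb_K0zetaK (hq : q.Prime) (hA : A.LiesOverPrime q) (s : ℕ) {ζ : Kb}
    (hζ : IsPrimitiveRoot ζ (q ^ (s + 1))) {F : Type*} [Field F]
    (e : F →+* LaurentSeries Kb)
    (he : ∀ y, e y ∈ fracField A (IntermediateField.adjoin (K0 A) {ζ}).toSubfield) :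
    IsDiscEmb A (1 - ζ) e :=
  isDiscEmb_of_closure (IntermediateField.adjoin (K0 A) {ζ}).toSubfield
    (valuation_one_sub_zetaK_lt hq hA s hζ) (one_sub_zetaK_ne_zero hq s hζ)
    (fun _ hx hx0 hxA => exists_pow_of_mem_adjoin_zetaK hq hA s hζ hx0 hx hxA) e he

/-- **generation principle**: an embedding which sends the constants to constants and the generators
`j (D τ)` into `fracField A L₁` (`K0 ⊆ L₁`) has all its values on `F0 A L` in `fracField A L₁`. -/
theorem emb_mem_fracField (L₁ : Subfield Kb) (hK0 : ∀ x ∈ K0 A, x ∈ L₁) (L : ℕ) [NeZero L]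
    (σ : FN L →+* LaurentSeries Kb)
    (h0 : ∀ a : Kb, σ (algebraMap Kb (FN L) a) = HahnSeries.C a)
    (hj : ∀ (D : ℕ) [NeZero D] (hD : D ∣ L), σ (jBar L D hD) ∈ fracField A L₁) (y : F0 A L) :
    σ (embF0 A L y) ∈ fracField A L₁ := by
  refine emb_mem_of_gen A L _ _ ?_ hj y
  intro c
  rw [h0]
  exact C_mem_fracField (hK0 _ (algebraMap_KK_mem c))

/-- a series with integral coefficients, supported on the multiples of `e`, rotated by a root of unity
`ξ` with `ξ ^ e ∈ L₁`. -/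
theorem rot_mem_fracField {L₁ : Subfield Kb} {n : ℕ} (hn : n ≠ 0) (ξ : Kbˣ) (hξ : ξ ^ n = 1)
    (e : ℕ) (hL : ((ξ ^ e : Kbˣ) : Kb) ∈ L₁) (x : LaurentSeries Kb)
    (hx : ∀ m : ℤ, ∃ c : ℤ, x.coeff m = (c : Kb))
    (hsupp : ∀ m : ℤ, ¬ (e : ℤ) ∣ m → x.coeff m = 0) :
    rot ξ x ∈ fracField A L₁ := by
  refine mem_fracField_of_coeff fun m => ?_
  rw [rot_coeff]
  by_cases hm : (e : ℤ) ∣ m
  · obtain ⟨c, hc⟩ := hx m
    rw [hc]
    have h1 : ((ξ ^ m : Kbˣ) : Kb) ∈ L₁ := by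
      obtain ⟨k, rfl⟩ := hm
      rw [zpow_mul, zpow_natCast, Units.val_zpow_eq_zpow_val]
      exact zpow_mem hL k
    have h2 : ((ξ ^ m : Kbˣ) : Kb) ∈ A := by
      rw [← ValuationSubring.valuation_le_one_iff]
      refine le_of_eq (S36.valuation_eq_one_of_pow_eq_one A.valuation hn ?_)
      rw [← Units.val_pow_eq_pow_val, ← zpow_natCast, ← zpow_mul, mul_comm, zpow_mul, zpow_natCast,
        hξ, one_zpow, Units.val_one]
    exact ⟨mul_mem h2 (intCast_mem _ c), mul_mem h1 (intCast_mem _ c)⟩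
  · rw [hsupp m hm, mul_zero]
    exact ⟨zero_mem _, zero_mem _⟩

theorem jq_coeff_int (d : ℕ) [NeZero d] (m : ℤ) : ∃ c : ℤ, (jqNModC Kb d).coeff m = (c : Kb) := by
  rw [← jBarSeries_eq]
  exact jBarSeries_coeff_int d m

theorem jq_mem_fracField (L₁ : Subfield Kb) (d : ℕ) [NeZero d] : jqNModC Kb d ∈ fracField A L₁ := by
  rw [← jBarSeries_eq]
  exact jBarSeries_mem_fracField _ d

/-- `j_D (ξ T)` when `e ∣ D` and `ξ ^ e ∈ L₁`. -/
theorem rot_jq_mem_fracField {L₁ : Subfield Kb} {n : ℕ} (hn : n ≠ 0) (ξ : Kbˣ) (hξ : ξ ^ n = 1)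
    (e : ℕ) (hL : ((ξ ^ e : Kbˣ) : Kb) ∈ L₁) (D : ℕ) [NeZero D] (heD : e ∣ D) :
    rot ξ (jqNModC Kb D) ∈ fracField A L₁ := by
  refine rot_mem_fracField hn ξ hξ e hL _ (jq_coeff_int D) ?_
  intro m hm
  rw [jqNModC]
  exact qExpand_coeff_of_not_dvd D _ (fun h => hm ((Int.natCast_dvd_natCast.mpr heD).trans h))

/-- `qExpand` preserves `fracField`. -/
theorem qExpand_mem_fracField {L₁ : Subfield Kb} (x : ℕ) [NeZero x] {f : LaurentSeries Kb}
    (hf : f ∈ fracField A L₁) : qExpand Kb x f ∈ fracField A L₁ := by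
  have : fracField A L₁ ≤ (fracField A L₁).comap (qExpand Kb x) := by
    rw [fracField, Subfield.closure_le]
    intro g hg
    have hg' := mem_coeffSubring_iff.mp hg
    refine mem_fracField_of_coeff fun m => ?_
    by_cases hm : (x : ℤ) ∣ m
    · obtain ⟨k, rfl⟩ := hm
      rw [qExpand_coeff_mul]
      exact hg' k
    · rw [qExpand_coeff_of_not_dvd x _ hm]
      exact ⟨zero_mem _, zero_mem _⟩
  exact this hf

/-- `j_d (z T ^ x)` for a root of unity `z ∈ L₁`. -/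
theorem qExpand_rot_jq_mem_fracField {L₁ : Subfield Kb} {n : ℕ} (hn : n ≠ 0) (z : Kbˣ)
    (hz : z ^ n = 1) (hL : (z : Kb) ∈ L₁) (x : ℕ) [NeZero x] (d : ℕ) [NeZero d] :
    qExpand Kb x (rot z (jqNModC Kb d)) ∈ fracField A L₁ :=
  qExpand_mem_fracField x
    (rot_jq_mem_fracField hn z hz 1 (by rwa [pow_one]) d (one_dvd d))

/-- **[MODK-DISC]**, coefficients in `K0`. -/
theorem discK_K0 (hq : q.Prime) (hA : A.LiesOverPrime q) (L : ℕ) [NeZero L]
    (σ : FN L →+* LaurentSeries Kb)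
    (h0 : ∀ a : Kb, σ (algebraMap Kb (FN L) a) = HahnSeries.C a)
    (hj : ∀ (D : ℕ) [NeZero D] (hD : D ∣ L), σ (jBar L D hD) ∈ fracField A (K0 A).toSubfield) :
    IsDiscEmb A (q : Kb) (σ.comp (embF0 A L)) :=
  isDiscEmb_K0 hq hA _ (fun y => emb_mem_fracField _ (fun _ hx => hx) L σ h0 hj y)

/-- **[MODK-DISC]**, coefficients in `K0(ζ)`, `ζ` primitive of order `q ^ (s+1)`. -/
theorem discK_zeta (hq : q.Prime) (hA : A.LiesOverPrime q) (s : ℕ) {ζ : Kb}
    (hζ : IsPrimitiveRoot ζ (q ^ (s + 1))) (L : ℕ) [NeZero L]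
    (σ : FN L →+* LaurentSeries Kb)
    (h0 : ∀ a : Kb, σ (algebraMap Kb (FN L) a) = HahnSeries.C a)
    (hj : ∀ (D : ℕ) [NeZero D] (hD : D ∣ L),
      σ (jBar L D hD) ∈ fracField A (IntermediateField.adjoin (K0 A) {ζ}).toSubfield) :
    IsDiscEmb A (1 - ζ) (σ.comp (embF0 A L)) :=
  isDiscEmb_K0zetaK hq hA s hζ _ (fun y => emb_mem_fracField _
    (fun x hx => (IntermediateField.adjoin (K0 A) {ζ}).algebraMap_mem (⟨x, hx⟩ : K0 A)) L σ h0 hj y)

section Sig

variable {M r s L : ℕ} [NeZero M] [NeZero q] [NeZero L] {ξ : Kbˣ}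
  {σ : FN L →+* LaurentSeries Kb}

/-- the generators under an `IsSigK` embedding: coefficients in any `L₁ ∋ ξ ^ (q ^ (r - s))`. -/
theorem IsSigK.jBar_mem_fracField (H : IsSigK M q r s L ξ σ) (hq : q.Prime)
    (hL : L = M * q ^ (r + s)) (hξ : ξ ^ (q ^ r) = 1) (L₁ : Subfield Kb)
    (hL₁ : ((ξ ^ (q ^ (r - s)) : Kbˣ) : Kb) ∈ L₁) (D : ℕ) [NeZero D] (hD : D ∣ L) :
    σ (jBar L D hD) ∈ fracField A L₁ := by
  rcases exists_decompK hq (hL ▸ hD) with hD' | ⟨d, n, hd, hn, rfl⟩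
  · rw [H.low D hD hD']
    exact jq_mem_fracField _ D
  · have : NeZero d := ⟨fun h0 => NeZero.ne (d * q ^ (r + n)) (by rw [h0]; simp)⟩
    rw [H.high d n hD hd hn]
    exact rot_jq_mem_fracField (pow_ne_zero r hq.ne_zero) ξ hξ (q ^ (r - s)) hL₁ _
      (Dvd.dvd.mul_left (pow_dvd_pow q (by omega)) d)

/-- the case `s = 0` (the cusp `∞`): coefficients in `K0`. -/
theorem IsSigK.disc_zero (H : IsSigK M q r 0 L ξ σ) (hq : q.Prime) (hA : A.LiesOverPrime q)
    (hL : L = M * q ^ (r + 0)) (hξ : ξ ^ (q ^ r) = 1) :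
    IsDiscEmb A (q : Kb) (σ.comp (embF0 A L)) :=
  discK_K0 hq hA L σ H.const (fun D _ hD => H.jBar_mem_fracField hq hL hξ _
    (by rw [Nat.sub_zero, hξ, Units.val_one]; exact one_mem _) D hD)

/-- the middle components: coefficients in `K0(ζ)`, `ζ = ξ ^ (q ^ (r - (s+1)))` primitive of order
`q ^ (s+1)`. -/
theorem IsSigK.disc_succ (H : IsSigK M q r (s + 1) L ξ σ) (hq : q.Prime) (hA : A.LiesOverPrime q)
    (hL : L = M * q ^ (r + (s + 1))) (hsr : s + 1 ≤ r) (hξ : IsPrimitiveRoot ξ (q ^ r)) :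
    IsDiscEmb A (1 - (ξ : Kb) ^ (q ^ (r - (s + 1)))) (σ.comp (embF0 A L)) := by
  have hζ : IsPrimitiveRoot ((ξ : Kb) ^ (q ^ (r - (s + 1)))) (q ^ (s + 1)) := by
    refine (IsPrimitiveRoot.coe_units_iff.mpr hξ).pow (pow_pos hq.pos r) ?_
    rw [← pow_add]
    congr 1
    omega
  refine discK_zeta hq hA s hζ L σ H.const (fun D _ hD => H.jBar_mem_fracField hq hL hξ.pow_eq_one _ ?_ D hD)
  rw [Units.val_pow_eq_pow_val]
  exact IntermediateField.mem_adjoin_simple_self _ _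

end Sig

end Fermat.Agent.S45
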