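import Fermat.Agent.S45.Mod.Disc
import Fermat.Agent.S45.Mod.ZSys

/-!
# S45 / modular part : `[MODK-DISC-EPS]` the expansions `E_{k,s}` (`IsEps`) have discrete coefficients

* `ZSys.zT_pow`, `ZSys.zT_mem_adjoin`, `ZSys.zT_eq_one` : the roots of unity of THE TABLE;
* `ZSys.lamK_ne_zero`, `ZSys.valuation_lamK_lt`, `ZSys.valuation_lamK_pow` : the uniformiser `lamK`;
* `exists_jBar_eq_aL` : the generators `j (D τ)`, `D ∣ M q^k`, are the `aL k i (j (d τ))`;
* `IsEps.disc` : `IsDiscEmb A (lamK q z k s) (E ∘ embF0)`.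
-/

set_option autoImplicit false
set_option linter.unusedSectionVars false
noncomputable section

open ModularCurve

namespace Fermat.Agent.S45

open Fermat.Agent.S24 Fermat.Agent.RED.Gauss Fermat.Agent.S36

namespace ZSys

variable {q : ℕ} {z : ℕ → Kbˣ}

theorem pow_sub (hz : ZSys q z) {m n : ℕ} (h : m ≤ n) : z n ^ (q ^ (n - m)) = z m := by
  have := hz.pow_pow m (n - m)
  rwa [Nat.add_sub_cancel' h] at this

theorem prim_coe (hz : ZSys q z) (hq : q.Prime) (n : ℕ) :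
    IsPrimitiveRoot ((z n : Kbˣ) : Kb) (q ^ n) :=
  IsPrimitiveRoot.coe_units_iff.mpr (hz.prim hq n)

theorem ne_one (hz : ZSys q z) (hq : q.Prime) {n : ℕ} (hn : n ≠ 0) : z n ≠ 1 :=
  (hz.prim hq n).ne_one (Nat.one_lt_pow hn hq.one_lt)

/-- `z m ∈ K0(z n)` for `m ≤ n`. -/
theorem mem_adjoin (hz : ZSys q z) (A : ValuationSubring Kb) {m n : ℕ} (h : m ≤ n) :
    ((z m : Kbˣ) : Kb) ∈ IntermediateField.adjoin (K0 A) {((z n : Kbˣ) : Kb)} := by
  rw [← hz.pow_sub h, Units.val_pow_eq_pow_val]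
  exact pow_mem (IntermediateField.mem_adjoin_simple_self _ _) _

theorem inv_mem_adjoin (hz : ZSys q z) (A : ValuationSubring Kb) {m n : ℕ} (h : m ≤ n) :
    (((z m)⁻¹ : Kbˣ) : Kb) ∈ IntermediateField.adjoin (K0 A) {((z n : Kbˣ) : Kb)} := by
  rw [Units.val_inv_eq_inv_val]
  exact inv_mem (hz.mem_adjoin A h)

/-- the roots of unity of the table are `q^k`-th roots of unity. -/
theorem zT_pow (hz : ZSys q z) (k s i : ℕ) (hi : i ≤ k) : zT z k s i ^ (q ^ k) = 1 := by
  have key : ∀ n, n ≤ k → z n ^ (q ^ k) = 1 := by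
    intro n hn
    obtain ⟨d, rfl⟩ := Nat.exists_eq_add_of_le hn
    rw [pow_add, pow_mul, hz.pow_eq_one, one_pow]
  unfold zT
  split_ifs
  · exact key _ (by omega)
  · rw [inv_pow, key _ (by omega), inv_one]

/-- the roots of unity of the table lie in `K0(z_(min(s,k-s)))`. -/
theorem zT_mem_adjoin (hz : ZSys q z) (A : ValuationSubring Kb) (k s i : ℕ) (hi : i ≤ k) :
    ((zT z k s i : Kbˣ) : Kb) ∈
      IntermediateField.adjoin (K0 A) {((z (min s (k - s)) : Kbˣ) : Kb)} := by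
  unfold zT
  split_ifs with h
  · exact hz.mem_adjoin A (by omega)
  · exact hz.inv_mem_adjoin A (by omega)

/-- if `min(s,k-s) = 0` all the roots of unity of the table are `1`. -/
theorem zT_eq_one (hz : ZSys q z) (k s i : ℕ) (hi : i ≤ k)
    (h0 : min s (k - s) = 0) : zT z k s i = 1 := by
  unfold zT
  split_ifs with h
  · have : i - (k - s) = 0 := by omega
    rw [this, hz.zero]
  · have : k - s - i = 0 := by omega
    rw [this, hz.zero, inv_one]

variable {A : ValuationSubring Kb}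

theorem lamK_ne_zero (hz : ZSys q z) (hq : q.Prime) (k s : ℕ) : lamK q z k s ≠ 0 := by
  unfold lamK
  split_ifs with h
  · exact_mod_cast hq.ne_zero
  · rw [sub_ne_zero]
    intro h1
    exact hz.ne_one hq h (Units.ext h1.symm)

theorem valuation_lamK_lt (hz : ZSys q z) (hq : q.Prime) (hA : A.LiesOverPrime q) (k s : ℕ) :
    A.valuation (lamK q z k s) < 1 := by
  unfold lamK
  split_ifs with h
  · exact A.mem_nonunits_iff.mp hA
  · obtain ⟨n, hn⟩ := Nat.exists_eq_succ_of_ne_zero h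
    have := hz.prim_coe hq (min s (k - s))
    rw [hn] at this ⊢
    exact valuation_one_sub_zetaK_lt hq hA n this

/-- `v(lam)^e = v(q)`. -/
theorem valuation_lamK_pow (hz : ZSys q z) (hq : q.Prime) (k s : ℕ) :
    A.valuation (lamK q z k s) ^ eK q k s = A.valuation (q : Kb) := by
  unfold lamK eK
  split_ifs with h
  · rw [h, pow_zero, Nat.totient_one, pow_one]
  · obtain ⟨n, hn⟩ := Nat.exists_eq_succ_of_ne_zero h
    have := hz.prim_coe hq (min s (k - s))
    rw [hn] at this ⊢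
    exact valuation_one_sub_zetaK_pow hq n this

end ZSys

section Gen

variable (M q : ℕ) [NeZero M] [NeZero q]

/-- divisors of `M q^k`. -/
theorem exists_dvd_lv (hq : q.Prime) (k : ℕ) {D : ℕ} (hD : D ∣ lv M q k) :
    ∃ d i, d ∣ M ∧ i ≤ k ∧ D = d * q ^ i := by
  rw [lv_eq] at hD
  obtain ⟨d, e, hd, he, rfl⟩ := exists_dvd_and_dvd_of_dvd_mul hD
  obtain ⟨i, hi, rfl⟩ := (Nat.dvd_prime_pow hq).1 he
  exact ⟨d, i, hd, hi, rfl⟩

/-- the generator `j (d q^i τ)` of level `M q^k` is `aL k i (j (d τ))`. -/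
theorem aL_jBar (k i : ℕ) (hi : i ≤ k) (d : ℕ) [NeZero d] (hd : d ∣ M)
    (hD : d * q ^ i ∣ lv M q k) :
    aL Kb M q k i (jBar M d hd) = jBar (lv M q k) (d * q ^ i) hD := by
  apply Subtype.ext
  rw [coe_aL Kb M q k i hi, coe_jBar, coe_jBar, jqNModC, jqNModC, qExpand_qExpand]
  exact qExpand_congr (mul_comm (q ^ i) d) _

theorem exists_jBar_eq_aL (hq : q.Prime) (k : ℕ) (D : ℕ) [NeZero D] (hD : D ∣ lv M q k) :
    ∃ (d i : ℕ) (_ : NeZero d) (hd : d ∣ M), i ≤ k ∧
      jBar (lv M q k) D hD = aL Kb M q k i (jBar M d hd) := by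
  obtain ⟨d, i, hd, hi, rfl⟩ := exists_dvd_lv M q hq k hD
  have hd0 : NeZero d := ⟨fun h0 => NeZero.ne M (Nat.eq_zero_of_zero_dvd (h0 ▸ hd))⟩
  exact ⟨d, i, hd0, hd, hi, (aL_jBar M q k i hi d hd hD).symm⟩

end Gen

section Main

variable {M q : ℕ} [NeZero M] [NeZero q] {A : ValuationSubring Kb} {z : ℕ → Kbˣ} {k s : ℕ}
  {E : FN (lv M q k) →+* LaurentSeries Kb}

/-- the generators under `E_{k,s}`. -/
theorem IsEps.jBar_mem_fracField (H : IsEps M q z k s E) (hq : q.Prime) (hz : ZSys q z)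
    (L₁ : Subfield Kb) (hL₁ : ∀ i, i ≤ k → ((zT z k s i : Kbˣ) : Kb) ∈ L₁)
    (D : ℕ) [NeZero D] (hD : D ∣ lv M q k) : E (jBar (lv M q k) D hD) ∈ fracField A L₁ := by
  obtain ⟨d, i, _, hd, hi, h⟩ := exists_jBar_eq_aL M q hq k D hD
  rw [h, H.t i hi, subT_apply, coe_jBar]
  exact qExpand_rot_jq_mem_fracField (pow_ne_zero k hq.ne_zero) _ (hz.zT_pow k s i hi) (hL₁ i hi) _ d

/-- **[MODK-DISC-EPS]** -/
theorem IsEps.disc (H : IsEps M q z k s E) (hq : q.Prime) (hA : A.LiesOverPrime q)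
    (hz : ZSys q z) : IsDiscEmb A (lamK q z k s) (E.comp (embF0 A (lv M q k))) := by
  unfold lamK
  split_ifs with h
  · refine discK_K0 hq hA _ E H.c (fun D _ hD => H.jBar_mem_fracField hq hz _ ?_ D hD)
    intro i hi
    rw [hz.zT_eq_one k s i hi h, Units.val_one]
    exact one_mem _
  · obtain ⟨n, hn⟩ := Nat.exists_eq_succ_of_ne_zero h
    have hp := hz.prim_coe hq (min s (k - s))
    refine discK_zeta hq hA n (by rw [hn] at hp; rw [hn]; exact hp) _ E H.c
      (fun D _ hD => H.jBar_mem_fracField hq hz _ ?_ D hD)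
    intro i hi
    exact hz.zT_mem_adjoin A k s i hi

end Main

end Fermat.Agent.S45
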