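import Fermat.Agent.S45.Mod.Inst3

/-!
# S45 / modular part : assembly, stage 4 : the case split `q = 2` / `q` odd.  Open: `EndsOnly` (helper65) and the congruence for `q` odd (helper5).
-/

set_option autoImplicit false
set_option linter.unusedSectionVars false

noncomputable section

open AlgebraicCurve ModularCurve

namespace Fermat.Agent.S45

open Fermat.Agent.RED hiding Kb
open Fermat.Agent.S24 Fermat.Agent.RED.TorsES
open Fermat.Agent.S36 Fermat.Agent.S36.Kum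

namespace CtxK

variable (D : CtxK)

/-- the part of `EndsMeet` which does not depend on `H`. -/
structure EndsOnly (K : ℕ) (hK : 1 ≤ K) (a b : D.Fk K) : Prop where
  a_lt : (D.OO K 0 (Nat.zero_le K)).valuation a < 1
  a_ram : (D.OO K 0 (Nat.zero_le K)).valuation (D.q : D.Fk K)
    ≤ (D.OO K 0 (Nat.zero_le K)).valuation a
  a_indep : ∀ s (hs : s ≤ K), s ≠ 0 → (D.OO K s hs).valuation a = 1
  b_lt : (D.OO K K le_rfl).valuation b < 1
  b_ram : (D.OO K K le_rfl).valuation (D.q : D.Fk K) ≤ (D.OO K K le_rfl).valuation b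
  b_indep : ∀ s (hs : s ≤ K), s ≠ K → (D.OO K s hs).valuation b = 1
  a_mem : a ∈ intCl D.R (D.t K)
  a_inv : ∃ n : ℕ, (D.q : D.Fk K) ^ n / a ∈ intCl D.R (D.t K)
  meet : ∀ 𝔪 : Ideal (intCl D.R (D.t K)), 𝔪.IsMaximal → ∀ i j, i ≠ j → (D.sysT hK).p i ≤ 𝔪 →
    (D.sysT hK).p j ≤ 𝔪 → ∀ l, (D.sysT hK).p l ≤ 𝔪

end CtxK

theorem hasDatumCtx_of_ends
    (hends : ∀ (D : CtxK) (K : ℕ) (hK : 1 ≤ K), aux D.q ∣ D.M → 3 ≤ K →
      ∃ a b : D.Fk K, D.EndsOnly K hK a b)
    (hodd : ∀ (D : CtxK) (_ : D.q ≠ 2) (h4 : 4 ∣ D.M) (K s : ℕ) (_ : 0 < s) (hs : s < K),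
      ∃ (y : D.Fk K) (c : D.R), y ∈ intCl D.R (D.t K) ∧ IsUnit c ∧
        (D.OO K s hs.le).valuation
          (D.vp (hUnit4 D.M D.q h4) K s ^ eK D.q K s / (D.q : D.Fk K) * y
            - algebraMap D.R (D.Fk K) c) < 1) : HasDatumCtx :=
  hasDatumCtx_of_endsMeet fun D K hK haux hK3 => by
    obtain ⟨a, b, E⟩ := hends D K hK haux hK3
    by_cases h2 : D.q = 2
    · have h3 : 3 ∣ D.M := by
        rw [aux, if_pos h2] at haux
        exact Dvd.dvd.trans (by norm_num) haux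
      exact ⟨hUnit3 D.M D.q h3, a, b,
        { a_lt := E.a_lt, a_ram := E.a_ram, a_indep := E.a_indep, b_lt := E.b_lt, b_ram := E.b_ram
          b_indep := E.b_indep, a_mem := E.a_mem, a_inv := E.a_inv, meet := E.meet
          cong := fun s h0 hs => ⟨1, 1, Subring.one_mem _, isUnit_one, D.val_two h2 h3 K s h0 hs⟩ }⟩
    · have h4 : 4 ∣ D.M := by
        rw [aux, if_neg h2] at haux
        exact haux
      exact ⟨hUnit4 D.M D.q h4, a, b,
        { a_lt := E.a_lt, a_ram := E.a_ram, a_indep := E.a_indep, b_lt := E.b_lt, b_ram := E.b_ram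
          b_indep := E.b_indep, a_mem := E.a_mem, a_inv := E.a_inv, meet := E.meet
          cong := fun s h0 hs => hodd D h2 h4 K s h0 hs }⟩

end Fermat.Agent.S45
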