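import Fermat.Agent.S45.Mod.MeetK
import Fermat.Agent.S45.Mod.Inst4

/-!
# S45 / [MODK-MEET] part 3 : `EndsOnly` (helper96's `Inst4.lean`) is a theorem.
-/

set_option autoImplicit false
set_option linter.unusedSectionVars false
noncomputable section

open ModularCurve

namespace Fermat.Agent.S45

open Fermat.Agent.S24 Fermat.Agent.S36 Fermat.Agent.RED.Gauss Fermat.Agent.GAL.AD

namespace CtxK

variable (D : CtxK) {M₀ : ℕ} [NeZero M₀] (W : Wt1 M₀) (hM : M₀ ∣ D.M)

theorem endsOnly_of_wt1 (K : ℕ) (hK : 1 ≤ K) :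
    D.EndsOnly K hK (D.uK' W hM K (K - 1)) (D.uK W hM K 0) where
  a_lt := by rw [D.endA_val W hM hK]; exact D.valq_lt _
  a_ram := (D.endA_val W hM hK).ge
  a_indep := D.endA_indep W hM hK
  b_lt := by rw [D.endB_val W hM hK]; exact D.valq_lt _
  b_ram := (D.endB_val W hM hK).ge
  b_indep := D.endB_indep W hM
  a_mem := D.uK'_mem W hM (D.sysT hK) (by omega)
  a_inv := ⟨1, by
    rw [D.q_div_uK' W hM (show K - 1 < K by omega)]
    exact D.uK_mem W hM (D.sysT hK) (by omega)⟩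
  meet := D.meet_of_sys W hM hK (D.sysT hK)

/-- **the hypothesis `hends` of `hasDatumCtx_of_ends`.** -/
theorem exists_endsOnly (K : ℕ) (hK : 1 ≤ K) (h49 : Fermat.Agent.RED.aux D.q ∣ D.M) :
    ∃ a b : D.Fk K, D.EndsOnly K hK a b := by
  by_cases h2 : D.q = 2
  · have h9 : 9 ∣ D.M := by
      have : Fermat.Agent.RED.aux D.q = 9 := by rw [Fermat.Agent.RED.aux, if_pos h2]
      rwa [this] at h49
    exact ⟨_, _, D.endsOnly_of_wt1 wt1Nine h9 K hK⟩
  · have h4 : 4 ∣ D.M := by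
      have : Fermat.Agent.RED.aux D.q = 4 := by rw [Fermat.Agent.RED.aux, if_neg h2]
      rwa [this] at h49
    exact ⟨_, _, D.endsOnly_of_wt1 wt1Four h4 K hK⟩

end CtxK

end Fermat.Agent.S45
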