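import Fermat.Agent.S45.Mod.DiscEps

/-!
# S45 / modular part : consequences of `IsEps` (generators, uniqueness); discreteness is in `DiscEps.lean`
-/

set_option autoImplicit false
set_option linter.unusedSectionVars false
noncomputable section

open ModularCurve

namespace Fermat.Agent.S45

open Fermat.Agent.S24 Fermat.Agent.S36 Fermat.Agent.RED.Gauss Fermat.Agent.GAL.AD

variable {M q : ℕ} [NeZero M] [NeZero q]

/-- the generators of level `M q^k`. -/
theorem jBar_lv (hq : q.Prime) (k D : ℕ) [NeZero D] (hD : D ∣ lv M q k) :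
    ∃ (d i : ℕ) (_ : NeZero d) (hd : d ∣ M), i ≤ k ∧ D = d * q ^ i ∧
      jBar (lv M q k) D hD = aL Kb M q k i (jBar M d hd) := by
  have hD' : D ∣ M * q ^ k := lv_eq M q k ▸ hD
  obtain ⟨d, e, hd, he, rfl⟩ := (Nat.dvd_mul).1 hD'
  obtain ⟨i, hi, rfl⟩ := (Nat.dvd_prime_pow hq).1 he
  have hd0 : NeZero d := ⟨fun h0 => NeZero.ne (d * q ^ i) (by rw [h0, zero_mul])⟩
  refine ⟨d, i, hd0, hd, hi, rfl, ?_⟩
  apply Subtype.ext
  rw [coe_jBar]
  refine Eq.trans ?_ (coe_aL Kb M q k i hi (jBar M d hd)).symm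
  rw [coe_jBar, jqNModC, jqNModC, qExpand_qExpand]
  exact qExpand_congr (mul_comm _ _) _

variable {z : ℕ → Kbˣ} {k s : ℕ}

/-- **uniqueness**: two ring homomorphisms which agree on the constants and on all `u (q^i τ)`. -/
theorem ringHom_ext_lv (hq : q.Prime) {E : Type*} [Field E] {φ ψ : FN (lv M q k) →+* E}
    (hc : ∀ a : Kb, φ (algebraMap Kb _ a) = ψ (algebraMap Kb _ a))
    (ht : ∀ i, i ≤ k → ∀ u : FN M, φ (aL Kb M q k i u) = ψ (aL Kb M q k i u)) : φ = ψ := by
  apply ringHom_ext_bar hc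
  intro D _ hD
  obtain ⟨d, i, _, hd, hi, -, h⟩ := jBar_lv (M := M) hq k D hD
  rw [h, ht i hi]

theorem IsEps.ext (hq : q.Prime) {E E' : FN (lv M q k) →+* LaurentSeries Kb}
    (H : IsEps M q z k s E) (H' : IsEps M q z k s E') : E = E' :=
  ringHom_ext_lv hq (fun a => by rw [H.c, H'.c]) (fun i hi u => by rw [H.t i hi, H'.t i hi])

theorem zT_pow_eq_one (hz : ZSys q z) (k s i : ℕ) (hi : i ≤ k) : zT z k s i ^ (q ^ k) = 1 := by
  have key : ∀ n, n ≤ k → z n ^ (q ^ k) = 1 := by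
    intro n hn
    obtain ⟨m, rfl⟩ := Nat.exists_eq_add_of_le hn
    rw [pow_add, pow_mul, hz.pow_eq_one, one_pow]
  unfold zT
  split_ifs
  · exact key _ (by omega)
  · rw [inv_pow, key _ (by omega), inv_one]

end Fermat.Agent.S45
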