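import Fermat.Agent.S45.Mod.SysK

/-!
# S45 / modular part : `[MODK-RAM]` the ramification witnesses

* `gv_pow_eq_of_factor` : (generic) if `e w = C c * u`, `u` reduces to `y ≠ 0` and
  `v(c) ^ E = v(q)`, then `v_e (w) ^ E = v_e (q)`;
* `CtxK.val_j_sub_pow` : `w = j_i - j_i'` with `t_i = T^x`, `t_i' = ζ T^x`, `ζ` primitive of order
  `q^(m+1)`, satisfies `v_s (w) ^ φ(q^(m+1)) = v_s (q)`   (all `q`, no Hauptmodul:
  `j(X) - j(ζ X) = (1 - ζ)(Dj(X) + (1 - ζ) r)`, and `Dj` has leading coefficient `-1`);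
* `CtxK.ram k : D.Ram k` : the ramification witnesses (input of `SysK.lean`);
* `CtxK.sysJ`, `CtxK.sysT`, `CtxK.globT` : `sys_j`, `sys`, `glob` of `SysK.lean` without hypothesis.
-/

set_option autoImplicit false
set_option linter.unusedSectionVars false
noncomputable section

open ModularCurve Polynomial

namespace Fermat.Agent.S45

open Fermat.Agent.S24 Fermat.Agent.S36 Fermat.Agent.RED.Gauss Fermat.Agent.GAL.AD Fermat.Agent.S28

section Generic

variable {L : Type*} [Field L] {A : ValuationSubring L} {k : Type*} [Field k] {π : A →+* k}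
  (hπ : IsResMap π) {F : Type*} [Field F] {e : F →+* LaurentSeries L} {lam : L}
  (hd : IsDiscEmb A lam e)

theorem gv_pow_eq_of_factor {w : F} {c : L} {u : LaurentSeries L} {y : LaurentSeries k}
    (hw : e w = HahnSeries.C c * u) (hu : RedsTo π u y) (hy : y ≠ 0) {E q : ℕ}
    (hq : (q : L) ≠ 0) (hc : A.valuation c ^ E = A.valuation (q : L)) :
    (gvO π hπ hd).valuation w ^ E = (gvO π hπ hd).valuation ((q : ℕ) : F) := by
  have hCq : ((q : ℕ) : LaurentSeries L) = HahnSeries.C (q : L) :=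
    (map_natCast (HahnSeries.C : L →+* LaurentSeries L) q).symm
  have hCq0 : (HahnSeries.C (q : L) : LaurentSeries L) ≠ 0 := HahnSeries.C_ne_zero hq
  have hqF : ((q : ℕ) : F) ≠ 0 := by
    intro h
    have h' := congrArg e h
    rw [map_natCast, map_zero, hCq] at h'
    exact hCq0 h'
  have ha : A.valuation (c ^ E / (q : L)) = 1 := by
    rw [map_div₀, map_pow, hc, div_self ((Valuation.ne_zero_iff _).2 hq)]
  have haA : c ^ E / (q : L) ∈ A := (A.valuation_le_one_iff _).1 ha.le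
  have h1 : e (w ^ E / ((q : ℕ) : F)) = HahnSeries.C (c ^ E / (q : L)) * u ^ E := by
    rw [map_div₀, map_pow, hw, map_natCast, mul_pow, hCq, map_div₀, map_pow]
    ring
  have h2 : RedsTo π (e (w ^ E / ((q : ℕ) : F)))
      (HahnSeries.C (π ⟨c ^ E / (q : L), haA⟩) * y ^ E) := by
    rw [h1]
    exact (redsTo_C (⟨c ^ E / (q : L), haA⟩ : A)).mul (hu.pow E)
  have h3 : π ⟨c ^ E / (q : L), haA⟩ ≠ 0 := by
    rw [Ne, hπ.ker, ha]
    exact lt_irrefl _
  have h4 := h2.valuation_eq_one hπ hd (mul_ne_zero (HahnSeries.C_ne_zero h3) (pow_ne_zero _ hy))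
  rw [map_div₀, map_pow] at h4
  exact (div_eq_one_iff_eq ((Valuation.ne_zero_iff _).2 hqF)).1 h4

end Generic

/-! ### the series `j(T) - j(ζ T)` -/

theorem castLS_DL_jqModC_ne_zero (k : Type*) [Field k] : castLS k (DL (jqModC ℤ)) ≠ 0 := by
  apply castLS_ne_zero_of_coeff (n := -1)
  rw [DL_coeff, coeff_jqModC_neg_one, mul_one]
  exact isUnit_one.neg

theorem exists_jq_sub_rot (ζ : Kbˣ) (h1 : IsIntegral ℤ (ζ : Kb))
    (h2 : IsIntegral ℤ ((ζ⁻¹ : Kbˣ) : Kb)) : ∃ r : LaurentSeries Kb, IntS r ∧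
      jqModC Kb - rot ζ (jqModC Kb) = HahnSeries.C (1 - (ζ : Kb)) *
        (castLS Kb (DL (jqModC ℤ)) + HahnSeries.C (1 - (ζ : Kb)) * r) := by
  obtain ⟨r, hr, h⟩ := exists_rot_rem ζ h1 h2 (jqModC ℤ)
  have e : castLS Kb (jqModC ℤ) = jqModC Kb := coeffMap_jqModC _
  rw [e] at h
  exact ⟨r, hr, h⟩

namespace CtxK

variable (D : CtxK)

theorem e_j (k s : ℕ) (hs : s ≤ k) (i : ℕ) (hi : i ≤ k) :
    D.e k s (D.j k i) = qExpand Kb (D.q ^ nK k s i) (rot (zT D.z k s i) (jqModC Kb)) := by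
  have h := D.e_a k s hs i hi (jK D.K D.M 1 (one_dvd D.M))
  rw [cK_jK, jqNModC_one (K := Kb)] at h
  exact h

/-- the ramification of the component `s`, seen on `j_i - j_i'`. -/
theorem val_j_sub_pow (k s : ℕ) (hs : s ≤ k) (i i' : ℕ) (hi : i ≤ k) (hi' : i' ≤ k)
    (hn : nK k s i = nK k s i') (h1 : zT D.z k s i = 1) {m : ℕ}
    (hζ : IsPrimitiveRoot (zT D.z k s i') (D.q ^ (m + 1))) :
    (D.OO k s hs).valuation (D.j k i - D.j k i') ^ Nat.totient (D.q ^ (m + 1)) =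
      (D.OO k s hs).valuation ((D.q : ℕ) : D.Fk k) := by
  have hpos : 0 < D.q ^ (m + 1) := pow_pos D.hq.pos _
  have hζ' : IsPrimitiveRoot ((zT D.z k s i' : Kbˣ) : Kb) (D.q ^ (m + 1)) :=
    IsPrimitiveRoot.coe_units_iff.2 hζ
  have i1 : IsIntegral ℤ ((zT D.z k s i' : Kbˣ) : Kb) := hζ'.isIntegral hpos
  have i2 : IsIntegral ℤ (((zT D.z k s i')⁻¹ : Kbˣ) : Kb) :=
    (IsPrimitiveRoot.coe_units_iff.2 hζ.inv).isIntegral hpos
  obtain ⟨r, hr, h⟩ := exists_jq_sub_rot _ i1 i2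
  have hv : D.A.valuation (1 - ((zT D.z k s i' : Kbˣ) : Kb)) < 1 :=
    valuation_one_sub_zetaK_lt D.hq D.hA m hζ'
  have hw : D.e k s (D.j k i - D.j k i') = HahnSeries.C (1 - ((zT D.z k s i' : Kbˣ) : Kb)) *
      qExpand Kb (D.q ^ nK k s i') (castLS Kb (DL (jqModC ℤ)) +
        HahnSeries.C (1 - ((zT D.z k s i' : Kbˣ) : Kb)) * r) := by
    rw [map_sub, D.e_j k s hs i hi, D.e_j k s hs i' hi', h1, rot_one_left,
      qExpand_congr' (congrArg (D.q ^ ·) hn), ← map_sub, h, map_mul, HahnSeries.C_apply,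
      qExpand_single, mul_zero]
  have hu : RedsTo D.π (castLS Kb (DL (jqModC ℤ)) +
      HahnSeries.C (1 - ((zT D.z k s i' : Kbˣ) : Kb)) * r) (castLS D.k (DL (jqModC ℤ))) :=
    RedTo.add_C_mul (redTo_castLS _) D.hπ hv hr
  refine gv_pow_eq_of_factor D.hπ (D.disc k s hs) hw (hu.qExpand _) ?_
    (by exact_mod_cast D.hq.ne_zero) (valuation_one_sub_zetaK_pow D.hq m hζ')
  exact (_root_.map_ne_zero _).2 (castLS_DL_jqModC_ne_zero D.k)

/-- `v_s (q) < 1` -/
theorem val_q_lt (k s : ℕ) (hs : s ≤ k) :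
    (D.OO k s hs).valuation ((D.q : ℕ) : D.Fk k) < 1 := by
  have h : RedsTo D.π (D.e k s ((D.q : ℕ) : D.Fk k)) 0 := by
    have h1 : D.e k s ((D.q : ℕ) : D.Fk k) = HahnSeries.C ((D.q : ℕ) : Kb) := by
      rw [map_natCast, map_natCast]
    rw [h1]
    exact redTo_C_zero D.hπ (D.A.mem_nonunits_iff.mp D.hA)
  exact D.val_lt_one hs h

theorem lt_one_of_pow_eq {Γ : Type*} [LinearOrderedCommGroupWithZero Γ] {x y : Γ} {E : ℕ}
    (h : x ^ E = y) (hy : y < 1) : x < 1 := by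
  by_contra hcon
  rw [← h] at hy
  exact absurd hy (not_lt.2 (one_le_pow₀ (not_lt.1 hcon)))

/-- **[MODK-RAM]** an element `w` with `v_s (w) ^ e_s = v_s (q)`. -/
theorem exists_val_pow_eq (k s : ℕ) (hs : s ≤ k) : ∃ w : D.Fk k,
    (D.OO k s hs).valuation w ^ eK D.q k s = (D.OO k s hs).valuation ((D.q : ℕ) : D.Fk k) := by
  rcases Nat.eq_zero_or_pos (min s (k - s)) with h0 | h0
  · refine ⟨((D.q : ℕ) : D.Fk k), ?_⟩
    rw [eK, h0, pow_zero, Nat.totient_one, pow_one]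
  · obtain ⟨m, hm⟩ : ∃ m, min s (k - s) = m + 1 := ⟨min s (k - s) - 1, by omega⟩
    rw [eK, hm]
    rcases Nat.lt_or_ge k (2 * s) with h | h
    · -- second regime
      refine ⟨D.j k (2 * (k - s)) - D.j k 0, D.val_j_sub_pow k s hs (2 * (k - s)) 0 (by omega)
        (Nat.zero_le _) ?_ ?_ ?_⟩
      · rw [nK_zero_right hs, nK_of_lt (by omega) (by omega)]
        omega
      · rw [zT, if_neg (by omega)]
        have : k - s - 2 * (k - s) = 0 := by omega
        rw [this, D.hz.zero, inv_one]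
      · rw [zT, if_neg (by omega), Nat.sub_zero]
        have : k - s = m + 1 := by omega
        rw [← this]
        exact (D.hz.prim D.hq (k - s)).inv
    · -- first regime
      refine ⟨D.j k (k - 2 * s) - D.j k k, D.val_j_sub_pow k s hs (k - 2 * s) k (by omega)
        le_rfl ?_ ?_ ?_⟩
      · rw [nK_self_right hs, nK_of_le hs (by omega)]
        omega
      · rw [zT, if_pos h]
        have : k - 2 * s - (k - s) = 0 := by omega
        rw [this, D.hz.zero]
      · rw [zT, if_pos h]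
        have e1 : k - (k - s) = s := by omega
        have e2 : s = m + 1 := by omega
        rw [e1, ← e2]
        exact D.hz.prim D.hq s

/-- **[MODK-RAM]** the ramification witnesses (the input `D.Ram k` of `SysK.lean`). -/
theorem ram (k : ℕ) : D.Ram k := by
  intro s
  obtain ⟨w, hw⟩ := D.exists_val_pow_eq k s (Nat.lt_succ_iff.1 s.2)
  refine ⟨w, lt_one_of_pow_eq hw (D.val_q_lt k s _), ?_⟩
  rw [map_natCast]
  exact hw.ge

/-- **[SYS_k]** without hypothesis -/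
theorem sysJ {k : ℕ} (hk : 1 ≤ k) (i : Fin (k + 1)) :
    GaussSys D.K ((D.q : ℕ) : D.R) (D.j k i) (D.O k) (D.ev k) (D.fj k i) :=
  D.sys_j hk (D.ram k) i

/-- **[SYS_k]** the field `sys` of `GeomDatumK`, without hypothesis -/
theorem sysT {k : ℕ} (hk : 1 ≤ k) :
    GaussSys D.K ((D.q : ℕ) : D.R) (D.t k) (D.O k) (D.ev k) (D.fdeg k) :=
  D.sys hk (D.ram k)

/-- the field `glob` of `GeomDatumK`, without hypothesis -/
theorem globT {k : ℕ} (hk : 1 ≤ k) :
    ∀ x, x ∈ intCl D.R (D.t k) → x ∈ intCl D.R (D.t k)⁻¹ →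
      x ∈ Set.range (algebraMap D.R (D.Fk k)) :=
  D.glob hk (D.ram k)

end CtxK

end Fermat.Agent.S45
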