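import Fermat.Agent.S45.Mod.Gen1Odd
import Fermat.Agent.S45.Theta.RedK
import Fermat.Agent.S45.Mod.RamK
import Fermat.Agent.RED.S37.Defs

/-!
# S45 / modular part : `[MODK-GEN1]` final statements (all `q`)

* `D.hU h49 : HUnit D.M D.q` : `h₃` if `q = 2`, `h` otherwise;
* `D.vpm h49 K s` : the uniformiser of the middle component `s`; `vpm_lt`, `vpm_ram`, `vpm_indep` (indices in `Fin (K+1)`);
* `D.gen₁_sysT` : the field `gen₁` of `GeoOpen` (`S45/Mod/Inst1.lean`), LITERALLY, from the field `meet`.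
-/

set_option autoImplicit false
set_option linter.unusedSectionVars false
noncomputable section

open ModularCurve Polynomial

namespace Fermat.Agent.S45

open Fermat.Agent.S24 Fermat.Agent.S28 Fermat.Agent.S36 Fermat.Agent.RED.Gauss Fermat.Agent.GAL.AD

theorem le_one_of_mul_pow_eq {Γ : Type*} [LinearOrderedCommGroupWithZero Γ] {X Q : Γ} (hQ0 : Q ≠ 0)
    (hQ1 : Q ≤ 1) {m n : ℕ} (hmn : m ≤ n) (h : X * Q ^ m = Q ^ n) : X ≤ 1 := by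
  obtain ⟨r, rfl⟩ := Nat.exists_eq_add_of_le hmn
  rw [pow_add, mul_comm (Q ^ m)] at h
  rw [mul_right_cancel₀ (pow_ne_zero m hQ0) h]
  exact pow_le_one₀ zero_le hQ1

theorem three_dvd_of_aux {q M : ℕ} (h2 : q = 2) (h : Fermat.Agent.RED.aux q ∣ M) : 3 ∣ M := by
  rw [Fermat.Agent.RED.aux, if_pos h2] at h
  exact Dvd.dvd.trans (by norm_num) h

theorem four_dvd_of_aux {q M : ℕ} (h2 : q ≠ 2) (h : Fermat.Agent.RED.aux q ∣ M) : 4 ∣ M := by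
  rwa [Fermat.Agent.RED.aux, if_neg h2] at h

namespace CtxK

variable (D : CtxK)

/-! ### the two theta ratios, `q` odd -/

section Odd

variable (h4 : 4 ∣ D.M)

/-- `G(q^(a-1) τ)/G(q^a τ)`, `a = k - s`. -/
def y₁ (k s : ℕ) : D.Fk k := D.th wt1Four h4 k (k - s - 1) (k - s)

/-- `q G(q^(a+1) τ)/G(q^a τ)`, `a = k - s`. -/
def y₂ (k s : ℕ) : D.Fk k := ((D.q : ℕ) : D.Fk k) * D.th wt1Four h4 k (k - s + 1) (k - s)

theorem redsTo_y₁ (k s : ℕ) (hs : s ≤ k) :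
    RedsTo D.π (D.e k s (D.y₁ h4 k s)) (wt1Four.GL D.k ^ (D.q ^ nK k s (k - s - 1))
      * wt1Four.GLinv D.k ^ (D.q ^ nK k s (k - s))) := by
  have h := D.redsTo_th wt1Four h4 hs (i := k - s - 1) (i' := k - s) (by omega) (by omega)
  rw [show k - s - 1 - (k - s) = 0 by omega, Nat.sub_self, pow_zero, div_one, one_mul, add_zero,
    pow_zero, one_mul] at h
  exact h

theorem redsTo_y₂ (k s : ℕ) (h0 : 0 < s) (hs : s ≤ k) :
    RedsTo D.π (D.e k s (D.y₂ h4 k s)) (wt1Four.chiS D.k D.q *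
      (wt1Four.GL D.k ^ (D.q ^ nK k s (k - s + 1)) * wt1Four.GLinv D.k ^ (D.q ^ nK k s (k - s)))) := by
  have h := D.redsTo_th wt1Four h4 hs (i := k - s + 1) (i' := k - s) (by omega) (by omega)
  rw [show k - s + 1 - (k - s) = 1 by omega, Nat.sub_self, pow_zero, div_one, pow_one, add_zero,
    pow_one] at h
  exact h

theorem val_y₁_le (k s s' : ℕ) (hs : s ≤ k) (hs' : s' ≤ k) :
    (D.OO k s' hs').valuation (D.y₁ h4 k s) ≤ 1 :=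
  le_one_of_mul_pow_eq (D.valq_ne_zero hs') (D.valq_lt hs').le (by omega)
    (D.val_th wt1Four h4 hs' (i := k - s - 1) (i' := k - s) (by omega) (by omega))

theorem val_y₂_le (k s s' : ℕ) (h0 : 0 < s) (hs : s ≤ k) (hs' : s' ≤ k) :
    (D.OO k s' hs').valuation (D.y₂ h4 k s) ≤ 1 := by
  have h := D.val_th wt1Four h4 hs' (i := k - s + 1) (i' := k - s) (by omega) (by omega)
  refine le_one_of_mul_pow_eq (D.valq_ne_zero hs') (D.valq_lt hs').le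
    (m := k - s + 1 - (k - s')) (n := k - s - (k - s') + 1) (by omega) ?_
  rw [y₂, map_mul, mul_assoc, h, pow_succ, mul_comm]

theorem y₁_mem (k s : ℕ) (hs : s ≤ k) {e f : Fin (k + 1) → ℕ}
    (S : GaussSys D.K ((D.q : ℕ) : D.R) (D.t k) (D.O k) e f) : D.y₁ h4 k s ∈ intCl D.R (D.t k) :=
  D.mem_B1_of S (fun s' => D.val_y₁_le h4 k s s' hs _) (D.isIntegral_th wt1Four h4 k _ _)

theorem y₂_mem (k s : ℕ) (h0 : 0 < s) (hs : s ≤ k) {e f : Fin (k + 1) → ℕ}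
    (S : GaussSys D.K ((D.q : ℕ) : D.R) (D.t k) (D.O k) e f) : D.y₂ h4 k s ∈ intCl D.R (D.t k) :=
  D.mem_B1_of S (fun s' => D.val_y₂_le h4 k s s' h0 hs _)
    ((D.isIntegral_natCast k D.q).mul (D.isIntegral_th wt1Four h4 k _ _))

end Odd

/-! ### all `q` -/

variable (h49 : Fermat.Agent.RED.aux D.q ∣ D.M)

/-- the modular unit: `h₃` if `q = 2`, `h` otherwise. -/
def hU : HUnit D.M D.q :=
  if h2 : D.q = 2 then hUnit3 D.M D.q (three_dvd_of_aux h2 h49)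
  else hUnit4 D.M D.q (four_dvd_of_aux h2 h49)

/-- the uniformiser of the middle component `s` of level `K`. -/
def vpm (K s : ℕ) : D.Fk K := D.vp (D.hU h49) K s

theorem vpm_lt (K : ℕ) (i : Fin (K + 1)) (h0 : 0 < (i : ℕ)) (hi : (i : ℕ) < K) :
    (D.O K i).valuation (D.vpm h49 K i) < 1 := D.vp_lt (D.hU h49) K i h0 hi

theorem vpm_ram (K : ℕ) (i : Fin (K + 1)) (h0 : 0 < (i : ℕ)) (hi : (i : ℕ) < K) :
    (D.O K i).valuation (D.q : D.Fk K) ≤ (D.O K i).valuation (D.vpm h49 K i) ^ eK D.q K i :=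
  D.vp_ram (D.hU h49) K i h0 hi

theorem vpm_indep (K : ℕ) (i j : Fin (K + 1)) (h0 : 0 < (i : ℕ)) (hi : (i : ℕ) < K) (hij : i ≠ j) :
    (D.O K j).valuation (D.vpm h49 K i) = 1 :=
  D.vp_indep (D.hU h49) K i j h0 hi (Nat.lt_succ_iff.1 j.2) (fun h => hij (Fin.ext h.symm))

theorem vpm_mem (K : ℕ) (hK : 1 ≤ K) (i : Fin (K + 1)) (h0 : 0 < (i : ℕ)) (hi : (i : ℕ) < K) :
    D.vpm h49 K i ∈ intCl D.R (D.t K) := D.vp_mem (D.hU h49) K i h0 hi (D.sysT hK)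

include h49 in
/-- the field `gen₁` for an arbitrary Gauss system. -/
theorem gen₁_of_sys (K : ℕ) {f : Fin (K + 1) → ℕ}
    (S : GaussSys D.K ((D.q : ℕ) : D.R) (D.t K) (D.O K) (fun s => eK D.q K s) f)
    (i₀ i : Fin (K + 1)) (he : eK D.q K i ≠ 1)
    (𝔪 : Ideal (intCl D.R (D.t K))) (h𝔪 : 𝔪.IsMaximal)
    (meet : ∀ i j, i ≠ j → S.p i ≤ 𝔪 → S.p j ≤ 𝔪 → ∀ l, S.p l ≤ 𝔪)
    (hi : S.p i ≤ 𝔪) (hi₀ : ¬ S.p i₀ ≤ 𝔪) :
    ∃ w : D.Fk K, (D.O K i).valuation w < 1 ∧ MemAt (intCl D.R (D.t K)) 𝔪 w ∧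
      UnitAt (intCl D.R (D.t K)) 𝔪 (w ^ eK D.q K i / (D.q : D.Fk K)) := by
  obtain ⟨s, hs⟩ := i
  have h0 : 0 < s := by
    rcases Nat.eq_zero_or_pos s with rfl | h
    · exact absurd (eK_zero D.q K) he
    · exact h
  have hsK : s < K := by
    rcases Nat.lt_or_ge s K with h | h
    · exact h
    · obtain rfl : s = K := by omega
      exact absurd (eK_self D.q s) he
  by_cases h2 : D.q = 2
  · exact D.gen₁_two h2 (three_dvd_of_aux h2 h49) K s h0 hsK S i₀ 𝔪 h𝔪 meet hi hi₀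
  · have h4 := four_dvd_of_aux h2 h49
    exact D.gen₁_odd h2 h4 K s h0 hsK S (D.y₁_mem h4 K s hsK.le S) (D.y₂_mem h4 K s h0 hsK.le S)
      (D.redsTo_y₁ h4 K s hsK.le) (D.redsTo_y₂ h4 K s h0 hsK.le) i₀ 𝔪 h𝔪 meet hi hi₀

include h49 in
/-- **the field `gen₁` of `GeoOpen`**, from the field `meet`. -/
theorem gen₁_sysT {K : ℕ} (hK : 1 ≤ K)
    (meet : ∀ 𝔪 : Ideal (intCl D.R (D.t K)), 𝔪.IsMaximal → ∀ i j, i ≠ j → (D.sysT hK).p i ≤ 𝔪 →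
      (D.sysT hK).p j ≤ 𝔪 → ∀ l, (D.sysT hK).p l ≤ 𝔪) :
    ∀ i : Fin (K + 1), eK D.q K i ≠ 1 → ∀ 𝔪 : Ideal (intCl D.R (D.t K)), 𝔪.IsMaximal →
    (D.sysT hK).p i ≤ 𝔪 → ¬ (D.sysT hK).p 0 ≤ 𝔪 →
    ∃ w : D.Fk K, (D.O K i).valuation w < 1 ∧ MemAt (intCl D.R (D.t K)) 𝔪 w ∧
      UnitAt (intCl D.R (D.t K)) 𝔪 (w ^ eK D.q K i / (D.q : D.Fk K)) :=
  fun i he 𝔪 h𝔪 hi hi₀ => D.gen₁_of_sys h49 K (D.sysT hK) 0 i he 𝔪 h𝔪 (meet 𝔪 h𝔪) hi hi₀

end CtxK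

end Fermat.Agent.S45
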