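import Fermat.Agent.S45.Mod.Ctx
import Fermat.Agent.S45.Mod.DegK
import Fermat.Agent.S45.Haupt3.MainK3
import Fermat.Agent.S45.Abs.Gen1
import Fermat.Agent.S36.Theta.IntDesc
import Fermat.Agent.S36.Theta.IntClear

/-!
# S45 / modular part : `[MODK-GEN1]` the uniformisers of the middle components, in the context `D : CtxK`

`H : HUnit M q` = a modular unit `h` of level `M` with integral expansion `v` (`u = 1 / v`), e.g. `h = (η(4τ)/η(τ))^8` (`4 ∣ M`, `q` odd) or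
`h₃ = (η(3τ)/η(τ))^12` (`3 ∣ M`, `q = 2`).

`D.vp H k s = 1 - h (q^(iX k s) τ) / h (q^(iY k s) τ)`, `(iX, iY) = (k - 2 s, k)` if `2 s ≤ k`, `(2 (k - s), 0)` if `k < 2 s`: the only component on which
the two exponents of THE TABLE coincide is `s`.

* `vp_lt`, `vp_pow_div`, `vp_ram`, `vp_indep`, `vp_mem` : the fields `ϖ_lt`, `ϖ_ram`, `ϖ_indep` of `GeomDatumK` (`0 < s < k`) and `ϖ s ∈ B₁`;
* `redTo_vp_pow` : the reduction of `ϖ s ^ (e s) / q` along the component `s`;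
* `gen₁_of_red` : the field `gen₁` from a congruence `ϖ s ^ (e s) / q * y ≡ c`.
-/

set_option autoImplicit false
set_option linter.unusedSectionVars false
noncomputable section

open ModularCurve Polynomial

namespace Fermat.Agent.S45

open Fermat.Agent.S24 Fermat.Agent.S28 Fermat.Agent.S36 Fermat.Agent.RED.Gauss Fermat.Agent.GAL.AD

/-- a modular unit of level `M` with integral expansion. -/
structure HUnit (M q : ℕ) [NeZero M] [NeZero q] where
  u : LaurentSeries ℤ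
  v : LaurentSeries ℤ
  huv : u * v = 1
  x : FN M
  coe_x : (x : LaurentSeries Kb) = castLS Kb v
  int : ∀ k i, i ≤ k → IsIntegral (Algebra.adjoin Kb {jF (lv M q k)}) (aL Kb M q k i x)
  int' : ∀ k i, i ≤ k → IsIntegral (Algebra.adjoin Kb {jF (lv M q k)}) (aL Kb M q k i x)⁻¹
  ne : ∀ (κ : Type) [Field κ] (a b : ℕ) [NeZero a] [NeZero b], a ≠ b →
    castLS κ (1 - qExpand ℤ a v * qExpand ℤ b u) ≠ 0
  dne : ∀ (κ : Type) [Field κ], castLS κ (DL u * v) ≠ 0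

/-- the index of the numerator -/
def iX (k s : ℕ) : ℕ := if 2 * s ≤ k then k - 2 * s else 2 * (k - s)

/-- the index of the denominator -/
def iY (k s : ℕ) : ℕ := if 2 * s ≤ k then k else 0

/-- the common exponent on the component `s` -/
def xGen (k s : ℕ) : ℕ := if 2 * s ≤ k then k - 2 * s else 2 * s - k

theorem iX_le (k s : ℕ) (hs : s ≤ k) : iX k s ≤ k := by unfold iX; split_ifs <;> omega

theorem iY_le (k s : ℕ) : iY k s ≤ k := by unfold iY; split_ifs <;> omega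

theorem nK_iX {k s : ℕ} (hs : s < k) : nK k s (iX k s) = xGen k s := by
  unfold nK iX xGen; split_ifs <;> omega

theorem nK_iY {k s : ℕ} (hs : s < k) : nK k s (iY k s) = xGen k s := by
  unfold nK iY xGen; split_ifs <;> omega

theorem nK_iX_ne_iY {k s s' : ℕ} (h0 : 0 < s) (hs : s < k) (hs' : s' ≤ k) (hne : s' ≠ s) :
    nK k s' (iX k s) ≠ nK k s' (iY k s) := by
  unfold nK iX iY; split_ifs <;> omega

namespace CtxK

variable (D : CtxK) (H : HUnit D.M D.q)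

theorem exists_x0 : ∃ y : D.FM, embF0 D.A D.M y = H.x :=
  exists_embF0_eq D.A _ _ (by rw [H.coe_x]; exact castLS_coeff_mem_K0 D.A _)

/-- the unit over `K` -/
def x0 : D.FM := (D.exists_x0 H).choose

theorem embF0_x0 : embF0 D.A D.M (D.x0 H) = H.x := (D.exists_x0 H).choose_spec

theorem cK_x0 : cK D.A ((D.x0 H : D.FM) : LaurentSeries D.K) = castLS Kb H.v := by
  rw [← coe_embF0, embF0_x0, H.coe_x]

/-- the uniformiser of the component `s` of level `k` (`0 < s < k`). -/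
def vp (k s : ℕ) : D.Fk k := 1 - D.a k (iX k s) (D.x0 H) * (D.a k (iY k s) (D.x0 H))⁻¹

/-- THE TABLE for the unit. -/
theorem e_a_x0 (k s : ℕ) (hs : s ≤ k) (i : ℕ) (hi : i ≤ k) :
    D.e k s (D.a k i (D.x0 H))
      = qExpand Kb (D.q ^ nK k s i) (rot (zT D.z k s i) (castLS Kb H.v)) := by
  rw [D.e_a k s hs i hi, cK_x0]

theorem castLS_u_mul_v (κ : Type*) [CommRing κ] : castLS κ H.u * castLS κ H.v = 1 := by
  rw [← map_mul, H.huv, map_one]

/-- the shape needed by `S45/Haupt/MainK.lean`. -/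
theorem exists_xi (k s : ℕ) (h0 : 0 < s) (hs : s < k) : ∃ ξ : Kbˣ,
    IsPrimitiveRoot (ξ ^ (D.q ^ xGen k s)) (D.q ^ min s (k - s)) ∧
    D.e k s (D.a k (iX k s) (D.x0 H)) = qExpand Kb (D.q ^ xGen k s) (castLS Kb H.v) ∧
    D.e k s (D.a k (iY k s) (D.x0 H)) = rot ξ (qExpand Kb (D.q ^ xGen k s) (castLS Kb H.v)) := by
  have e1 := D.e_a_x0 H k s hs.le (iX k s) (iX_le k s hs.le)
  have e2 := D.e_a_x0 H k s hs.le (iY k s) (iY_le k s)
  have q1 : qExpand Kb (D.q ^ nK k s (iX k s)) = qExpand Kb (D.q ^ xGen k s) := by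
    rw [nK_iX hs]
  have q2 : qExpand Kb (D.q ^ nK k s (iY k s)) = qExpand Kb (D.q ^ xGen k s) := by
    rw [nK_iY hs]
  rw [q1] at e1
  rw [q2] at e2
  by_cases h : 2 * s ≤ k
  · have hX : zT D.z k s (iX k s) = 1 := by
      unfold zT iX
      rw [if_pos h, if_pos h]
      have : k - 2 * s - (k - s) = 0 := by omega
      rw [this, D.hz.zero]
    have hY : zT D.z k s (iY k s) = D.z s := by
      unfold zT iY
      rw [if_pos h, if_pos h]
      congr 1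
      omega
    have hm : min s (k - s) = s := by omega
    have hp : D.z (s + xGen k s) ^ (D.q ^ xGen k s) = D.z s := D.hz.pow_pow s (xGen k s)
    refine ⟨D.z (s + xGen k s), ?_, ?_, ?_⟩
    · rw [hp, hm]; exact D.hz.prim D.hq s
    · rw [e1, hX, rot_one_left]
    · rw [e2, hY, rot_qExpandK, hp]
  · have hX : zT D.z k s (iX k s) = 1 := by
      unfold zT iX
      rw [if_neg h, if_neg h]
      have : k - s - 2 * (k - s) = 0 := by omega
      rw [this, D.hz.zero, inv_one]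
    have hY : zT D.z k s (iY k s) = (D.z (k - s))⁻¹ := by
      unfold zT iY
      rw [if_neg h, if_neg h, Nat.sub_zero]
    have hm : min s (k - s) = k - s := by omega
    have hp : (D.z (k - s + xGen k s))⁻¹ ^ (D.q ^ xGen k s) = (D.z (k - s))⁻¹ := by
      rw [inv_pow, D.hz.pow_pow]
    refine ⟨(D.z (k - s + xGen k s))⁻¹, ?_, ?_, ?_⟩
    · rw [hp, hm]; exact (D.hz.prim D.hq (k - s)).inv
    · rw [e1, hX, rot_one_left]
    · rw [e2, hY, rot_qExpandK, hp]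

theorem val_one_sub_of_prim_g1 {ζ : Kbˣ} {m : ℕ} (hm : m ≠ 0) (hζ : IsPrimitiveRoot ζ (D.q ^ m)) :
    D.A.valuation (1 - (ζ : Kb)) < 1 := by
  obtain ⟨n, rfl⟩ := Nat.exists_eq_succ_of_ne_zero hm
  exact valuation_one_sub_zetaK_lt D.hq D.hA n (IsPrimitiveRoot.coe_units_iff.mpr hζ)

theorem e_natCast_g1 (k s n : ℕ) : D.e k s (n : D.Fk k) = HahnSeries.C (n : Kb) := by
  rw [map_natCast, map_natCast]

/-- the series `Du / u` at the exponent of the component. -/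
def dS (k s : ℕ) : LaurentSeries D.k := castLS D.k (qExpand ℤ (D.q ^ xGen k s) (DL H.u * H.v))

theorem dS_ne_zero (k s : ℕ) : D.dS H k s ≠ 0 := castLS_qExpand_ne_zeroK _ (H.dne D.k)

/-- `E_s (ϖ s) = (1 - ζ) w`, `w ≡ Du/u`. -/
theorem exists_e_vp (k s : ℕ) (h0 : 0 < s) (hs : s < k) : ∃ (c : Kb) (w : LaurentSeries Kb),
    D.A.valuation c < 1 ∧ RedTo D.π w (D.dS H k s) ∧ D.e k s (D.vp H k s) = HahnSeries.C c * w := by
  obtain ⟨ξ, hz, hx, hy⟩ := D.exists_xi H k s h0 hs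
  have hm : min s (k - s) ≠ 0 := by omega
  have hv := D.val_one_sub_of_prim_g1 hm hz
  obtain ⟨i1, i2⟩ := isIntegral_of_primitiveK (pow_pos D.hq.pos _) hz
  obtain ⟨w, hw, h⟩ := exists_sigma_redK D.hπ (D.e k s) (D.q ^ xGen k s) ξ H.huv hx hy hv i1 i2
  exact ⟨_, w, hv, hw, h⟩

/-- the field `ϖ_lt`. -/
theorem vp_lt (k s : ℕ) (h0 : 0 < s) (hs : s < k) :
    (D.OO k s hs.le).valuation (D.vp H k s) < 1 := by
  obtain ⟨c, w, hc, hw, h⟩ := D.exists_e_vp H k s h0 hs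
  apply D.val_lt_one hs.le
  rw [h]
  exact ((redTo_C_zero D.hπ hc).mul hw).congr rfl (zero_mul _)

/-- the reduction of `ϖ s ^ (e s) / q` along the component `s`. -/
theorem redTo_vp_pow (k s : ℕ) (h0 : 0 < s) (hs : s < k) :
    RedTo D.π (D.e k s (D.vp H k s ^ eK D.q k s / (D.q : D.Fk k)))
      (-(D.dS H k s) ^ eK D.q k s) := by
  obtain ⟨ξ, hz, hx, hy⟩ := D.exists_xi H k s h0 hs
  have hm : min s (k - s) ≠ 0 := by omega
  have hv := D.val_one_sub_of_prim_g1 hm hz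
  rw [map_div₀, map_pow, e_natCast_g1, eK_of_mid D.hq h0 hs]
  exact redTo_sigma_powK D.hπ (D.e k s) (D.q ^ xGen k s) ξ H.huv hx hy hv D.hq hm hz

theorem vp_pow_div (k s : ℕ) (h0 : 0 < s) (hs : s < k) :
    (D.OO k s hs.le).valuation (D.vp H k s ^ eK D.q k s / (D.q : D.Fk k)) = 1 :=
  D.val_eq_one hs.le (D.redTo_vp_pow H k s h0 hs) (neg_ne_zero.2 (pow_ne_zero _ (D.dS_ne_zero H k s)))

theorem natCast_q_ne_zero_g1 (k : ℕ) : (D.q : D.Fk k) ≠ 0 := by exact_mod_cast D.hq.ne_zero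

theorem vp_pow_eq (k s : ℕ) (h0 : 0 < s) (hs : s < k) :
    (D.OO k s hs.le).valuation (D.q : D.Fk k)
      = (D.OO k s hs.le).valuation (D.vp H k s) ^ eK D.q k s := by
  have h := D.vp_pow_div H k s h0 hs
  rw [map_div₀, map_pow] at h
  exact ((div_eq_one_iff_eq ((Valuation.ne_zero_iff _).2 (D.natCast_q_ne_zero_g1 k))).1 h).symm

/-- the field `ϖ_ram`. -/
theorem vp_ram (k s : ℕ) (h0 : 0 < s) (hs : s < k) :
    (D.OO k s hs.le).valuation (D.q : D.Fk k)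
      ≤ (D.OO k s hs.le).valuation (D.vp H k s) ^ eK D.q k s := (D.vp_pow_eq H k s h0 hs).le

theorem redsTo_e1_x0 : RedsTo D.π (D.e1 (D.x0 H)) (castLS D.k H.v) := by
  have h : D.e1 (D.x0 H) = castLS Kb H.v := by
    show ((embF0 D.A D.M (D.x0 H) : FN D.M) : LaurentSeries Kb) = _
    rw [embF0_x0, H.coe_x]
  rw [h]
  exact redTo_castLS H.v

/-- the reduction of `ϖ s` along the other components. -/
theorem redsTo_vp_other (k s s' : ℕ) (hs : s ≤ k) (hs' : s' ≤ k) :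
    RedsTo D.π (D.e k s' (D.vp H k s))
      (castLS D.k (1 - qExpand ℤ (D.q ^ nK k s' (iX k s)) H.v
        * qExpand ℤ (D.q ^ nK k s' (iY k s)) H.u)) := by
  have h1 := D.redsTo_e_a k s' hs' (iX k s) (iX_le k s hs) (D.redsTo_e1_x0 H)
  have h2 := D.redsTo_e_a k s' hs' (iY k s) (iY_le k s) (D.redsTo_e1_x0 H)
  have huv := D.castLS_u_mul_v H D.k
  have hne : qExpand D.k (D.q ^ nK k s' (iY k s)) (castLS D.k H.v) ≠ 0 := by
    intro h
    rw [map_eq_zero] at h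
    rw [h, mul_zero] at huv
    exact zero_ne_one huv
  have hinv : (qExpand D.k (D.q ^ nK k s' (iY k s)) (castLS D.k H.v))⁻¹
      = qExpand D.k (D.q ^ nK k s' (iY k s)) (castLS D.k H.u) := by
    rw [← map_inv₀]
    congr 1
    exact inv_eq_of_mul_eq_one_left huv
  have h3 := redsTo_one.sub (h1.mul (h2.inv hne))
  rw [hinv] at h3
  have e1 : D.e k s' (D.vp H k s) = 1 - D.e k s' (D.a k (iX k s) (D.x0 H))
      * (D.e k s' (D.a k (iY k s) (D.x0 H)))⁻¹ := by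
    rw [vp, map_sub, map_one, map_mul, map_inv₀]
  rw [e1]
  have e2 : castLS D.k (1 - qExpand ℤ (D.q ^ nK k s' (iX k s)) H.v
        * qExpand ℤ (D.q ^ nK k s' (iY k s)) H.u)
      = 1 - qExpand D.k (D.q ^ nK k s' (iX k s)) (castLS D.k H.v)
        * qExpand D.k (D.q ^ nK k s' (iY k s)) (castLS D.k H.u) := by
    simp only [castLS, map_sub, map_one, map_mul, coeffMap_qExpand]
  rw [e2]
  exact h3

/-- the field `ϖ_indep`. -/
theorem vp_indep (k s s' : ℕ) (h0 : 0 < s) (hs : s < k) (hs' : s' ≤ k) (hne : s' ≠ s) :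
    (D.OO k s' hs').valuation (D.vp H k s) = 1 := by
  refine D.val_eq_one hs' (D.redsTo_vp_other H k s s' hs.le hs') ?_
  apply H.ne
  intro h
  exact nK_iX_ne_iY h0 hs hs' hne (Nat.pow_right_injective D.hq.two_le h)

theorem vp_mem_O (k s : ℕ) (h0 : 0 < s) (hs : s < k) (i : Fin (k + 1)) :
    D.vp H k s ∈ D.O k i := by
  rw [← ValuationSubring.valuation_le_one_iff]
  by_cases h : (i : ℕ) = s
  · have hi : i = ⟨s, by omega⟩ := Fin.ext h
    rw [hi]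
    exact (D.vp_lt H k s h0 hs).le
  · exact (D.vp_indep H k s i h0 hs (Nat.lt_succ_iff.1 i.2) h).le

/-! ### integrality -/

theorem embF0_j_zero_g1 (k : ℕ) : embF0 D.A (lv D.M D.q k) (D.j k 0) = jF (lv D.M D.q k) := by
  apply Subtype.ext
  rw [coe_embF0, coe_jL _ _ _ _ _ (Nat.zero_le k), cK, ModularCurve.coeffMap_jqNModC, jF, coe_jBar]
  rw [jqNModC, jqNModC]
  exact qExpand_congr (pow_zero _) _

theorem embF0_vp (k s : ℕ) (hs : s ≤ k) : embF0 D.A (lv D.M D.q k) (D.vp H k s)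
    = 1 - aL Kb D.M D.q k (iX k s) H.x * (aL Kb D.M D.q k (iY k s) H.x)⁻¹ := by
  rw [vp, map_sub, map_one, map_mul, map_inv₀, embF0_aL _ _ _ _ _ (iX_le k s hs),
    embF0_aL _ _ _ _ _ (iY_le k s), embF0_x0]

theorem isIntegral_vp_j (k s : ℕ) (hs : s ≤ k) :
    IsIntegral (Algebra.adjoin D.K {D.j k 0}) (D.vp H k s) := by
  apply isIntegral_of_embF0
  rw [embF0_vp D H k s hs, embF0_j_zero_g1]
  exact isIntegral_one_sub_mul_abs _ (H.int k _ (iX_le k s hs)) (H.int' k _ (iY_le k s))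

theorem isIntegral_vp_t (k s : ℕ) (hs : s ≤ k) :
    IsIntegral (Algebra.adjoin D.K {D.t k}) (D.vp H k s) :=
  isIntegral_adjoin_trans
    (isIntegral_adjoin_pow_sub (D.j k 0) (Nat.one_lt_pow (by norm_num) D.hq.one_lt))
    (D.isIntegral_vp_j H k s hs)

/-- `ϖ s ∈ B₁`. -/
theorem vp_mem (k s : ℕ) (h0 : 0 < s) (hs : s < k) {e f : Fin (k + 1) → ℕ}
    (S : GaussSys D.K ((D.q : ℕ) : D.R) (D.t k) (D.O k) e f) :
    D.vp H k s ∈ intCl D.R (D.t k) :=
  S.mem_intCl_of_isIntegral D.irr (D.vp_mem_O H k s h0 hs) (D.isIntegral_vp_t H k s hs.le)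

/-! ### the field `gen₁` -/

theorem algebraMap_q_g1 (k : ℕ) : algebraMap D.R (D.Fk k) ((D.q : ℕ) : D.R) = (D.q : D.Fk k) :=
  map_natCast _ _

/-- the field `gen₁` of `GeomDatumK` at the component `s`, from a congruence `ϖ s ^ (e s) / q * y ≡ c` along this component. -/
theorem gen₁_of_val (k s : ℕ) (h0 : 0 < s) (hs : s < k) {f : Fin (k + 1) → ℕ}
    (S : GaussSys D.K ((D.q : ℕ) : D.R) (D.t k) (D.O k) (fun s => eK D.q k s) f)
    (i₀ : Fin (k + 1)) {y : D.Fk k} {c : D.R} (hy : y ∈ intCl D.R (D.t k)) (hc : IsUnit c)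
    (hv : (D.OO k s hs.le).valuation
      (D.vp H k s ^ eK D.q k s / (D.q : D.Fk k) * y - algebraMap D.R (D.Fk k) c) < 1)
    (𝔪 : Ideal (intCl D.R (D.t k))) (h𝔪 : 𝔪.IsMaximal)
    (meet : ∀ i j, i ≠ j → S.p i ≤ 𝔪 → S.p j ≤ 𝔪 → ∀ l, S.p l ≤ 𝔪)
    (hi : S.p ⟨s, by omega⟩ ≤ 𝔪) (hi₀ : ¬ S.p i₀ ≤ 𝔪) :
    ∃ w : D.Fk k, (D.O k ⟨s, by omega⟩).valuation w < 1 ∧ MemAt (intCl D.R (D.t k)) 𝔪 w ∧
      UnitAt (intCl D.R (D.t k)) 𝔪 (w ^ eK D.q k s / (D.q : D.Fk k)) := by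
  have := gen₁_of_redK D.irr S i₀ ⟨s, by omega⟩ (w := D.vp H k s) (y := y) (c := c)
    (D.vp_mem H k s h0 hs S) (D.vp_lt H k s h0 hs)
    (by rw [algebraMap_q_g1]; exact (D.vp_pow_eq H k s h0 hs).ge) hy hc
    (by rw [algebraMap_q_g1]; exact hv) 𝔪 h𝔪 meet hi hi₀
  rw [algebraMap_q_g1] at this
  exact this

/-- the congruence from reductions. -/
theorem val_of_redTo (k s : ℕ) (h0 : 0 < s) (hs : s < k) {y : D.Fk k} {c : D.R}
    {Y : LaurentSeries D.k} (hy : RedTo D.π (D.e k s y) Y)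
    (hc : RedTo D.π (D.e k s (algebraMap D.R (D.Fk k) c)) (-(D.dS H k s) ^ eK D.q k s * Y)) :
    (D.OO k s hs.le).valuation
      (D.vp H k s ^ eK D.q k s / (D.q : D.Fk k) * y - algebraMap D.R (D.Fk k) c) < 1 := by
  apply D.val_lt_one hs.le
  rw [map_sub, map_mul]
  exact (((D.redTo_vp_pow H k s h0 hs).mul hy).sub hc).congr rfl (sub_self _)

end CtxK

/-! ### the two units -/

section Units

variable (M q : ℕ) [NeZero M] [NeZero q]

theorem four_mul_pow_dvd_lv (h4 : 4 ∣ M) (k i : ℕ) (hi : i ≤ k) : 4 * q ^ i ∣ lv M q k := by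
  rw [lv_eq]; exact Nat.mul_dvd_mul h4 (pow_dvd_pow q hi)

theorem three_mul_pow_dvd_lv (h3 : 3 ∣ M) (k i : ℕ) (hi : i ≤ k) : 3 * q ^ i ∣ lv M q k := by
  rw [lv_eq]; exact Nat.mul_dvd_mul h3 (pow_dvd_pow q hi)

theorem aL_hF (h4 : 4 ∣ M) (k i : ℕ) (hi : i ≤ k) :
    aL Kb M q k i (hF M h4) = hFD (q ^ i) (lv M q k) (four_mul_pow_dvd_lv M q h4 k i hi) := by
  apply Subtype.ext
  rw [coe_aL Kb M q k i hi, coe_hF, coe_hFD]

theorem aL_h3F (h3 : 3 ∣ M) (k i : ℕ) (hi : i ≤ k) :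
    aL Kb M q k i (h3F M h3) = h3FD (q ^ i) (lv M q k) (three_mul_pow_dvd_lv M q h3 k i hi) := by
  apply Subtype.ext
  rw [coe_aL Kb M q k i hi, coe_h3F, coe_h3FD]

/-- `h = (η(4τ)/η(τ))^8`. -/
def hUnit4 (h4 : 4 ∣ M) : HUnit M q where
  u := tSer
  v := hSer
  huv := tSer_mul_hSer
  x := hF M h4
  coe_x := coe_hF M h4
  int k i hi := by rw [aL_hF M q h4 k i hi]; exact isIntegral_hFD _ _ _
  int' k i hi := by rw [aL_hF M q h4 k i hi]; exact isIntegral_hFD_inv _ _ _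
  ne _ _ a b _ _ hab := castLS_one_sub_h_ne_zeroK a b hab
  dne _ _ := by rw [DL_tSer_mulK]; exact castLS_neg_gS_sq_ne_zeroK

theorem castLS_neg_e3S_ne_zero {κ : Type*} [Field κ] : castLS κ (-e3S) ≠ 0 := by
  refine castLS_ne_zero_of_coeff (n := 0) ?_
  have h := HahnSeries.ofPowerSeries_apply_coeff (Γ := ℤ) E3ser 0
  rw [Nat.cast_zero, PowerSeries.coeff_zero_eq_constantCoeff_apply, constantCoeff_E3ser] at h
  rw [HahnSeries.coeff_neg, e3S, h]
  exact isUnit_one.neg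

/-- `h₃ = (η(3τ)/η(τ))^12`. -/
def hUnit3 (h3 : 3 ∣ M) : HUnit M q where
  u := t3Ser
  v := h3Ser
  huv := t3Ser_mul_h3Ser
  x := h3F M h3
  coe_x := coe_h3F M h3
  int k i hi := by rw [aL_h3F M q h3 k i hi]; exact isIntegral_h3FD _ _ _
  int' k i hi := by rw [aL_h3F M q h3 k i hi]; exact isIntegral_h3FD_inv _ _ _
  ne _ _ a b _ _ hab := castLS_one_sub_h3_ne_zeroK a b hab
  dne _ _ := by rw [DL_t3Ser_mulK]; exact castLS_neg_e3S_ne_zero

end Units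

namespace CtxK

variable (D : CtxK)

/-- `q = 2` : the reduction of `ϖ s ^ (e s) / q` is the constant `1`. -/
theorem val_two (h2 : D.q = 2) (h3 : 3 ∣ D.M) (k s : ℕ) (h0 : 0 < s) (hs : s < k) :
    (D.OO k s hs.le).valuation
      (D.vp (hUnit3 D.M D.q h3) k s ^ eK D.q k s / (D.q : D.Fk k) * 1
        - algebraMap D.R (D.Fk k) 1) < 1 := by
  have hk2 : (2 : D.k) = 0 := by
    have := CharP.cast_eq_zero D.k D.q
    rw [h2] at this
    exact_mod_cast this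
  have hd : D.dS (hUnit3 D.M D.q h3) k s = 1 := by
    show castLS D.k (qExpand ℤ (D.q ^ xGen k s) (DL t3Ser * h3Ser)) = 1
    rw [DL_t3Ser_mulK]
    exact castLS_qExpand_neg_e3S_of_two hk2 _
  have hm1 : (-1 : LaurentSeries D.k) = 1 := by
    have : (-1 : LaurentSeries D.k) = 1 - HahnSeries.C (2 : D.k) := by
      rw [map_ofNat]; ring
    rw [this, hk2, map_zero, sub_zero]
  refine D.val_of_redTo _ k s h0 hs (Y := 1) (by rw [map_one]; exact redTo_one) ?_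
  rw [map_one, map_one, hd, one_pow, mul_one, hm1]
  exact redTo_one

/-- **the field `gen₁` for `q = 2`.** -/
theorem gen₁_two (h2 : D.q = 2) (h3 : 3 ∣ D.M) (k s : ℕ) (h0 : 0 < s) (hs : s < k)
    {f : Fin (k + 1) → ℕ}
    (S : GaussSys D.K ((D.q : ℕ) : D.R) (D.t k) (D.O k) (fun s => eK D.q k s) f)
    (i₀ : Fin (k + 1)) (𝔪 : Ideal (intCl D.R (D.t k))) (h𝔪 : 𝔪.IsMaximal)
    (meet : ∀ i j, i ≠ j → S.p i ≤ 𝔪 → S.p j ≤ 𝔪 → ∀ l, S.p l ≤ 𝔪)
    (hi : S.p ⟨s, by omega⟩ ≤ 𝔪) (hi₀ : ¬ S.p i₀ ≤ 𝔪) :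
    ∃ w : D.Fk k, (D.O k ⟨s, by omega⟩).valuation w < 1 ∧ MemAt (intCl D.R (D.t k)) 𝔪 w ∧
      UnitAt (intCl D.R (D.t k)) 𝔪 (w ^ eK D.q k s / (D.q : D.Fk k)) :=
  D.gen₁_of_val (hUnit3 D.M D.q h3) k s h0 hs S i₀ (Subring.one_mem _) isUnit_one
    (D.val_two h2 h3 k s h0 hs) 𝔪 h𝔪 meet hi hi₀

end CtxK

end Fermat.Agent.S45
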