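import Fermat.Agent.S45.Mod.Gen1K
import Fermat.Agent.S36.Theta.Inst
import Fermat.Agent.S36.Theta.Val

/-!
# S45 / modular part : `[MODK-GEN1]`, `q` odd : the congruence `ϖ s ^ (e s) / q * y ≡ - χ(q)` along the component `s`

`h = (η(4τ)/η(τ))^8`, `D h / h = G²`, `G = θ²` (`wt1Four`).  `y = y₁ y₂`, `y₁ = G(q^(a-1) τ)/G(q^a τ)`, `y₂ = q G(q^(a+1) τ)/G(q^a τ)`, `a = k - s`.
The two factors enter only through their reductions along the component `s` (helper31's `redsTo_th`).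
-/

set_option autoImplicit false
set_option linter.unusedSectionVars false
noncomputable section

open ModularCurve Polynomial

namespace Fermat.Agent.S45

open Fermat.Agent.S24 Fermat.Agent.S28 Fermat.Agent.S36 Fermat.Agent.RED.Gauss Fermat.Agent.GAL.AD

/-- the height of the table at its peak `i = k - s`. -/
theorem nK_peak {k s : ℕ} (h0 : 0 < s) (hs : s < k) :
    nK k s (k - s) = xGen k s + min s (k - s) ∧ nK k s (k - s - 1) + 1 = xGen k s + min s (k - s) ∧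
      nK k s (k - s + 1) + 1 = xGen k s + min s (k - s) := by
  unfold nK xGen
  refine ⟨?_, ?_, ?_⟩ <;> split_ifs <;> omega

/-- the algebra in characteristic `q`. -/
theorem gen1_odd_alg {κ : Type*} [Field κ] {g g' χ : κ} (hg : g * g' = 1) {q x m : ℕ}
    (hq : q.Prime) (hodd : q ≠ 2) (hm : m ≠ 0) {n₁ n₂ P : ℕ} (hP : P = x + m) (h₁ : n₁ + 1 = P)
    (h₂ : n₂ + 1 = P) :
    -((-g ^ 2) ^ (q ^ x)) ^ (q ^ (m - 1) * (q - 1)) *
      ((g ^ (q ^ n₁) * g' ^ (q ^ P)) * (χ * (g ^ (q ^ n₂) * g' ^ (q ^ P)))) = -χ := by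
  obtain ⟨m, rfl⟩ := Nat.exists_eq_succ_of_ne_zero hm
  obtain rfl : n₁ = x + m := by omega
  obtain rfl : n₂ = x + m := by omega
  subst hP
  have he : Even (q ^ x * (q ^ (m + 1 - 1) * (q - 1))) := by
    rcases hq.eq_two_or_odd' with h | h
    · exact absurd h hodd
    · obtain ⟨r, hr⟩ := h
      exact Even.mul_left (Even.mul_left ⟨r, by omega⟩ _) _
  rw [← pow_mul, he.neg_pow, ← pow_mul, Nat.add_sub_cancel]
  have h3 : 2 * (q ^ x * (q ^ m * (q - 1))) + q ^ (x + m) + q ^ (x + m) = 2 * q ^ (x + (m + 1)) := by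
    obtain ⟨r, rfl⟩ : ∃ r, q = r + 1 := ⟨q - 1, by have := hq.pos; omega⟩
    rw [Nat.add_sub_cancel, ← add_assoc x m 1, pow_succ (r + 1) (x + m), pow_add]
    ring
  calc -g ^ (2 * (q ^ x * (q ^ m * (q - 1)))) *
        ((g ^ (q ^ (x + m)) * g' ^ (q ^ (x + (m + 1)))) *
          (χ * (g ^ (q ^ (x + m)) * g' ^ (q ^ (x + (m + 1))))))
      = -(χ * (g ^ (2 * (q ^ x * (q ^ m * (q - 1))) + q ^ (x + m) + q ^ (x + m)) *
          g' ^ (2 * q ^ (x + (m + 1))))) := by ring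
    _ = -χ := by rw [h3, ← mul_pow, hg, one_pow, mul_one]

namespace CtxK

variable (D : CtxK)

instance instExpCharK : ExpChar D.k D.q := ExpChar.prime D.hq

theorem dS_four (h4 : 4 ∣ D.M) (k s : ℕ) :
    D.dS (hUnit4 D.M D.q h4) k s = (-(wt1Four.GL D.k) ^ 2) ^ (D.q ^ xGen k s) := by
  show castLS D.k (qExpand ℤ (D.q ^ xGen k s) (DL tSer * hSer)) = _
  rw [DL_tSer_mulK, castLS_qExpand_pow_eqK]
  congr 1
  rw [← castLS_gS]
  simp only [castLS, map_neg, map_pow]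

/-- `- χ(q)` as an element of `R`. -/
def cOdd : D.R := ((-(wt1Four.χ (D.q : ℤ)) : ℤ) : D.R)

theorem isUnit_cOdd : IsUnit D.cOdd := by
  refine IsUnit.of_mul_eq_one D.cOdd ?_
  rw [cOdd, ← Int.cast_mul, neg_mul_neg, wt1Four.chi_sq, Int.cast_one]

theorem redTo_cOdd (k s : ℕ) :
    RedTo D.π (D.e k s (algebraMap D.R (D.Fk k) D.cOdd)) (-(wt1Four.chiS D.k D.q)) := by
  have h1 : D.e k s (algebraMap D.R (D.Fk k) D.cOdd)
      = castLS Kb ((-(wt1Four.χ (D.q : ℤ)) : ℤ) : LaurentSeries ℤ) := by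
    rw [cOdd, map_intCast, map_intCast]
    simp only [castLS, map_intCast]
  have h2 : -(wt1Four.chiS D.k D.q)
      = castLS D.k ((-(wt1Four.χ (D.q : ℤ)) : ℤ) : LaurentSeries ℤ) := by
    rw [Wt1.chiS, castLS, map_intCast, Int.cast_neg]
  rw [h1, h2]
  exact redTo_castLS _

/-- **the congruence for `q` odd.** -/
theorem val_odd (hodd : D.q ≠ 2) (h4 : 4 ∣ D.M) (k s : ℕ) (h0 : 0 < s) (hs : s < k)
    {y₁ y₂ : D.Fk k}
    (hy₁ : RedsTo D.π (D.e k s y₁) (wt1Four.GL D.k ^ (D.q ^ nK k s (k - s - 1))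
      * wt1Four.GLinv D.k ^ (D.q ^ nK k s (k - s))))
    (hy₂ : RedsTo D.π (D.e k s y₂) (wt1Four.chiS D.k D.q *
      (wt1Four.GL D.k ^ (D.q ^ nK k s (k - s + 1)) * wt1Four.GLinv D.k ^ (D.q ^ nK k s (k - s))))) :
    (D.OO k s hs.le).valuation
      (D.vp (hUnit4 D.M D.q h4) k s ^ eK D.q k s / (D.q : D.Fk k) * (y₁ * y₂)
        - algebraMap D.R (D.Fk k) D.cOdd) < 1 := by
  obtain ⟨p0, p1, p2⟩ := nK_peak h0 hs
  refine D.val_of_redTo _ k s h0 hs (by rw [map_mul]; exact RedTo.mul hy₁ hy₂) ?_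
  rw [dS_four, eK_of_mid D.hq h0 hs,
    gen1_odd_alg (wt1Four.GL_mul_GLinv D.k) D.hq hodd (by omega) p0 (by omega) (by omega)]
  exact D.redTo_cOdd k s

/-- **the field `gen₁` for `q` odd**, from the two theta ratios. -/
theorem gen₁_odd (hodd : D.q ≠ 2) (h4 : 4 ∣ D.M) (k s : ℕ) (h0 : 0 < s) (hs : s < k)
    {f : Fin (k + 1) → ℕ}
    (S : GaussSys D.K ((D.q : ℕ) : D.R) (D.t k) (D.O k) (fun s => eK D.q k s) f)
    {y₁ y₂ : D.Fk k} (hm₁ : y₁ ∈ intCl D.R (D.t k)) (hm₂ : y₂ ∈ intCl D.R (D.t k))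
    (hy₁ : RedsTo D.π (D.e k s y₁) (wt1Four.GL D.k ^ (D.q ^ nK k s (k - s - 1))
      * wt1Four.GLinv D.k ^ (D.q ^ nK k s (k - s))))
    (hy₂ : RedsTo D.π (D.e k s y₂) (wt1Four.chiS D.k D.q *
      (wt1Four.GL D.k ^ (D.q ^ nK k s (k - s + 1)) * wt1Four.GLinv D.k ^ (D.q ^ nK k s (k - s)))))
    (i₀ : Fin (k + 1)) (𝔪 : Ideal (intCl D.R (D.t k))) (h𝔪 : 𝔪.IsMaximal)
    (meet : ∀ i j, i ≠ j → S.p i ≤ 𝔪 → S.p j ≤ 𝔪 → ∀ l, S.p l ≤ 𝔪)
    (hi : S.p ⟨s, by omega⟩ ≤ 𝔪) (hi₀ : ¬ S.p i₀ ≤ 𝔪) :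
    ∃ w : D.Fk k, (D.O k ⟨s, by omega⟩).valuation w < 1 ∧ MemAt (intCl D.R (D.t k)) 𝔪 w ∧
      UnitAt (intCl D.R (D.t k)) 𝔪 (w ^ eK D.q k s / (D.q : D.Fk k)) :=
  D.gen₁_of_val (hUnit4 D.M D.q h4) k s h0 hs S i₀ (Subring.mul_mem _ hm₁ hm₂) D.isUnit_cOdd
    (D.val_odd hodd h4 k s h0 hs hy₁ hy₂) 𝔪 h𝔪 meet hi hi₀

end CtxK

end Fermat.Agent.S45
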