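import Fermat.Agent.S45.Mod.JTupK
import Fermat.Agent.S45.Mod.CuspTopK
import Fermat.Agent.S45.Mod.RamK

/-!
# S45 / modular part : the field `gen₂` of `GeomDatumK` at level `M q^K`

`D.gen₂K` (`S45/Mod/JTupK.lean`) fed with `D.cusp_hz`, `D.cusp_hres` (`S45/Mod/CuspTopK.lean`); literal shape of
`GeoOpen.gen₂` (`S45/Mod/Inst1.lean`).
-/

set_option autoImplicit false
set_option linter.unusedSectionVars false
noncomputable section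

open ModularCurve Polynomial

namespace Fermat.Agent.S45

open Fermat.Agent.S36 Fermat.Agent.S24 Fermat.Agent.RED.Gauss Fermat.Agent.GAL.AD Fermat.Agent.S28

namespace CtxK

variable (D : CtxK)

/-- **the field `gen₂`**, for an arbitrary Gauss system. -/
theorem gen₂_of_sys {K : ℕ} (hK : 2 ≤ K) {e f : Fin (K + 1) → ℕ}
    (S : GaussSys D.K ((D.q : ℕ) : D.R) (D.t K) (D.O K) e f)
    (i : Fin (K + 1)) (hi : eK D.q K i ≠ 1) (𝔪 : Ideal (intCl D.R (D.t K)⁻¹)) (h𝔪 : 𝔪.IsMaximal)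
    (ht : tinvB D.R (D.t K) ∈ 𝔪) (h1 : (S.inv D.irr).p i ≤ 𝔪) :
    ∃ w : D.Fk K, (D.O K i).valuation w < 1 ∧ MemAt (intCl D.R (D.t K)⁻¹) 𝔪 w ∧
      UnitAt (intCl D.R (D.t K)⁻¹) 𝔪 (w ^ eK D.q K i / (D.q : D.Fk K)) := by
  have hiK : (i : ℕ) ≤ K := Nat.lt_succ_iff.1 i.2
  have h0 : 0 < (i : ℕ) := by
    rcases Nat.eq_zero_or_pos (i : ℕ) with h | h
    · exact absurd (by rw [h, eK_zero]) hi
    · exact h
  have hlt : (i : ℕ) < K := by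
    rcases Nat.lt_or_ge (i : ℕ) K with h | h
    · exact h
    · exact absurd (by rw [le_antisymm hiK h, eK_self]) hi
  have hE : eK D.q K i ≠ 0 := by
    unfold eK
    exact (Nat.totient_pos.2 (pow_pos D.hq.pos _)).ne'
  exact D.gen₂K hK S i hE (D.cusp_hz K i h0 hlt) (D.cusp_hres K i h0 hlt) 𝔪 h𝔪 ht h1

/-- **the field `gen₂`** in the literal shape of `GeoOpen.gen₂`. -/
theorem gen₂_sysT {K : ℕ} (hK2 : 2 ≤ K) (hK : 1 ≤ K) :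
    ∀ i : Fin (K + 1), eK D.q K i ≠ 1 → ∀ 𝔪 : Ideal (intCl D.R (D.t K)⁻¹), 𝔪.IsMaximal →
    tinvB D.R (D.t K) ∈ 𝔪 → ((D.sysT hK).inv D.irr).p i ≤ 𝔪 →
    ∃ w : D.Fk K, (D.O K i).valuation w < 1 ∧ MemAt (intCl D.R (D.t K)⁻¹) 𝔪 w ∧
      UnitAt (intCl D.R (D.t K)⁻¹) 𝔪 (w ^ eK D.q K i / (D.q : D.Fk K)) :=
  fun i hi 𝔪 h𝔪 ht h1 => D.gen₂_of_sys hK2 (D.sysT hK) i hi 𝔪 h𝔪 ht h1

end CtxK

end Fermat.Agent.S45
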