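import Fermat.Agent.S45.Mod.GlueAbs
import Fermat.Agent.GAL.HeckeComm
import Fermat.Agent.GAL.HeckeInputs
import Fermat.Agent.S24.Cusp.SigmaInf
import Fermat.Agent.RED.ES.Swap

/-!
# S45 / MOD_k : `[MODK-GLUE]`  `FN (N q²) = FN (N q) ⊗_{FN N} FN (N q)` for `q ∣ N`
-/

set_option autoImplicit false
set_option linter.unusedSectionVars false

noncomputable section

open ModularCurve AlgebraicCurve

namespace Fermat.Agent.S45

open Fermat.Agent.S24

theorem alpha_beta_comm (N q : ℕ) [NeZero N] [NeZero q] (u : FN N) :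
    heckeAlphaBar Kb (N * q) q (heckeBetaBar Kb N q u)
      = heckeBetaBar Kb (N * q) q (heckeAlphaBar Kb N q u) := by
  apply Subtype.ext
  rw [coe_heckeAlphaBar, coe_heckeBetaBar, coe_heckeBetaBar, coe_heckeAlphaBar]

theorem dvd_or_of_dvd_mul_prime {n q D : ℕ} (hq : q.Prime) (hD : D ∣ n * q) :
    D ∣ n ∨ ∃ D', D' ∣ n ∧ D = q * D' := by
  by_cases h : q ∣ D
  · obtain ⟨D', rfl⟩ := h
    right
    refine ⟨D', ?_, rfl⟩
    rw [mul_comm n q] at hD
    exact Nat.dvd_of_mul_dvd_mul_left hq.pos hD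
  · left
    exact (Nat.Coprime.symm ((Nat.Prime.coprime_iff_not_dvd hq).2 h)).dvd_of_dvd_mul_right hD

/-- **[MODK-GLUE]** -/
theorem exists_glue (N q : ℕ) [NeZero N] [NeZero q] (hq : q.Prime) (hqN : q ∣ N)
    {L : Type*} [Field L] (φ ψ : FN (N * q) →+* L)
    (h : ∀ u : FN N, φ (heckeBetaBar Kb N q u) = ψ (heckeAlphaBar Kb N q u)) :
    ∃ χ : FN (N * q * q) →+* L,
      (∀ y, χ (heckeAlphaBar Kb (N * q) q y) = φ y) ∧
      (∀ y, χ (heckeBetaBar Kb (N * q) q y) = ψ y) := by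
  let iA : Algebra (FN N) (FN (N * q)) := algebraAlong (heckeBetaBar Kb N q)
  let iB : Algebra (FN N) (FN (N * q)) := algebraAlong (heckeAlphaBar Kb N q)
  let iAE : Algebra (FN (N * q)) (FN (N * q * q)) := algebraAlong (heckeAlphaBar Kb (N * q) q)
  let iE : Algebra (FN N) (FN (N * q * q)) :=
    algebraAlong ((heckeAlphaBar Kb (N * q) q).comp (heckeBetaBar Kb N q))
  let iAL : Algebra (FN (N * q)) L := φ.toAlgebra
  let iL : Algebra (FN N) L := (φ.comp (heckeBetaBar Kb N q : FN N →+* FN (N * q))).toAlgebra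
  have t1 : @IsScalarTower (FN N) (FN (N * q)) (FN (N * q * q)) iA.toSMul iAE.toSMul iE.toSMul :=
    @IsScalarTower.of_algebraMap_eq (FN N) (FN (N * q)) (FN (N * q * q)) _ _ _ iA iAE iE
      (fun _ => rfl)
  have t2 : @IsScalarTower (FN N) (FN (N * q)) L iA.toSMul iAL.toSMul iL.toSMul :=
    @IsScalarTower.of_algebraMap_eq (FN N) (FN (N * q)) L _ _ _ iA iAL iL (fun _ => rfl)
  let b : @AlgHom (FN N) (FN (N * q)) (FN (N * q * q)) _ _ _ iB iE :=
    @AlgHom.mk (FN N) (FN (N * q)) (FN (N * q * q)) _ _ _ iB iE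
      (heckeBetaBar Kb (N * q) q : FN (N * q) →+* FN (N * q * q))
      (fun u => (alpha_beta_comm N q u).symm)
  let ψ' : @AlgHom (FN N) (FN (N * q)) L _ _ _ iB iL :=
    @AlgHom.mk (FN N) (FN (N * q)) L _ _ _ iB iL ψ (fun u => (h u).symm)
  have f1 : @FiniteDimensional (FN N) (FN (N * q)) _ _ iB.toModule :=
    GAL.HeckeInputs.finiteAlong_alpha N q
  have f2 : @FiniteDimensional (FN (N * q)) (FN (N * q * q)) _ _ iAE.toModule :=
    GAL.HeckeInputs.finiteAlong_alpha (N * q) q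
  have hdeg : @Module.finrank (FN (N * q)) (FN (N * q * q)) _ _ iAE.toModule
      = @Module.finrank (FN N) (FN (N * q)) _ _ iB.toModule := by
    have h1 : @Module.finrank (FN (N * q)) (FN (N * q * q)) _ _ iAE.toModule = q :=
      GAL.HeckeComm.finrankAlong_alpha_of_dvd (N * q) q hq (dvd_mul_left q N)
    have h2 : @Module.finrank (FN N) (FN (N * q)) _ _ iB.toModule = q :=
      GAL.HeckeComm.finrankAlong_alpha_of_dvd N q hq hqN
    rw [h1, h2]
  have hgen : ∀ S : @IntermediateField (FN (N * q)) (FN (N * q * q)) _ _ iAE,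
      (∀ y : FN (N * q), b y ∈ S) → S = ⊤ := by
    intro S hS
    rw [eq_top_iff]
    intro x _
    have hα : ∀ y : FN (N * q), heckeAlphaBar Kb (N * q) q y ∈ S := fun y =>
      @IntermediateField.algebraMap_mem (FN (N * q)) (FN (N * q * q)) _ _ iAE S y
    refine map_mem_of_gen (RingHom.id (FN (N * q * q))) S.toSubfield ?_ ?_ x
    · intro a
      have := hα (algebraMap Kb (FN (N * q)) a)
      rw [AlgHom.commutes] at this
      exact this
    · intro D _ hD
      rcases dvd_or_of_dvd_mul_prime hq hD with hD' | ⟨D', hD', rfl⟩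
      · have := hα (jBar (N * q) D hD')
        rw [RED.ES.heckeAlphaBar_jBar] at this
        exact this
      · have : NeZero D' := ⟨fun h0 => NeZero.ne (q * D') (by rw [h0, mul_zero])⟩
        have := hS (jBar (N * q) D' hD')
        have e : b (jBar (N * q) D' hD') = heckeBetaBar Kb (N * q) q (jBar (N * q) D' hD') := rfl
        rw [e, RED.ES.heckeBetaBar_jBar] at this
        exact this
  obtain ⟨χ, hχ⟩ := @exists_glue_abs (FN N) (FN (N * q)) (FN (N * q)) (FN (N * q * q)) L _ _ _ _ _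
    inferInstance iA iB iAE iE t1 b f1 f2 hdeg hgen iAL iL t2 ψ'
  refine ⟨(χ : FN (N * q * q) →+* L), fun y => ?_, fun y => hχ y⟩
  exact @AlgHom.commutes (FN (N * q)) (FN (N * q * q)) L _ _ _ iAE iAL χ y

end Fermat.Agent.S45
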