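import Mathlib

/-!
# S45 / MOD_k : abstract gluing of field embeddings  (`E = A ⊗_{F₀} B`)
-/

set_option autoImplicit false

open Polynomial IntermediateField

namespace Fermat.Agent.S45

/-- **abstract gluing.**  `E ⊇ A ⊇ F₀`, `b : B → E` over `F₀`, `[E : A] = [B : F₀]`, `E` generated over `A` by `b B`:
every `F₀`-embedding `ψ` of `B` extends (through `b`) to an `A`-embedding of `E`. -/
theorem exists_glue_abs {F₀ A B E L : Type*} [Field F₀] [Field A] [Field B] [Field E] [Field L]
    [CharZero F₀]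
    [Algebra F₀ A] [Algebra F₀ B] [Algebra A E] [Algebra F₀ E] [IsScalarTower F₀ A E]
    (b : B →ₐ[F₀] E) [FiniteDimensional F₀ B] [FiniteDimensional A E]
    (hdeg : Module.finrank A E = Module.finrank F₀ B)
    (hgen : ∀ S : IntermediateField A E, (∀ y : B, b y ∈ S) → S = ⊤)
    [Algebra A L] [Algebra F₀ L] [IsScalarTower F₀ A L] (ψ : B →ₐ[F₀] L) :
    ∃ χ : E →ₐ[A] L, ∀ y, χ (b y) = ψ y := by
  obtain ⟨y, hy⟩ := Field.exists_primitive_element F₀ B
  have hrep : ∀ y' : B, ∃ r s : F₀[X], y' = aeval y r / aeval y s := fun y' =>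
    (mem_adjoin_simple_iff F₀ y').1 (by rw [hy]; trivial)
  set θ : E := b y with hθ
  have hyint : IsIntegral F₀ y := Algebra.IsIntegral.isIntegral y
  have hθint : IsIntegral A θ := Algebra.IsIntegral.isIntegral θ
  have haev : ∀ r : F₀[X], aeval θ r ∈ A⟮θ⟯ := by
    intro r
    rw [← aeval_map_algebraMap A]
    exact (algebra_adjoin_le_adjoin A {θ}) (aeval_mem_adjoin_singleton A θ)
  have htop : A⟮θ⟯ = ⊤ := by
    apply hgen
    intro y'
    obtain ⟨r, s, rfl⟩ := hrep y'
    rw [map_div₀, ← aeval_algHom_apply, ← aeval_algHom_apply]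
    exact div_mem (haev r) (haev s)
  have hd1 : (minpoly F₀ y).natDegree = Module.finrank F₀ B := by
    rw [← adjoin.finrank hyint, hy, finrank_top']
  have hd2 : (minpoly A θ).natDegree = Module.finrank A E := by
    rw [← adjoin.finrank hθint, htop, finrank_top']
  have hmin : (minpoly F₀ y).map (algebraMap F₀ A) = minpoly A θ := by
    refine eq_of_monic_of_dvd_of_natDegree_le (minpoly.monic hθint)
      ((minpoly.monic hyint).map _) (minpoly.dvd A θ ?_) ?_
    · rw [aeval_map_algebraMap, hθ, aeval_algHom_apply, minpoly.aeval, map_zero]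
    · rw [natDegree_map, hd1, hd2, hdeg]
  let pb := adjoin.powerBasis hθint
  have hroot : aeval (ψ y) (minpoly A pb.gen) = 0 := by
    rw [adjoin.powerBasis_gen, minpoly_gen, ← hmin, aeval_map_algebraMap, aeval_algHom_apply,
      minpoly.aeval, map_zero]
  let e : E ≃ₐ[A] A⟮θ⟯ := ((equivOfEq htop).trans topEquiv).symm
  let χ : E →ₐ[A] L := (pb.lift (ψ y) hroot).comp (e : E →ₐ[A] A⟮θ⟯)
  have heθ : e θ = pb.gen := by
    rw [adjoin.powerBasis_gen]
    apply Subtype.ext
    rfl
  have hχθ : χ θ = ψ y := by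
    show pb.lift (ψ y) hroot (e θ) = ψ y
    rw [heθ, PowerBasis.lift_gen]
  have hχa : ∀ r : F₀[X], χ (aeval θ r) = aeval (ψ y) r := by
    intro r
    rw [← aeval_map_algebraMap A, ← aeval_algHom_apply, hχθ, aeval_map_algebraMap]
  refine ⟨χ, fun y' => ?_⟩
  obtain ⟨r, s, rfl⟩ := hrep y'
  have h1 : ∀ r : F₀[X], b (aeval y r) = aeval θ r := fun r => (aeval_algHom_apply b y r).symm
  have h2 : ∀ r : F₀[X], ψ (aeval y r) = aeval (ψ y) r := fun r => (aeval_algHom_apply ψ y r).symm
  rw [map_div₀, map_div₀, map_div₀, h1, h1, hχa, hχa, h2, h2]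

end Fermat.Agent.S45
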