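import Fermat.Agent.S45.Abs.SepCuspK
import Fermat.Agent.S45.Mod.Ctx
import Fermat.Agent.S45.Mod.JInt

/-!
# S45 / modular part : `[MODK-JTUP]` the structure `JTupleK` at level `M q^k`, the fields `sep` and `gen₂` of the datum

`D : CtxK`, `k ≥ 2`: `JTupleK D.R D.q k (D.O k) (fun s => k - s) (D.j k)`; reductions from the table (`D.tab k`), integrality from
`S45/Mod/JInt.lean`.
-/

set_option autoImplicit false
set_option linter.unusedSectionVars false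
noncomputable section

open ModularCurve Polynomial

namespace Fermat.Agent.S45

open Fermat.Agent.S36 Fermat.Agent.S24 Fermat.Agent.RED.Gauss Fermat.Agent.GAL.AD Fermat.Agent.S28

/-! ### arithmetic of the table -/

theorem nK_stepF_jt {k s i : ℕ} (hs : s ≤ k) (hi : i < k - s) : nK k s (i + 1) = nK k s i + 1 := by
  unfold nK
  split_ifs <;> omega

theorem nK_stepV_jt {k s i : ℕ} (hs : s ≤ k) (h1 : k - s ≤ i) (h2 : i < k) :
    nK k s i = nK k s (i + 1) + 1 := by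
  unfold nK
  split_ifs <;> omega

/-- the two ends of the symmetric pair around the vertex `k - s` have the same exponent -/
theorem nK_pair_jt {k s n : ℕ} (hs : s ≤ k) (h1 : n ≤ k - s) (h2 : n ≤ s) :
    nK k s (k - s - n) = nK k s (k - s + n) := by
  unfold nK
  split_ifs <;> omega

namespace CtxK

variable (D : CtxK)

theorem jI_eq_j (k : ℕ) (i : Fin (k + 1)) :
    jI (fun i : Fin (k + 1) => (D.a k i : D.FM →+* D.Fk k)) i = D.j k i := rfl

/-- `j_i^(q^x) ≡ j_i'^(q^y)` on the component `s` -/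
theorem val_j_sub_lt {k s : ℕ} (hs : s ≤ k) {i i' : ℕ} (hi : i ≤ k) (hi' : i' ≤ k) (x y : ℕ)
    (h : nK k s i + x = nK k s i' + y) :
    (D.OO k s hs).valuation (D.j k i ^ (D.q ^ x) - D.j k i' ^ (D.q ^ y)) < 1 :=
  (D.tab k).valuation_sub_lt D.hA (fun s => D.disc k s (Nat.lt_succ_iff.1 s.2))
    ⟨s, Nat.lt_succ_iff.2 hs⟩ ⟨i, Nat.lt_succ_iff.2 hi⟩ ⟨i', Nat.lt_succ_iff.2 hi'⟩ x y h

/-- **[MODK-JTUP]** -/
theorem jTupleK {k : ℕ} (hk : 2 ≤ k) :
    JTupleK D.R D.q k (D.O k) (fun s : Fin (k + 1) => k - (s : ℕ)) (D.j k) := by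
  refine ⟨fun s => Nat.sub_le _ _, fun i hi => jL_int_up D.A D.hq D.hA D.hqM hk hi,
    fun i hi => jL_int_dn D.A D.hq D.hA D.hqM hk hi, fun i hi => jL_inf_up D.A D.hq D.hA D.hqM hk hi,
    fun i hi => jL_inf_dn D.A D.hq D.hA D.hqM hk hi, ?_, ?_⟩
  · intro s i hi hc
    have hs : (s : ℕ) ≤ k := Nat.lt_succ_iff.1 s.2
    have h := D.val_j_sub_lt hs (i := i + 1) (i' := i) (by omega) (by omega) 0 1
      (by rw [nK_stepF_jt hs hc])
    rwa [pow_zero, pow_one, pow_one] at h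
  · intro s i hi hc
    have hs : (s : ℕ) ≤ k := Nat.lt_succ_iff.1 s.2
    have h := D.val_j_sub_lt hs (i := i) (i' := i + 1) (by omega) (by omega) 0 1
      (by rw [nK_stepV_jt hs hc hi])
    rwa [pow_zero, pow_one, pow_one] at h

theorem val_q_lt_jt {k : ℕ} {e f : Fin (k + 1) → ℕ}
    (S : GaussSys D.K ((D.q : ℕ) : D.R) (D.t k) (D.O k) e f) (s : Fin (k + 1)) :
    (D.O k s).valuation ((D.q : ℕ) : D.Fk k) < 1 := by
  have := (S.gauss s).lt_one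
  rwa [map_natCast] at this

/-- **the field `sep` of `GeomDatumK`.** -/
theorem sepK {k : ℕ} (hk : 2 ≤ k) {e f : Fin (k + 1) → ℕ}
    (S : GaussSys D.K ((D.q : ℕ) : D.R) (D.t k) (D.O k) e f) (i j : Fin (k + 1)) (h : i ≠ j) :
    ∃ x ∈ intCl D.R (D.t k)⁻¹, (D.O k i).valuation x < 1 ∧ (D.O k j).valuation (x - 1) < 1 :=
  (D.jTupleK hk).sep D.hq D.irr S (D.val_q_lt_jt S) i j (by
    have hi : (i : ℕ) ≤ k := Nat.lt_succ_iff.1 i.2
    have hj : (j : ℕ) ≤ k := Nat.lt_succ_iff.1 j.2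
    have : (i : ℕ) ≠ j := fun h' => h (Fin.ext h')
    show k - (i : ℕ) ≠ k - (j : ℕ)
    omega)

/-- the local generator at the cusps of the component `s` -/
def wJ (k s : ℕ) : D.Fk k := 1 - D.j k (k - s - min s (k - s)) / D.j k (k - s + min s (k - s))

/-- **the field `gen₂` of `GeomDatumK`** from `hz`, `hres` (`[MODK-CUSPMOD]`). -/
theorem gen₂K {k : ℕ} (hk : 2 ≤ k) {e f : Fin (k + 1) → ℕ}
    (S : GaussSys D.K ((D.q : ℕ) : D.R) (D.t k) (D.O k) e f) (s : Fin (k + 1)) {E : ℕ} (hE : E ≠ 0)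
    (hz : (D.O k s).valuation (D.wJ k s ^ E / algebraMap D.R (D.Fk k) ((D.q : ℕ) : D.R)) = 1)
    (hres : ∃ (P c' : D.R[X]) (d : ℕ), P.natDegree ≤ d ∧ c'.natDegree ≤ d ∧ IsUnit (P.coeff d) ∧
      IsUnit (c'.coeff d) ∧ (D.O k s).valuation (aeval (D.j k (k - s - min (s : ℕ) (k - s))) P *
        (D.wJ k s ^ E / algebraMap D.R (D.Fk k) ((D.q : ℕ) : D.R))
          - aeval (D.j k (k - s - min (s : ℕ) (k - s))) c') < 1)
    (𝔪 : Ideal (intCl D.R (D.t k)⁻¹)) (h𝔪 : 𝔪.IsMaximal) (ht : tinvB D.R (D.t k) ∈ 𝔪)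
    (h1 : (S.inv D.irr).p s ≤ 𝔪) :
    ∃ w : D.Fk k, (D.O k s).valuation w < 1 ∧ MemAt (intCl D.R (D.t k)⁻¹) 𝔪 w ∧
      UnitAt (intCl D.R (D.t k)⁻¹) 𝔪 (w ^ E / ((D.q : ℕ) : D.Fk k)) := by
  have hs : (s : ℕ) ≤ k := Nat.lt_succ_iff.1 s.2
  have := (D.jTupleK hk).cusp D.hq D.irr S (D.val_q_lt_jt S) s (by
      intro l hl
      have hl' : (l : ℕ) ≤ k := Nat.lt_succ_iff.1 l.2
      have : (l : ℕ) ≠ s := fun h' => hl (Fin.ext h')
      show k - (l : ℕ) ≠ k - (s : ℕ)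
      omega) (min (s : ℕ) (k - s)) (by show _ ≤ k - (s : ℕ); omega)
      (by show k - (s : ℕ) + _ ≤ k; omega) hE hz hres 𝔪 h𝔪 ht h1
  refine ⟨D.wJ k s, this.1, this.2.1, ?_⟩
  have h3 := this.2.2
  rwa [map_natCast] at h3

end CtxK

end Fermat.Agent.S45
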