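import Fermat.Agent.S45.Mod.InstAbs
import Fermat.Agent.S45.Mod.RamK
import Fermat.Agent.S45.Mod.Ded
import Fermat.Agent.S45.Mod.JTupK

/-!
# S45 / modular part : assembly, stage 1

`sys`, `glob`, `ded₁`, `ded₂`, `sep` are plugged in.  Open: the uniformisers + `a` + `meet` + `gen₁` + `gen₂`  (`GeoOpen`).
-/

set_option autoImplicit false
set_option linter.unusedSectionVars false

noncomputable section

open AlgebraicCurve ModularCurve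

namespace Fermat.Agent.S45

open Fermat.Agent.RED hiding Kb
open Fermat.Agent.S24 Fermat.Agent.RED.TorsES
open Fermat.Agent.S36 Fermat.Agent.S36.Kum

/-- the geometric leaves which are still open (level `K ≥ 1`), stated with `D.sysT`. -/
structure GeoOpen (D : CtxK) (K : ℕ) (hK : 1 ≤ K) (ϖ : Fin (K + 1) → D.Fk K) : Prop where
  ϖ_lt : ∀ i, (D.O K i).valuation (ϖ i) < 1
  ϖ_ram : ∀ i, (D.O K i).valuation (D.q : D.Fk K) ≤ (D.O K i).valuation (ϖ i) ^ eK D.q K i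
  ϖ_indep : ∀ i j, i ≠ j → (D.O K j).valuation (ϖ i) = 1
  a_mem : ϖ 0 ∈ intCl D.R (D.t K)
  a_inv : ∃ n : ℕ, (D.q : D.Fk K) ^ n / ϖ 0 ∈ intCl D.R (D.t K)
  meet : ∀ 𝔪 : Ideal (intCl D.R (D.t K)), 𝔪.IsMaximal → ∀ i j, i ≠ j → (D.sysT hK).p i ≤ 𝔪 →
    (D.sysT hK).p j ≤ 𝔪 → ∀ l, (D.sysT hK).p l ≤ 𝔪
  gen₁ : ∀ i : Fin (K + 1), eK D.q K i ≠ 1 → ∀ 𝔪 : Ideal (intCl D.R (D.t K)), 𝔪.IsMaximal →
    (D.sysT hK).p i ≤ 𝔪 → ¬ (D.sysT hK).p 0 ≤ 𝔪 →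
    ∃ w : D.Fk K, (D.O K i).valuation w < 1 ∧ MemAt (intCl D.R (D.t K)) 𝔪 w ∧
      UnitAt (intCl D.R (D.t K)) 𝔪 (w ^ eK D.q K i / (D.q : D.Fk K))
  gen₂ : ∀ i : Fin (K + 1), eK D.q K i ≠ 1 → ∀ 𝔪 : Ideal (intCl D.R (D.t K)⁻¹), 𝔪.IsMaximal →
    tinvB D.R (D.t K) ∈ 𝔪 → ((D.sysT hK).inv D.irr).p i ≤ 𝔪 →
    ∃ w : D.Fk K, (D.O K i).valuation w < 1 ∧ MemAt (intCl D.R (D.t K)⁻¹) 𝔪 w ∧
      UnitAt (intCl D.R (D.t K)⁻¹) 𝔪 (w ^ eK D.q K i / (D.q : D.Fk K))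

theorem GeoOpen.leaves {D : CtxK} {K : ℕ} (hK2 : 2 ≤ K) (hK : 1 ≤ K) (h49 : aux D.q ∣ D.M)
    {ϖ : Fin (K + 1) → D.Fk K} (H : GeoOpen D K hK ϖ) : GeoLeaves D K (D.fdeg K) ϖ where
  sys := D.sysT hK
  ϖ_lt := H.ϖ_lt
  ϖ_ram := H.ϖ_ram
  ϖ_indep := H.ϖ_indep
  a_mem := H.a_mem
  a_inv := H.a_inv
  meet := H.meet
  gen₁ := H.gen₁
  gen₂ := H.gen₂
  glob := D.globT hK
  ded₁ := D.ded₁_sys h49 hK2 hK (D.ram K)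
  ded₂ := D.ded₂_sys h49 hK2 hK (D.ram K)
  sep := D.sepK hK2 (D.sysT hK)

/-- **`HasDatumCtx` from the open leaves.** -/
theorem hasDatumCtx_of_open
    (h : ∀ (D : CtxK) (k : ℕ), aux D.q ∣ D.M → 2 ≤ k →
      ∃ ϖ : Fin (k + 2) → D.Fk (k + 1),
        GeoOpen D (k + 1) (Nat.succ_le_succ (Nat.zero_le k)) ϖ ∧ NormLeaves D k ϖ) :
    HasDatumCtx :=
  hasDatumCtx_of_leaves fun D k haux hk => by
    obtain ⟨ϖ, H, N⟩ := h D k haux hk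
    exact ⟨D.fdeg (k + 1), ϖ, H.leaves (by omega) _ haux, N⟩

end Fermat.Agent.S45
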