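import Fermat.Agent.S45.Mod.SysK
import Fermat.Agent.S45.Mod.JInt
import Fermat.Agent.S36.Mod.NormInt

/-!
# S45 / modular part : `[MODK-NORM-DEGINT]` the valuation-free fields of `NormDatumK`

`D : CtxK`.  `D.al k`, `D.be k : D.Fk k → D.Fk (k+1)` have degree `q` for `1 ≤ k`; the norms `D.Na k`, `D.Nb k`
(`= normAlong` by `rfl`), their values on the constants, and the integrality statements
`x ∈ intCl R t ⟹ α (Nα x), β (Nβ x) ∈ intCl R t` for `t = D.t (k+1)`.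
-/

set_option autoImplicit false
set_option linter.unusedSectionVars false
set_option linter.style.haveILetI false
noncomputable section

open ModularCurve AlgebraicCurve Polynomial

namespace Fermat.Agent.S45

open Fermat.Agent.S24 Fermat.Agent.S36 Fermat.Agent.RED.Gauss Fermat.Agent.GAL.AD

namespace CtxK

variable (D : CtxK)

theorem q_dvd_lv {k : ℕ} (hk : 1 ≤ k) : D.q ∣ lv D.M D.q k := by
  obtain ⟨n, rfl⟩ : ∃ n, k = n + 1 := ⟨k - 1, by omega⟩
  exact dvd_mul_left _ _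

theorem finite_al (k : ℕ) : FiniteAlong D.K (D.al k) :=
  (Kum.bc_alpha (algebraMap D.K Kb) (lv D.M D.q k) D.q D.isAlgebraic_range_KK
    (GAL.HeckeInputs.finiteAlong_alpha (lv D.M D.q k) D.q)).1

theorem finite_be (k : ℕ) : FiniteAlong D.K (D.be k) :=
  (Kum.bc_beta (algebraMap D.K Kb) (lv D.M D.q k) D.q D.isAlgebraic_range_KK
    (GAL.HeckeInputs.finiteAlong_beta (lv D.M D.q k) D.q)).1

theorem finrank_al {k : ℕ} (hk : 1 ≤ k) : finrankAlong D.K (D.al k) = D.q := by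
  show finrankAlong D.K (heckeAlphaBar D.K (lv D.M D.q k) D.q) = D.q
  rw [(Kum.bc_alpha (algebraMap D.K Kb) (lv D.M D.q k) D.q D.isAlgebraic_range_KK
    (GAL.HeckeInputs.finiteAlong_alpha (lv D.M D.q k) D.q)).2.1]
  exact GAL.HeckeComm.finrankAlong_alpha_of_dvd (lv D.M D.q k) D.q D.hq (D.q_dvd_lv hk)

theorem finrank_be {k : ℕ} (hk : 1 ≤ k) : finrankAlong D.K (D.be k) = D.q := by
  show finrankAlong D.K (heckeBetaBar D.K (lv D.M D.q k) D.q) = D.q
  rw [(Kum.bc_beta (algebraMap D.K Kb) (lv D.M D.q k) D.q D.isAlgebraic_range_KK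
    (GAL.HeckeInputs.finiteAlong_beta (lv D.M D.q k) D.q)).2.1,
    Kum.finrankAlong_beta_eq_alpha' (lv D.M D.q k) D.q D.hq]
  exact GAL.HeckeComm.finrankAlong_alpha_of_dvd (lv D.M D.q k) D.q D.hq (D.q_dvd_lv hk)

/-- the norm along `α_k` -/
def Na (k : ℕ) : D.Fk (k + 1) →* D.Fk k :=
  letI := algebraAlong (D.al k)
  Algebra.norm (D.Fk k)

/-- the norm along `β_k` -/
def Nb (k : ℕ) : D.Fk (k + 1) →* D.Fk k :=
  letI := algebraAlong (D.be k)
  Algebra.norm (D.Fk k)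

theorem Na_apply (k : ℕ) (x : D.Fk (k + 1)) :
    D.Na k x = Fermat.Agent.RED.TorsES.normAlong (alK D.K D.M D.q k) x := rfl

theorem Nb_apply (k : ℕ) (x : D.Fk (k + 1)) :
    D.Nb k x = Fermat.Agent.RED.TorsES.normAlong (beK D.K D.M D.q k) x := rfl

theorem Na_const {k : ℕ} (hk : 1 ≤ k) (c : D.K) :
    D.Na k (algebraMap D.K (D.Fk (k + 1)) c) = algebraMap D.K (D.Fk k) c ^ D.q := by
  letI := algebraAlong (D.al k)
  have h : algebraMap D.K (D.Fk (k + 1)) c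
      = algebraMap (D.Fk k) (D.Fk (k + 1)) (algebraMap D.K (D.Fk k) c) :=
    ((D.al k).commutes c).symm
  rw [h]
  have := Algebra.norm_algebraMap (S := D.Fk (k + 1)) (algebraMap D.K (D.Fk k) c)
  exact this.trans (congrArg (fun n : ℕ => algebraMap D.K (D.Fk k) c ^ n) (D.finrank_al hk))

theorem Nb_const {k : ℕ} (hk : 1 ≤ k) (c : D.K) :
    D.Nb k (algebraMap D.K (D.Fk (k + 1)) c) = algebraMap D.K (D.Fk k) c ^ D.q := by
  letI := algebraAlong (D.be k)
  have h : algebraMap D.K (D.Fk (k + 1)) c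
      = algebraMap (D.Fk k) (D.Fk (k + 1)) (algebraMap D.K (D.Fk k) c) :=
    ((D.be k).commutes c).symm
  rw [h]
  have := Algebra.norm_algebraMap (S := D.Fk (k + 1)) (algebraMap D.K (D.Fk k) c)
  exact this.trans (congrArg (fun n : ℕ => algebraMap D.K (D.Fk k) c ^ n) (D.finrank_be hk))

/-! ### the `j`'s -/

theorem al_j (k i : ℕ) (hi : i ≤ k) : D.al k (D.j k i) = D.j (k + 1) i :=
  (aL_succ_of_le D.K D.M D.q k i hi _).symm

theorem be_j (k i : ℕ) (hi : i ≤ k) : D.be k (D.j k i) = D.j (k + 1) (i + 1) :=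
  (aL_succ_succ D.K D.M D.q k i hi _).symm

theorem al_a (k i : ℕ) (hi : i ≤ k) (u : D.FM) : D.al k (D.a k i u) = D.a (k + 1) i u :=
  (aL_succ_of_le D.K D.M D.q k i hi u).symm

theorem be_a (k i : ℕ) (hi : i ≤ k) (u : D.FM) : D.be k (D.a k i u) = D.a (k + 1) (i + 1) u :=
  (aL_succ_succ D.K D.M D.q k i hi u).symm

/-- all the charts `intCl R (j (q^i τ))` coincide with `intCl R t`. -/
theorem intCl_j {k : ℕ} (hk : 2 ≤ k) {i : ℕ} (hi : i ≤ k) :
    intCl D.R (D.j k i) = intCl D.R (D.t k) := by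
  rw [D.intCl_t k]
  exact intCl_jL_eq D.A D.hq D.hA D.hqM hk hi

/-! ### integrality -/

theorem al_mem (k : ℕ) (x : D.Fk k) (hx : x ∈ intCl D.R (D.j k 0)) :
    D.al k x ∈ intCl D.R (D.t (k + 1)) := by
  rw [D.intCl_t, ← D.al_j k 0 (Nat.zero_le _)]
  exact map_mem_intCl_aux (R := D.R) (K := D.K) (D.al k) hx

theorem be_mem {k : ℕ} (hk : 1 ≤ k) (x : D.Fk k) (hx : x ∈ intCl D.R (D.j k 0)) :
    D.be k x ∈ intCl D.R (D.t (k + 1)) := by
  rw [← D.intCl_j (k := k + 1) (by omega) (i := 1) (by omega), ← D.be_j k 0 (Nat.zero_le _)]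
  exact map_mem_intCl_aux (R := D.R) (K := D.K) (D.be k) hx

theorem Na_mem (k : ℕ) (x : D.Fk (k + 1)) (hx : x ∈ intCl D.R (D.t (k + 1))) :
    D.Na k x ∈ intCl D.R (D.j k 0) := by
  rw [D.intCl_t, ← D.al_j k 0 (Nat.zero_le _)] at hx
  exact normHom_mem_intCl ((D.al k).restrictScalars D.R) (s' := D.j k 0) hx

theorem Nb_mem {k : ℕ} (hk : 1 ≤ k) (x : D.Fk (k + 1)) (hx : x ∈ intCl D.R (D.t (k + 1))) :
    D.Nb k x ∈ intCl D.R (D.j k 0) := by
  rw [← D.intCl_j (k := k + 1) (by omega) (i := 1) (by omega), ← D.be_j k 0 (Nat.zero_le _)] at hx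
  exact normHom_mem_intCl ((D.be k).restrictScalars D.R) (s' := D.j k 0) hx

/-- **the field `αN_mem` of `NormDatumK`** -/
theorem alN_mem (k : ℕ) (x : D.Fk (k + 1)) (hx : x ∈ intCl D.R (D.t (k + 1))) :
    D.al k (D.Na k x) ∈ intCl D.R (D.t (k + 1)) :=
  D.al_mem k _ (D.Na_mem k x hx)

/-- **the field `βN_mem` of `NormDatumK`** -/
theorem beN_mem {k : ℕ} (hk : 1 ≤ k) (x : D.Fk (k + 1)) (hx : x ∈ intCl D.R (D.t (k + 1))) :
    D.be k (D.Nb k x) ∈ intCl D.R (D.t (k + 1)) :=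
  D.be_mem hk _ (D.Nb_mem hk x hx)

end CtxK

end Fermat.Agent.S45
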