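import Fermat.Agent.S45.Mod.Inst1
import Fermat.Agent.S45.Mod.CuspTopK
import Fermat.Agent.S45.Mod.NormDegK

/-!
# S45 / modular part : assembly, stage 2 : the field `gen₂`; the four valuation-free norm fields
-/

set_option autoImplicit false
set_option linter.unusedSectionVars false

noncomputable section

open AlgebraicCurve ModularCurve

namespace Fermat.Agent.S45

open Fermat.Agent.RED hiding Kb
open Fermat.Agent.S24 Fermat.Agent.RED.TorsES
open Fermat.Agent.S36 Fermat.Agent.S36.Kum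

namespace CtxK

variable (D : CtxK)

/-- **the field `gen₂`**. -/
theorem gen₂T {K : ℕ} (hK2 : 2 ≤ K) (hK : 1 ≤ K) (i : Fin (K + 1)) (hi : eK D.q K i ≠ 1)
    (𝔪 : Ideal (intCl D.R (D.t K)⁻¹)) (h𝔪 : 𝔪.IsMaximal) (ht : tinvB D.R (D.t K) ∈ 𝔪)
    (h1 : ((D.sysT hK).inv D.irr).p i ≤ 𝔪) :
    ∃ w : D.Fk K, (D.O K i).valuation w < 1 ∧ MemAt (intCl D.R (D.t K)⁻¹) 𝔪 w ∧
      UnitAt (intCl D.R (D.t K)⁻¹) 𝔪 (w ^ eK D.q K i / (D.q : D.Fk K)) := by
  have h0 : 0 < (i : ℕ) := by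
    rcases Nat.eq_zero_or_pos (i : ℕ) with h | h
    · exact absurd (by rw [h]; exact eK_zero D.q K) hi
    · exact h
  have hlt : (i : ℕ) < K := by
    have hle : (i : ℕ) ≤ K := Nat.lt_succ_iff.1 i.2
    rcases Nat.lt_or_ge (i : ℕ) K with h | h
    · exact h
    · have : (i : ℕ) = K := le_antisymm hle h
      exact absurd (by rw [this]; exact eK_self D.q K) hi
  have hE : eK D.q K i ≠ 0 := by
    rw [eK_of_mid D.hq h0 hlt]
    have := D.hq.one_lt
    exact mul_ne_zero (pow_ne_zero _ D.hq.ne_zero) (by omega)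
  exact D.gen₂K hK2 (D.sysT hK) i hE (D.cusp_hz K i h0 hlt) (D.cusp_hres K i h0 hlt) 𝔪 h𝔪 ht h1

end CtxK

end Fermat.Agent.S45
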