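import Fermat.Agent.S45.Mod.SysK

/-!
# S45 / modular part : uniformisers of the components of level `M q^k` (from `D.Ram k`)

`CtxK.isUnif_of_ram`, `CtxK.exists_isUnif`, `CtxK.exists_isUnif_OO` : every `D.O k s` is a discrete valuation ring with
`v (q) = v (w) ^ eK q k s`.
-/

set_option autoImplicit false
set_option linter.unusedSectionVars false
noncomputable section

open ModularCurve Polynomial

namespace Fermat.Agent.S45

open Fermat.Agent.S24 Fermat.Agent.S36 Fermat.Agent.RED.Gauss Fermat.Agent.GAL.AD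

namespace CtxK

variable (D : CtxK)

/-- any ramification witness is a uniformiser -/
theorem isUnif_of_ram {k : ℕ} (hk : 1 ≤ k) (hr : D.Ram k) (s : Fin (k + 1)) {w : D.Fk k}
    (h1 : (D.O k s).valuation w < 1)
    (h2 : (D.O k s).valuation ((D.q : ℕ) : D.Fk k) ≤ (D.O k s).valuation w ^ eK D.q k s) :
    IsUnif (D.O k s) w ∧
      (D.O k s).valuation ((D.q : ℕ) : D.Fk k) = (D.O k s).valuation w ^ eK D.q k s := by
  have h := (D.sys hk hr).isUnif D.irr s h1 (by rw [map_natCast]; exact h2)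
  rwa [map_natCast] at h

theorem exists_isUnif {k : ℕ} (hk : 1 ≤ k) (hr : D.Ram k) (s : Fin (k + 1)) :
    ∃ w : D.Fk k, IsUnif (D.O k s) w ∧
      (D.O k s).valuation ((D.q : ℕ) : D.Fk k) = (D.O k s).valuation w ^ eK D.q k s := by
  obtain ⟨w, h1, h2⟩ := hr s
  exact ⟨w, D.isUnif_of_ram hk hr s h1 (by rwa [map_natCast] at h2)⟩

theorem exists_isUnif_OO {k : ℕ} (hk : 1 ≤ k) (hr : D.Ram k) (s : ℕ) (hs : s ≤ k) :
    ∃ w : D.Fk k, IsUnif (D.OO k s hs) w ∧
      (D.OO k s hs).valuation ((D.q : ℕ) : D.Fk k) = (D.OO k s hs).valuation w ^ eK D.q k s :=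
  D.exists_isUnif hk hr ⟨s, Nat.lt_succ_iff.2 hs⟩

theorem val_q_lt_one {k : ℕ} (hk : 1 ≤ k) (hr : D.Ram k) (s : Fin (k + 1)) :
    (D.O k s).valuation ((D.q : ℕ) : D.Fk k) < 1 := by
  have := ((D.sys hk hr).gauss s).lt_one
  rwa [map_natCast] at this

theorem O_injective {k : ℕ} (hk : 1 ≤ k) (hr : D.Ram k) : Function.Injective (D.O k) :=
  (D.sys hk hr).inj

end CtxK

end Fermat.Agent.S45
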