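import Fermat.Agent.S45.Mod.InstAbs
import Fermat.Agent.S45.Mod.NormDegK
import Fermat.Agent.S45.Mod.SysUnif
import Fermat.Agent.S45.Mod.RamK
import Fermat.Agent.S45.Abs.PsiUnit

/-!
# S45 / modular part : `[MODK-NORM-VAL]`  `valα`, `valβ` from `redα`, `redβ`; `NormLeaves` from five theorems

* `CtxK.valA_of_redA`, `CtxK.valB_of_redB` : on a component where `φ (N u) ≡ u ^ q` for all integral `u`,
  `v (φ (N u)) = v u ^ q` for ALL `u` (helper91's `val_comp_norm_of_nr1`);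
* `CtxK.normLeaves` : helper96's `NormLeaves D k ϖ` from `redα redβ unitβ valmix onemix`.
-/

set_option autoImplicit false
set_option linter.unusedSectionVars false
set_option linter.style.haveILetI false
noncomputable section

open ModularCurve AlgebraicCurve Polynomial

namespace Fermat.Agent.S45

open Fermat.Agent.S24 Fermat.Agent.S36 Fermat.Agent.RED.Gauss Fermat.Agent.GAL.AD
open Fermat.Agent.RED.TorsES

theorem normAlong_zero_nv {K F F' : Type*} [Field K] [Field F] [Field F'] [Algebra K F]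
    [Algebra K F'] (ψ : F →ₐ[K] F') (h : FiniteAlong K ψ) : normAlong ψ (0 : F') = 0 := by
  letI := algebraAlong ψ
  haveI : Module.Finite F F' := h
  exact Algebra.norm_zero

namespace CtxK

variable (D : CtxK)

theorem eK_ne_zero (k s : ℕ) : eK D.q k s ≠ 0 :=
  (Nat.totient_pos.2 (pow_pos D.hq.pos _)).ne'

theorem Na_zero (k : ℕ) : D.Na k 0 = 0 := normAlong_zero_nv (D.al k) (D.finite_al k)

theorem Nb_zero (k : ℕ) : D.Nb k 0 = 0 := normAlong_zero_nv (D.be k) (D.finite_be k)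

theorem al_Na_q {k : ℕ} (hk : 1 ≤ k) :
    D.al k (D.Na k ((D.q : ℕ) : D.Fk (k + 1))) = ((D.q : ℕ) : D.Fk (k + 1)) ^ D.q := by
  have h := D.Na_const hk ((D.q : ℕ) : D.K)
  have e1 : algebraMap D.K (D.Fk (k + 1)) ((D.q : ℕ) : D.K) = ((D.q : ℕ) : D.Fk (k + 1)) :=
    map_natCast _ _
  have e2 : algebraMap D.K (D.Fk k) ((D.q : ℕ) : D.K) = ((D.q : ℕ) : D.Fk k) := map_natCast _ _
  rw [e1, e2] at h
  rw [h, map_pow, map_natCast]

theorem be_Nb_q {k : ℕ} (hk : 1 ≤ k) :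
    D.be k (D.Nb k ((D.q : ℕ) : D.Fk (k + 1))) = ((D.q : ℕ) : D.Fk (k + 1)) ^ D.q := by
  have h := D.Nb_const hk ((D.q : ℕ) : D.K)
  have e1 : algebraMap D.K (D.Fk (k + 1)) ((D.q : ℕ) : D.K) = ((D.q : ℕ) : D.Fk (k + 1)) :=
    map_natCast _ _
  have e2 : algebraMap D.K (D.Fk k) ((D.q : ℕ) : D.K) = ((D.q : ℕ) : D.Fk k) := map_natCast _ _
  rw [e1, e2] at h
  rw [h, map_pow, map_natCast]

/-- **`valα` from `redα`** (one component). -/
theorem valA_of_redA {k : ℕ} (hk : 1 ≤ k) (i : Fin (k + 2))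
    (red : ∀ u ∈ D.O (k + 1) i,
      (D.O (k + 1) i).valuation (D.al k (normAlong (D.al k) u) - u ^ D.q) < 1)
    (u : D.Fk (k + 1)) :
    (D.O (k + 1) i).valuation (D.al k (normAlong (D.al k) u))
      = (D.O (k + 1) i).valuation u ^ D.q := by
  by_cases hu : u = 0
  · subst hu
    have h0 : normAlong (D.al k) (0 : D.Fk (k + 1)) = 0 := D.Na_zero k
    rw [h0, map_zero, map_zero, zero_pow D.hq.ne_zero]
  · obtain ⟨w, hw, hq⟩ := D.exists_isUnif (k := k + 1) (by omega) (D.ram (k + 1)) i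
    exact val_comp_norm_of_nr1 (D.O (k + 1) i) (D.al k : D.Fk k →+* D.Fk (k + 1)) (D.Na k) D.q hw
      (D.eK_ne_zero (k + 1) i) hq (D.al_Na_q hk) red hu

/-- **`valβ` from `redβ`** (one component). -/
theorem valB_of_redB {k : ℕ} (hk : 1 ≤ k) (i : Fin (k + 2))
    (red : ∀ u ∈ D.O (k + 1) i,
      (D.O (k + 1) i).valuation (D.be k (normAlong (D.be k) u) - u ^ D.q) < 1)
    (u : D.Fk (k + 1)) :
    (D.O (k + 1) i).valuation (D.be k (normAlong (D.be k) u))
      = (D.O (k + 1) i).valuation u ^ D.q := by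
  by_cases hu : u = 0
  · subst hu
    have h0 : normAlong (D.be k) (0 : D.Fk (k + 1)) = 0 := D.Nb_zero k
    rw [h0, map_zero, map_zero, zero_pow D.hq.ne_zero]
  · obtain ⟨w, hw, hq⟩ := D.exists_isUnif (k := k + 1) (by omega) (D.ram (k + 1)) i
    exact val_comp_norm_of_nr1 (D.O (k + 1) i) (D.be k : D.Fk k →+* D.Fk (k + 1)) (D.Nb k) D.q hw
      (D.eK_ne_zero (k + 1) i) hq (D.be_Nb_q hk) red hu

/-- **helper96's `NormLeaves` from the five theorems of `[MODK-NORM]`.** -/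
theorem normLeaves {k : ℕ} (hk : 1 ≤ k) (ϖ : Fin (k + 2) → D.Fk (k + 1))
    (redα : ∀ i : Fin (k + 2), 2 ≤ (i : ℕ) → ∀ u ∈ D.O (k + 1) i,
      (D.O (k + 1) i).valuation (D.al k (normAlong (D.al k) u) - u ^ D.q) < 1)
    (redβ : ∀ i : Fin (k + 2), (i : ℕ) + 2 ≤ k + 1 → ∀ u ∈ D.O (k + 1) i,
      (D.O (k + 1) i).valuation (D.be k (normAlong (D.be k) u) - u ^ D.q) < 1)
    (unitβ : ∀ u : D.Fk (k + 1), (∀ i, (D.O (k + 1) i).valuation u = 1) →
      ∀ i, (D.O (k + 1) i).valuation (D.be k (normAlong (D.be k) u)) = 1)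
    (valmix : ∀ (u : D.Fk (k + 1)) (n₀ n₁ : ℤ),
      (D.O (k + 1) 0).valuation u = (D.O (k + 1) 0).valuation (ϖ 0) ^ n₀ →
      (D.O (k + 1) 1).valuation u = (D.O (k + 1) 1).valuation (ϖ 1) ^ n₁ →
      (D.O (k + 1) 0).valuation (D.al k (normAlong (D.al k) u))
        = (D.O (k + 1) 0).valuation (ϖ 0) ^ (n₀ + n₁))
    (onemix : ∀ u : D.Fk (k + 1), (D.O (k + 1) 0).valuation (u - 1) < 1 →
      (D.O (k + 1) 1).valuation (u - 1) < 1 →
      (D.O (k + 1) 0).valuation (D.al k (normAlong (D.al k) u) - 1) < 1 ∧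
        (D.O (k + 1) 1).valuation (D.al k (normAlong (D.al k) u) - 1) < 1) :
    NormLeaves D k ϖ where
  Nα_const := D.Na_const hk
  Nβ_const := D.Nb_const hk
  αN_mem := D.alN_mem k
  βN_mem := D.beN_mem hk
  redα := redα
  redβ := redβ
  valα := fun i hi => D.valA_of_redA hk i (redα i hi)
  valβ := fun i hi => D.valB_of_redB hk i (redβ i hi)
  unitβ := unitβ
  valmix := valmix
  onemix := onemix

end CtxK

end Fermat.Agent.S45
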