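import Fermat.Agent.S45.Mod.Ctx
import Fermat.Agent.S45.Mod.Eps
import Fermat.Agent.S36.Mod.Formulas

/-!
# S45 / modular part : `[MODK-TRANS]` the transition formulas between the levels `k` and `k + 1`

`E_{k+1,s} ∘ α = subT (wA z k s) (q ^ εA k s) ∘ E_{k,s-1}`,
`E_{k+1,s} ∘ β = subT (wB z k s) (q ^ εB k s) ∘ E_{k,min s k}`
(monomial substitutions), and the consequences: `RedsTo` transfer, comaps.
-/

set_option autoImplicit false
set_option linter.unusedSectionVars false
noncomputable section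

open ModularCurve Polynomial

namespace Fermat.Agent.S45

open Fermat.Agent.S24 Fermat.Agent.S36 Fermat.Agent.RED.Gauss Fermat.Agent.GAL.AD

/-- the Frobenius exponent of `α` on the component `s` of level `k+1` -/
def εA (k s : ℕ) : ℕ := if 2 * s ≤ k + 1 then 0 else 1

/-- the Frobenius exponent of `β` on the component `s` of level `k+1` -/
def εB (k s : ℕ) : ℕ := if 2 * s ≤ k then 1 else 0

/-- the rotation of `α` -/
def wA (z : ℕ → Kbˣ) (k s : ℕ) : Kbˣ := if 2 * s = k + 2 then (z (s - 1))⁻¹ else 1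

/-- the rotation of `β` -/
def wB (z : ℕ → Kbˣ) (k s : ℕ) : Kbˣ := if 2 * s = k + 1 then z s else 1

theorem subT_subT (w ζ : Kbˣ) (x y : ℕ) [NeZero x] [NeZero y] (f : LaurentSeries Kb) :
    subT w y (subT ζ x f) = subT (ζ * w ^ x) (x * y) f := by
  rw [subT_apply, subT_apply, subT_apply, rot_qExpand, rot_rot, qExpand_qExpand, mul_comm (w ^ x)]
  exact qExpand_congr (mul_comm _ _) _

theorem subT_C (w : Kbˣ) (y : ℕ) [NeZero y] (a : Kb) : subT w y (HahnSeries.C a) = HahnSeries.C a := by
  rw [subT_apply, S24.rot_C, qExpand_C]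

variable {q : ℕ} {z : ℕ → Kbˣ}

theorem ZSys.pow_q (hz : ZSys q z) (n x : ℕ) : z n ^ (q ^ x) = z (n - x) := by
  rcases le_total x n with h | h
  · obtain ⟨m, rfl⟩ := Nat.exists_eq_add_of_le h
    rw [add_comm x m, hz.pow_pow, Nat.add_sub_cancel]
  · obtain ⟨m, rfl⟩ := Nat.exists_eq_add_of_le h
    rw [pow_add, pow_mul, hz.pow_eq_one, one_pow, Nat.sub_eq_zero_of_le (Nat.le_add_right n m),
      hz.zero]

theorem nK_al (k s i : ℕ) (hs : s ≤ k + 1) (hi : i ≤ k) :
    nK k (s - 1) i + εA k s = nK (k + 1) s i := by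
  unfold nK εA
  split_ifs <;> omega

theorem nK_be (k s i : ℕ) (hs : s ≤ k + 1) (hi : i ≤ k) :
    nK k (min s k) i + εB k s = nK (k + 1) s (i + 1) := by
  unfold nK εB
  rcases le_total s k with h | h
  · rw [min_eq_left h]
    split_ifs <;> omega
  · rw [min_eq_right h]
    split_ifs <;> omega

theorem zT_al (hz : ZSys q z) (k s i : ℕ) (hs : s ≤ k + 1) (hi : i ≤ k) :
    zT z k (s - 1) i * wA z k s ^ (q ^ nK k (s - 1) i) = zT z (k + 1) s i := by
  unfold zT wA nK
  split_ifs <;>
    first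
    | omega
    | (simp only [one_pow, mul_one, inv_pow, hz.pow_q]
       first
       | (congr 1; omega)
       | (congr 2; omega)
       | skip)
  · have h1 : i - (k - (s - 1)) = 0 := by omega
    have h2 : s - 1 - i = k + 1 - s - i := by omega
    rw [h1, h2, hz.zero, one_mul]
  · have h1 : s - 1 - (2 * (k - (s - 1)) - i) = i - (k - (s - 1)) := by omega
    have h2 : k + 1 - s - i = 0 := by omega
    rw [h1, h2, hz.zero, mul_inv_cancel, inv_one]

theorem zT_be (hz : ZSys q z) (k s i : ℕ) (hs : s ≤ k + 1) (hi : i ≤ k) :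
    zT z k (min s k) i * wB z k s ^ (q ^ nK k (min s k) i) = zT z (k + 1) s (i + 1) := by
  unfold zT wB nK
  rcases le_total s k with h | h
  · rw [min_eq_left h]
    split_ifs <;>
      first
      | omega
      | (simp only [one_pow, mul_one, inv_pow, hz.pow_q]
         first
         | (congr 1; omega)
         | (congr 2; omega)
         | skip)
    · have h1 : k - s - i = 0 := by omega
      have h2 : s - (k - i) = i + 1 - (k + 1 - s) := by omega
      rw [h1, h2, hz.zero, inv_one, one_mul]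
    · have h1 : s - (s + i - (k - s)) = k - s - i := by omega
      have h2 : i + 1 - (k + 1 - s) = 0 := by omega
      rw [h1, h2, hz.zero, inv_mul_cancel]
  · rw [min_eq_right h]
    split_ifs <;>
      first
      | omega
      | (simp only [one_pow, mul_one, inv_pow, hz.pow_q]
         first
         | (congr 1; omega)
         | (congr 2; omega)
         | skip)
    · have h1 : i - (k - k) = 0 := by omega
      have h2 : k + 1 - s - (i + 1) = 0 := by omega
      rw [h1, h2, hz.zero, inv_one]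
    · have h1 : k - k - i = 0 := by omega
      have h2 : s - (k - i) = i + 1 - (k + 1 - s) := by omega
      rw [h1, h2, hz.zero, inv_one, one_mul]


section Hom

variable {M : ℕ} [NeZero M] [NeZero q]

/-- **[TRANS-α]** -/
theorem IsEps.comp_al (hq : q.Prime) (hz : ZSys q z) {k s : ℕ} (hs : s ≤ k + 1)
    {E' : FN (lv M q (k + 1)) →+* LaurentSeries Kb} {E : FN (lv M q k) →+* LaurentSeries Kb}
    (H' : IsEps M q z (k + 1) s E') (H : IsEps M q z k (s - 1) E) (y : FN (lv M q k)) :
    E' (alK Kb M q k y) = subT (wA z k s) (q ^ εA k s) (E y) := by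
  have : E'.comp (alK Kb M q k : FN (lv M q k) →+* FN (lv M q (k + 1)))
      = (subT (wA z k s) (q ^ εA k s)).comp E := by
    apply ringHom_ext_lv hq
    · intro a
      simp only [RingHom.comp_apply, RingHom.coe_coe, AlgHom.commutes]
      rw [H'.c, H.c, subT_C]
    · intro i hi u
      simp only [RingHom.comp_apply, RingHom.coe_coe]
      rw [← aL_succ_of_le Kb M q k i hi u, H'.t i (by omega), H.t i hi, subT_subT]
      exact subT_congr (zT_al hz k s i hs hi).symm (by rw [← pow_add, nK_al k s i hs hi]) _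
  exact congrArg (fun φ => φ y) this

/-- **[TRANS-β]** -/
theorem IsEps.comp_be (hq : q.Prime) (hz : ZSys q z) {k s : ℕ} (hs : s ≤ k + 1)
    {E' : FN (lv M q (k + 1)) →+* LaurentSeries Kb} {E : FN (lv M q k) →+* LaurentSeries Kb}
    (H' : IsEps M q z (k + 1) s E') (H : IsEps M q z k (min s k) E) (y : FN (lv M q k)) :
    E' (beK Kb M q k y) = subT (wB z k s) (q ^ εB k s) (E y) := by
  have : E'.comp (beK Kb M q k : FN (lv M q k) →+* FN (lv M q (k + 1)))
      = (subT (wB z k s) (q ^ εB k s)).comp E := by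
    apply ringHom_ext_lv hq
    · intro a
      simp only [RingHom.comp_apply, RingHom.coe_coe, AlgHom.commutes]
      rw [H'.c, H.c, subT_C]
    · intro i hi u
      simp only [RingHom.comp_apply, RingHom.coe_coe]
      rw [← aL_succ_succ Kb M q k i hi u, H'.t (i + 1) (by omega), H.t i hi, subT_subT]
      exact subT_congr (zT_be hz k s i hs hi).symm (by rw [← pow_add, nK_be k s i hs hi]) _
  exact congrArg (fun φ => φ y) this

end Hom

theorem wA_pow (hz : ZSys q z) (k s : ℕ) : wA z k s ^ (q ^ s) = 1 := by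
  unfold wA
  split_ifs
  · rw [inv_pow, hz.pow_q, Nat.sub_eq_zero_of_le (Nat.sub_le s 1), hz.zero, inv_one]
  · exact one_pow _

theorem wB_pow (hz : ZSys q z) (k s : ℕ) : wB z k s ^ (q ^ s) = 1 := by
  unfold wB
  split_ifs
  · exact hz.pow_eq_one s
  · exact one_pow _

namespace CtxK

variable (D : CtxK)

theorem e_al (k s : ℕ) (hs : s ≤ k + 1) (y : D.Fk k) :
    D.e (k + 1) s (D.al k y) = subT (wA D.z k s) (D.q ^ εA k s) (D.e k (s - 1) y) := by
  rw [e_apply, e_apply]
  have h := embF0_alpha D.A (lv D.M D.q k) D.q y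
  rw [show embF0 D.A (lv D.M D.q (k + 1)) (D.al k y) = _ from h]
  exact (D.isEps (k + 1) s hs).comp_al D.hq D.hz hs (D.isEps k (s - 1) (by omega)) _

theorem e_be (k s : ℕ) (hs : s ≤ k + 1) (y : D.Fk k) :
    D.e (k + 1) s (D.be k y) = subT (wB D.z k s) (D.q ^ εB k s) (D.e k (min s k) y) := by
  rw [e_apply, e_apply]
  have h := embF0_beta D.A (lv D.M D.q k) D.q y
  rw [show embF0 D.A (lv D.M D.q (k + 1)) (D.be k y) = _ from h]
  exact (D.isEps (k + 1) s hs).comp_be D.hq D.hz hs (D.isEps k (min s k) (by omega)) _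

/-- reductions along `α` -/
theorem redsTo_al (k s : ℕ) (hs : s ≤ k + 1) {y : D.Fk k} {r : LaurentSeries D.k}
    (h : RedsTo D.π (D.e k (s - 1) y) r) :
    RedsTo D.π (D.e (k + 1) s (D.al k y)) (qExpand D.k (D.q ^ εA k s) r) := by
  rw [e_al D k s hs, subT_apply]
  exact (redsTo_rotK D.hA h _ s (wA_pow D.hz k s)).qExpand _

/-- reductions along `β` -/
theorem redsTo_be (k s : ℕ) (hs : s ≤ k + 1) {y : D.Fk k} {r : LaurentSeries D.k}
    (h : RedsTo D.π (D.e k (min s k) y) r) :
    RedsTo D.π (D.e (k + 1) s (D.be k y)) (qExpand D.k (D.q ^ εB k s) r) := by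
  rw [e_be D k s hs, subT_apply]
  exact (redsTo_rotK D.hA h _ s (wB_pow D.hz k s)).qExpand _

/-- **[COMAP-α]** -/
theorem comap_al (k s : ℕ) (hs : s ≤ k + 1) (hs' : s - 1 ≤ k) :
    (D.OO (k + 1) s hs).comap (D.al k : D.Fk k →+* D.Fk (k + 1)) = D.OO k (s - 1) hs' :=
  fm_gv_comap_of_redsTo D.hπ (D.disc (k + 1) s hs) (D.disc k (s - 1) hs') _
    (qExpand D.k (D.q ^ εA k s)) (map_zero _) fun y r h => D.redsTo_al k s hs h

/-- **[COMAP-β]** -/
theorem comap_be (k s : ℕ) (hs : s ≤ k + 1) (hs' : min s k ≤ k) :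
    (D.OO (k + 1) s hs).comap (D.be k : D.Fk k →+* D.Fk (k + 1)) = D.OO k (min s k) hs' :=
  fm_gv_comap_of_redsTo D.hπ (D.disc (k + 1) s hs) (D.disc k (min s k) hs') _
    (qExpand D.k (D.q ^ εB k s)) (map_zero _) fun y r h => D.redsTo_be k s hs h

end CtxK

end Fermat.Agent.S45
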