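import Fermat.Agent.S45.Mod.NormExtK
import Fermat.Agent.S45.Mod.NormValK
import Fermat.Agent.S45.Mod.Trans

/-!
# S45 / modular part : `[MODK-NORM]` the structure `NormLeaves` (all the fields of `NormDatumK`), unconditionally

* `CtxK.normIn (hk : 1 ≤ k) : D.NormIn k` (inputs of `NormExtK.lean`: `NormDegK`, `Trans`, `SysUnif`, `RamK`);
* `CtxK.normLeaves_of_ram` : `NormLeaves D k ϖ` for ANY family `ϖ` of ramification witnesses (`ϖ_lt`, `ϖ_ram` of `GeoOpen`).
-/

set_option autoImplicit false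
set_option linter.unusedSectionVars false
noncomputable section

open ModularCurve AlgebraicCurve Polynomial

namespace Fermat.Agent.S45

open Fermat.Agent.S24 Fermat.Agent.S36 Fermat.Agent.RED.Gauss Fermat.Agent.GAL.AD
  Fermat.Agent.RED.TorsES

namespace CtxK

variable (D : CtxK)

theorem normIn {k : ℕ} (hk : 1 ≤ k) : D.NormIn k where
  fin_al := D.finite_al k
  fin_be := D.finite_be k
  deg_al := D.finrank_al hk
  deg_be := D.finrank_be hk
  trA := fun s hs y w h => by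
    have h1 := D.redsTo_al k s hs h
    unfold εA at h1
    split_ifs at h1 ⊢
    · rwa [(qExpand_congr' (pow_zero D.q) w).trans (qExpand_one_apply w)] at h1
    · rwa [qExpand_congr' (pow_one D.q) w] at h1
  trB := fun s hs y w h => by
    have h1 := D.redsTo_be k s hs h
    unfold εB at h1
    split_ifs at h1 ⊢
    · rwa [qExpand_congr' (pow_one D.q) w] at h1
    · rwa [(qExpand_congr' (pow_zero D.q) w).trans (qExpand_one_apply w)] at h1
  unif' := fun s' hs' => D.exists_isUnif_OO hk (D.ram k) s' hs'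
  ram := fun s hs => by
    obtain ⟨w, h1, h2⟩ := D.ram (k + 1) ⟨s, Nat.lt_succ_iff.2 hs⟩
    rw [map_natCast] at h2
    exact ⟨w, h1, h2⟩

theorem nf_O_zero (k : ℕ) : D.O (k + 1) 0 = D.OO (k + 1) 0 (Nat.zero_le _) := rfl

theorem nf_O_one (k : ℕ) : D.O (k + 1) 1 = D.OO (k + 1) 1 (by omega) := rfl

/-- **all the fields of `NormDatumK`.** -/
theorem normLeaves_of_ram {k : ℕ} (hk : 1 ≤ k) (ϖ : Fin (k + 2) → D.Fk (k + 1))
    (hlt : ∀ i, (D.O (k + 1) i).valuation (ϖ i) < 1)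
    (hram : ∀ i, (D.O (k + 1) i).valuation (D.q : D.Fk (k + 1)) ≤
      (D.O (k + 1) i).valuation (ϖ i) ^ eK D.q (k + 1) i) : NormLeaves D k ϖ := by
  have I := D.normIn hk
  have hU := fun i => D.isUnif_of_ram (k := k + 1) (by omega) (D.ram (k + 1)) i (hlt i) (hram i)
  refine D.normLeaves hk ϖ ?_ ?_ ?_ ?_ ?_
  · intro i hi u hu
    exact I.redA i hi (Nat.lt_succ_iff.1 i.2) u hu
  · intro i hi u hu
    exact I.redB i (by omega) (Nat.lt_succ_iff.1 i.2) u hu
  · intro u hu i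
    exact I.unitB hk u (fun s hs => hu ⟨s, Nat.lt_succ_iff.2 hs⟩) i (Nat.lt_succ_iff.1 i.2)
  · intro u n₀ n₁ h0 h1
    have h := I.valmix hk (ϖ0 := ϖ 0) (ϖ1 := ϖ 1) (hU 0).1 (hU 1).1 h0 h1
    have h2 := (hU 0).2
    have e0 : eK D.q (k + 1) ((0 : Fin (k + 2)) : ℕ) = 1 := eK_zero D.q (k + 1)
    rw [e0, pow_one] at h2
    rw [← h2]
    exact h
  · intro u h0 h1
    exact I.onemix hk u h0 h1

end CtxK

end Fermat.Agent.S45
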