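import Fermat.Agent.S45.Mod.Inst2
import Fermat.Agent.S45.Mod.NormFin
import Fermat.Agent.S45.Mod.Gen1K

/-!
# S45 / modular part : assembly, stage 3 : ONE function `ϖ`, the norm leaves, `gen₁` from the congruences

Open after this file (`EndsMeet`): the two end functions `a`, `b`, the field `meet`, and for every middle component
a congruence `ϖ_s ^ e_s / q * y ≡ c` along the component (`y ∈ B₁`, `c` a unit of `R`).
-/

set_option autoImplicit false
set_option linter.unusedSectionVars false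

noncomputable section

open AlgebraicCurve ModularCurve

namespace Fermat.Agent.S45

open Fermat.Agent.RED hiding Kb
open Fermat.Agent.S24 Fermat.Agent.RED.TorsES
open Fermat.Agent.S36 Fermat.Agent.S36.Kum

namespace CtxK

variable (D : CtxK)

/-- the uniformisers: `a` at `s = 0`, `b` at `s = K`, `1 - h(q^i τ)/h(q^i' τ)` in the middle. -/
def glueVp (H : HUnit D.M D.q) (K : ℕ) (a b : D.Fk K) (i : Fin (K + 1)) : D.Fk K :=
  if (i : ℕ) = 0 then a else if (i : ℕ) = K then b else D.vp H K i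

/-- what is still open at the level `K`. -/
structure EndsMeet (H : HUnit D.M D.q) (K : ℕ) (hK : 1 ≤ K) (a b : D.Fk K) : Prop where
  a_lt : (D.OO K 0 (Nat.zero_le K)).valuation a < 1
  a_ram : (D.OO K 0 (Nat.zero_le K)).valuation (D.q : D.Fk K)
    ≤ (D.OO K 0 (Nat.zero_le K)).valuation a
  a_indep : ∀ s (hs : s ≤ K), s ≠ 0 → (D.OO K s hs).valuation a = 1
  b_lt : (D.OO K K le_rfl).valuation b < 1
  b_ram : (D.OO K K le_rfl).valuation (D.q : D.Fk K) ≤ (D.OO K K le_rfl).valuation b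
  b_indep : ∀ s (hs : s ≤ K), s ≠ K → (D.OO K s hs).valuation b = 1
  a_mem : a ∈ intCl D.R (D.t K)
  a_inv : ∃ n : ℕ, (D.q : D.Fk K) ^ n / a ∈ intCl D.R (D.t K)
  meet : ∀ 𝔪 : Ideal (intCl D.R (D.t K)), 𝔪.IsMaximal → ∀ i j, i ≠ j → (D.sysT hK).p i ≤ 𝔪 →
    (D.sysT hK).p j ≤ 𝔪 → ∀ l, (D.sysT hK).p l ≤ 𝔪
  cong : ∀ s (_ : 0 < s) (hs : s < K), ∃ (y : D.Fk K) (c : D.R), y ∈ intCl D.R (D.t K) ∧ IsUnit c ∧
    (D.OO K s hs.le).valuation
      (D.vp H K s ^ eK D.q K s / (D.q : D.Fk K) * y - algebraMap D.R (D.Fk K) c) < 1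

variable {D}

theorem EndsMeet.geoOpen {H : HUnit D.M D.q} {K : ℕ} (hK2 : 2 ≤ K) (hK : 1 ≤ K) {a b : D.Fk K}
    (E : D.EndsMeet H K hK a b) : GeoOpen D K hK (D.glueVp H K a b) where
  ϖ_lt := by
    intro i
    unfold glueVp
    split_ifs with h0 hKK
    · have : i = ⟨0, Nat.succ_pos K⟩ := Fin.ext h0
      rw [this]
      exact E.a_lt
    · have : i = ⟨K, Nat.lt_succ_self K⟩ := Fin.ext hKK
      rw [this]
      exact E.b_lt
    · exact D.vp_lt H K i (Nat.pos_of_ne_zero h0)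
        (lt_of_le_of_ne (Nat.lt_succ_iff.1 i.2) hKK)
  ϖ_ram := by
    intro i
    unfold glueVp
    split_ifs with h0 hKK
    · have : i = ⟨0, Nat.succ_pos K⟩ := Fin.ext h0
      rw [this]
      have e0 : eK D.q K 0 = 1 := eK_zero D.q K
      show _ ≤ _ ^ eK D.q K 0
      rw [e0, pow_one]
      exact E.a_ram
    · have : i = ⟨K, Nat.lt_succ_self K⟩ := Fin.ext hKK
      rw [this]
      have e0 : eK D.q K K = 1 := eK_self D.q K
      show _ ≤ _ ^ eK D.q K K
      rw [e0, pow_one]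
      exact E.b_ram
    · exact D.vp_ram H K i (Nat.pos_of_ne_zero h0)
        (lt_of_le_of_ne (Nat.lt_succ_iff.1 i.2) hKK)
  ϖ_indep := by
    intro i j hij
    have hij' : (j : ℕ) ≠ (i : ℕ) := fun h => hij (Fin.ext h.symm)
    unfold glueVp
    split_ifs with h0 hKK
    · exact E.a_indep j (Nat.lt_succ_iff.1 j.2) (by omega)
    · exact E.b_indep j (Nat.lt_succ_iff.1 j.2) (by omega)
    · exact D.vp_indep H K i j (Nat.pos_of_ne_zero h0)
        (lt_of_le_of_ne (Nat.lt_succ_iff.1 i.2) hKK) (Nat.lt_succ_iff.1 j.2) hij'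
  a_mem := by
    have : D.glueVp H K a b 0 = a := by simp [glueVp]
    rw [this]
    exact E.a_mem
  a_inv := by
    have : D.glueVp H K a b 0 = a := by simp [glueVp]
    rw [this]
    exact E.a_inv
  meet := E.meet
  gen₁ := by
    intro i hi 𝔪 h𝔪 h1 h2
    have h0 : 0 < (i : ℕ) := by
      rcases Nat.eq_zero_or_pos (i : ℕ) with h | h
      · exact absurd (by rw [h]; exact eK_zero D.q K) hi
      · exact h
    have hlt : (i : ℕ) < K := by
      have hle : (i : ℕ) ≤ K := Nat.lt_succ_iff.1 i.2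
      rcases Nat.lt_or_ge (i : ℕ) K with h | h
      · exact h
      · have : (i : ℕ) = K := le_antisymm hle h
        exact absurd (by rw [this]; exact eK_self D.q K) hi
    obtain ⟨y, c, hy, hc, hv⟩ := E.cong i h0 hlt
    exact D.gen₁_of_val H K i h0 hlt (D.sysT hK) 0 hy hc hv 𝔪 h𝔪 (E.meet 𝔪 h𝔪) h1 h2
  gen₂ := fun i hi 𝔪 h𝔪 ht h1 => D.gen₂T hK2 hK i hi 𝔪 h𝔪 ht h1

end CtxK

/-- **`HasDatumCtx` from `EndsMeet`.** -/
theorem hasDatumCtx_of_endsMeet
    (h : ∀ (D : CtxK) (K : ℕ) (hK : 1 ≤ K), aux D.q ∣ D.M → 3 ≤ K →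
      ∃ (H : HUnit D.M D.q) (a b : D.Fk K), D.EndsMeet H K hK a b) : HasDatumCtx :=
  hasDatumCtx_of_open fun D k haux hk => by
    obtain ⟨H, a, b, E⟩ := h D (k + 1) (Nat.succ_le_succ (Nat.zero_le k)) haux (by omega)
    have G := E.geoOpen (by omega) _
    exact ⟨_, G, D.normLeaves_of_ram (by omega) _ G.ϖ_lt G.ϖ_ram⟩

end Fermat.Agent.S45
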