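import Fermat.Agent.S45.Mod.Inst4
import Fermat.Agent.S45.Theta.HMem

/-!
# S45 / modular part : assembly, stage 5 : the ends `a = H_0`, `b = H_K` and the field `meet` (helper31's `Theta/HMem.lean`)
-/

set_option autoImplicit false
set_option linter.unusedSectionVars false

noncomputable section

open AlgebraicCurve ModularCurve

namespace Fermat.Agent.S45

open Fermat.Agent.RED hiding Kb
open Fermat.Agent.S24 Fermat.Agent.RED.TorsES
open Fermat.Agent.S36 Fermat.Agent.S36.Kum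

namespace CtxK

variable (D : CtxK) {M₀ : ℕ} [NeZero M₀] (W : Wt1 M₀) (hW : M₀ ∣ D.M)

theorem endsOnly_Hth (K : ℕ) (hK : 1 ≤ K) :
    D.EndsOnly K hK (D.Hth W hW K 0) (D.Hth W hW K K) where
  a_lt := by
    rw [D.val_Hth_self W hW (Nat.zero_le K) hK]
    exact D.valq_lt (Nat.zero_le K)
  a_ram := (D.val_Hth_self W hW (Nat.zero_le K) hK).ge
  a_indep := fun s hs h0 => D.val_Hth_other W hW hs (Nat.zero_le K) (Ne.symm h0)
  b_lt := by
    rw [D.val_Hth_self W hW le_rfl hK]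
    exact D.valq_lt le_rfl
  b_ram := (D.val_Hth_self W hW le_rfl hK).ge
  b_indep := fun s hs h0 => D.val_Hth_other W hW hs le_rfl (Ne.symm h0)
  a_mem := D.Hth_mem W hW (D.sysT hK) hK (Nat.zero_le K)
  a_inv := ⟨1, by
    rw [pow_one, D.q_div_Hth W hW]
    exact D.Hinv_mem W hW (D.sysT hK) hK (Nat.zero_le K)⟩
  meet := fun 𝔪 h𝔪 i j hij hi hj l => D.meet_Hth W hW (D.sysT hK) hK 𝔪 h𝔪 i j hij hi hj l

end CtxK

theorem exists_endsOnly (D : CtxK) (K : ℕ) (hK : 1 ≤ K) (haux : aux D.q ∣ D.M) :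
    ∃ a b : D.Fk K, D.EndsOnly K hK a b := by
  by_cases h2 : D.q = 2
  · rw [aux, if_pos h2] at haux
    exact ⟨_, _, D.endsOnly_Hth wt1Nine haux K hK⟩
  · rw [aux, if_neg h2] at haux
    exact ⟨_, _, D.endsOnly_Hth wt1Four haux K hK⟩

/-- the row S45 depends only on the congruence for `q` odd. -/
theorem hasDatumCtx_of_odd
    (hodd : ∀ (D : CtxK) (_ : D.q ≠ 2) (h4 : 4 ∣ D.M) (K s : ℕ) (_ : 0 < s) (hs : s < K),
      ∃ (y : D.Fk K) (c : D.R), y ∈ intCl D.R (D.t K) ∧ IsUnit c ∧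
        (D.OO K s hs.le).valuation
          (D.vp (hUnit4 D.M D.q h4) K s ^ eK D.q K s / (D.q : D.Fk K) * y
            - algebraMap D.R (D.Fk K) c) < 1) : HasDatumCtx :=
  hasDatumCtx_of_ends (fun D K hK haux _ => exists_endsOnly D K hK haux) hodd

end Fermat.Agent.S45
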