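import Fermat.Agent.S45.Kum.CtxWire

/-!
# S45 / modular part : the assembly of `GeomDatumK` / `NormDatumK` on `CtxK` from the leaves

`GeoLeaves D K fd` and `NormLeaves D k …` are the LITERAL statements that the leaves of MOD_k have to deliver
(upper level `K = k + 1 ≥ 3`, components `Fin (K + 1)`, `i₀ = 0`, `i₁ = 1`, `Iα = {s | 2 ≤ s}`, `Iβ = {s | s + 2 ≤ K}`).
-/

set_option autoImplicit false
set_option linter.unusedSectionVars false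
set_option linter.style.haveILetI false

noncomputable section

open AlgebraicCurve ModularCurve

namespace Fermat.Agent.S45

open Fermat.Agent.RED hiding Kb
open Fermat.Agent.S24 Fermat.Agent.RED.TorsES
open Fermat.Agent.S36 Fermat.Agent.S36.Kum

/-- the geometric leaves at the level `K`. -/
structure GeoLeaves (D : CtxK) (K : ℕ) (fd : Fin (K + 1) → ℕ) (ϖ : Fin (K + 1) → D.Fk K) : Prop where
  sys : GaussSys D.K ((D.q : ℕ) : D.R) (D.t K) (D.O K) (fun s => eK D.q K s) fd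
  ϖ_lt : ∀ i, (D.O K i).valuation (ϖ i) < 1
  ϖ_ram : ∀ i, (D.O K i).valuation (D.q : D.Fk K) ≤ (D.O K i).valuation (ϖ i) ^ eK D.q K i
  ϖ_indep : ∀ i j, i ≠ j → (D.O K j).valuation (ϖ i) = 1
  a_mem : ϖ 0 ∈ intCl D.R (D.t K)
  a_inv : ∃ n : ℕ, (D.q : D.Fk K) ^ n / ϖ 0 ∈ intCl D.R (D.t K)
  meet : ∀ 𝔪 : Ideal (intCl D.R (D.t K)), 𝔪.IsMaximal → ∀ i j, i ≠ j → sys.p i ≤ 𝔪 → sys.p j ≤ 𝔪 →
    ∀ l, sys.p l ≤ 𝔪
  gen₁ : ∀ i : Fin (K + 1), eK D.q K i ≠ 1 → ∀ 𝔪 : Ideal (intCl D.R (D.t K)), 𝔪.IsMaximal → sys.p i ≤ 𝔪 →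
    ¬ sys.p 0 ≤ 𝔪 →
    ∃ w : D.Fk K, (D.O K i).valuation w < 1 ∧ MemAt (intCl D.R (D.t K)) 𝔪 w ∧
      UnitAt (intCl D.R (D.t K)) 𝔪 (w ^ eK D.q K i / (D.q : D.Fk K))
  gen₂ : ∀ i : Fin (K + 1), eK D.q K i ≠ 1 → ∀ 𝔪 : Ideal (intCl D.R (D.t K)⁻¹), 𝔪.IsMaximal →
    tinvB D.R (D.t K) ∈ 𝔪 → (sys.inv D.irr).p i ≤ 𝔪 →
    ∃ w : D.Fk K, (D.O K i).valuation w < 1 ∧ MemAt (intCl D.R (D.t K)⁻¹) 𝔪 w ∧
      UnitAt (intCl D.R (D.t K)⁻¹) 𝔪 (w ^ eK D.q K i / (D.q : D.Fk K))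
  glob : ∀ x, x ∈ intCl D.R (D.t K) → x ∈ intCl D.R (D.t K)⁻¹ →
    x ∈ Set.range (algebraMap D.R (D.Fk K))
  ded₁ : ∀ i, IsDedekindDomain (intCl D.R (D.t K) ⧸ sys.p i)
  ded₂ : ∀ i, IsDedekindDomain (intCl D.R (D.t K)⁻¹ ⧸ (sys.inv D.irr).p i)
  sep : ∀ i j, i ≠ j → ∃ x ∈ intCl D.R (D.t K)⁻¹, (D.O K i).valuation x < 1 ∧
    (D.O K j).valuation (x - 1) < 1

theorem eK_zero' (q K : ℕ) : eK q K 0 = 1 := by simp [eK]

/-- the geometric datum from the leaves. -/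
def GeoLeaves.geom {D : CtxK} {K : ℕ} {fd : Fin (K + 1) → ℕ} {ϖ : Fin (K + 1) → D.Fk K}
    (L : GeoLeaves D K fd ϖ) : GeomDatumK D.R D.K (D.Fk K) (Fin (K + 1)) where
  q := D.q
  hq := D.hq
  irr := D.irr
  t := D.t K
  O := D.O K
  e := fun s => eK D.q K s
  fdeg := fd
  sys := L.sys
  ϖ := ϖ
  ϖ_lt := L.ϖ_lt
  ϖ_ram := L.ϖ_ram
  ϖ_indep := L.ϖ_indep
  i₀ := 0
  e₀ := eK_zero' D.q K
  a_mem := L.a_mem
  a_inv := L.a_inv
  meet := L.meet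
  gen₁ := L.gen₁
  gen₂ := L.gen₂
  glob := L.glob
  ded₁ := L.ded₁
  ded₂ := L.ded₂
  sep := L.sep

/-- the norm along an algebra hom, as a monoid hom. -/
def normHomAlong {K F F' : Type*} [Field K] [Field F] [Field F'] [Algebra K F] [Algebra K F']
    (ψ : F →ₐ[K] F') : F' →* F where
  toFun := normAlong ψ
  map_one' := by
    letI := algebraAlong ψ
    exact map_one (Algebra.norm F)
  map_mul' := normAlong_mul' ψ

/-- the norm leaves for the pair of levels `k → k + 1`. -/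
structure NormLeaves (D : CtxK) (k : ℕ) (ϖ : Fin (k + 2) → D.Fk (k + 1)) : Prop where
  Nα_const : ∀ c : D.K, normAlong (D.al k) (algebraMap D.K (D.Fk (k + 1)) c)
    = algebraMap D.K (D.Fk k) c ^ D.q
  Nβ_const : ∀ c : D.K, normAlong (D.be k) (algebraMap D.K (D.Fk (k + 1)) c)
    = algebraMap D.K (D.Fk k) c ^ D.q
  αN_mem : ∀ x ∈ intCl D.R (D.t (k + 1)), D.al k (normAlong (D.al k) x) ∈ intCl D.R (D.t (k + 1))
  βN_mem : ∀ x ∈ intCl D.R (D.t (k + 1)), D.be k (normAlong (D.be k) x) ∈ intCl D.R (D.t (k + 1))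
  redα : ∀ i : Fin (k + 2), 2 ≤ (i : ℕ) → ∀ u ∈ D.O (k + 1) i,
    (D.O (k + 1) i).valuation (D.al k (normAlong (D.al k) u) - u ^ D.q) < 1
  redβ : ∀ i : Fin (k + 2), (i : ℕ) + 2 ≤ k + 1 → ∀ u ∈ D.O (k + 1) i,
    (D.O (k + 1) i).valuation (D.be k (normAlong (D.be k) u) - u ^ D.q) < 1
  valα : ∀ i : Fin (k + 2), 2 ≤ (i : ℕ) → ∀ u : D.Fk (k + 1),
    (D.O (k + 1) i).valuation (D.al k (normAlong (D.al k) u)) = (D.O (k + 1) i).valuation u ^ D.q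
  valβ : ∀ i : Fin (k + 2), (i : ℕ) + 2 ≤ k + 1 → ∀ u : D.Fk (k + 1),
    (D.O (k + 1) i).valuation (D.be k (normAlong (D.be k) u)) = (D.O (k + 1) i).valuation u ^ D.q
  unitβ : ∀ u : D.Fk (k + 1), (∀ i, (D.O (k + 1) i).valuation u = 1) →
    ∀ i, (D.O (k + 1) i).valuation (D.be k (normAlong (D.be k) u)) = 1
  valmix : ∀ (u : D.Fk (k + 1)) (n₀ n₁ : ℤ),
    (D.O (k + 1) 0).valuation u = (D.O (k + 1) 0).valuation (ϖ 0) ^ n₀ →
    (D.O (k + 1) 1).valuation u = (D.O (k + 1) 1).valuation (ϖ 1) ^ n₁ →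
    (D.O (k + 1) 0).valuation (D.al k (normAlong (D.al k) u))
      = (D.O (k + 1) 0).valuation (ϖ 0) ^ (n₀ + n₁)
  onemix : ∀ u : D.Fk (k + 1), (D.O (k + 1) 0).valuation (u - 1) < 1 →
    (D.O (k + 1) 1).valuation (u - 1) < 1 →
    (D.O (k + 1) 0).valuation (D.al k (normAlong (D.al k) u) - 1) < 1 ∧
      (D.O (k + 1) 1).valuation (D.al k (normAlong (D.al k) u) - 1) < 1

theorem eK_one' {q K : ℕ} (hq : q.Prime) (hK : 2 ≤ K) : eK q K 1 + 1 = q := by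
  have h : min 1 (K - 1) = 1 := by omega
  rw [eK, h, pow_one, Nat.totient_prime hq]
  have := hq.one_lt
  omega

/-- the norm datum from the leaves. -/
def NormLeaves.norm {D : CtxK} {k : ℕ} (hk : 2 ≤ k) {fd : Fin (k + 2) → ℕ}
    {ϖ : Fin (k + 2) → D.Fk (k + 1)} (L : GeoLeaves D (k + 1) fd ϖ) (H : NormLeaves D k ϖ) :
    NormDatumK L.geom (D.Fk k) where
  α := D.al k
  β := D.be k
  Nα := normHomAlong (D.al k)
  Nβ := normHomAlong (D.be k)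
  Nα_const := H.Nα_const
  Nβ_const := H.Nβ_const
  αN_mem := H.αN_mem
  βN_mem := H.βN_mem
  Iα := {s | 2 ≤ (s : ℕ)}
  Iβ := {s | (s : ℕ) + 2 ≤ k + 1}
  i₁ := 1
  e₁ := by
    have h1 : ((1 : Fin (k + 2)) : ℕ) = 1 := by
      rw [Fin.val_one']; exact Nat.mod_eq_of_lt (by omega)
    show eK D.q (k + 1) ((1 : Fin (k + 2)) : ℕ) + 1 = D.q
    rw [h1]
    exact eK_one' D.hq (by omega)
  i₀₁ := by
    show (0 : Fin (k + 2)) ≠ 1
    intro h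
    have := congrArg Fin.val h
    rw [Fin.val_one', Fin.val_zero, Nat.mod_eq_of_lt (by omega)] at this
    omega
  neα := ⟨⟨2, by omega⟩, le_refl 2⟩
  coverα := by
    intro i
    by_cases h : 2 ≤ (i : ℕ)
    · exact Or.inl h
    · right
      rcases Nat.lt_or_ge (i : ℕ) 1 with h0 | h1
      · left
        apply Fin.ext
        show (i : ℕ) = ((0 : Fin (k + 2)) : ℕ)
        rw [Fin.val_zero]; omega
      · right
        apply Fin.ext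
        rw [Fin.val_one', Nat.mod_eq_of_lt (by omega)]
        omega
  i₀β := by
    show ((0 : Fin (k + 2)) : ℕ) + 2 ≤ k + 1
    rw [Fin.val_zero]; omega
  i₁β := by
    show ((1 : Fin (k + 2)) : ℕ) + 2 ≤ k + 1
    rw [Fin.val_one', Nat.mod_eq_of_lt (by omega)]; omega
  redα := H.redα
  redβ := H.redβ
  valα := H.valα
  valβ := H.valβ
  unitβ := H.unitβ
  valmix := H.valmix
  onemix := H.onemix

/-- **`HasDatumCtx` from the leaves.** -/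
theorem hasDatumCtx_of_leaves
    (h : ∀ (D : CtxK) (k : ℕ), aux D.q ∣ D.M → 2 ≤ k →
      ∃ (fd : Fin (k + 2) → ℕ) (ϖ : Fin (k + 2) → D.Fk (k + 1)),
        GeoLeaves D (k + 1) fd ϖ ∧ NormLeaves D k ϖ) : HasDatumCtx := by
  intro D k haux hk
  obtain ⟨fd, ϖ, L, H⟩ := h D k haux hk
  exact ⟨L.geom, H.norm hk L, rfl, fun _ => rfl, fun _ => rfl⟩

end Fermat.Agent.S45
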