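import Fermat.Agent.S36.Haupt.Val

/-!
# S45 / Mod / J2 : `w_J = -Dj/j = E₆/E₄ ≡ 1 mod 2`

For `q = 2` the element `1 - j(q^a τ)/j(q^b τ)` is a local generator of the middle components at EVERY closed point which is not
supersingular: its leading term `w_J` reduces to the constant `1` in characteristic `2`.

* `two_dvd_thD_jNum_inv` : `C 2 ∣ θ (1/jNum)`;
* `wJ_eq_one_add_two_mul` : `∃ r, wJ = 1 + C 2 * r`;
* `map_wJ_of_two_eq_zero`  : `wJ.map (Int.castRingHom k) = 1` if `2 = 0` in `k`;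
* `castLS_wJS_of_two_eq_zero` : `castLS k wJS = 1`.
-/

set_option autoImplicit false

open PowerSeries ModularCurve

namespace Fermat.Agent.S45

open Fermat.Agent.S36 Fermat.Agent.S28

/-- a power series all of whose coefficients are divisible by `a` is divisible by `C a`. -/
theorem C_dvd_of_forall_dvd_coeff {a : ℤ} {f : PowerSeries ℤ} (h : ∀ n, a ∣ coeff n f) :
    (C a : PowerSeries ℤ) ∣ f := by
  choose g hg using h
  refine ⟨PowerSeries.mk g, ?_⟩
  ext n
  rw [coeff_C_mul, coeff_mk, hg n]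

theorem two_dvd_thD_eisenstein4 : (C 2 : PowerSeries ℤ) ∣ thD eisenstein4 := by
  refine C_dvd_of_forall_dvd_coeff fun n => ?_
  rw [coeff_thD, eisenstein4, coeff_mk]
  split_ifs with h
  · subst h
    simp
  · exact Dvd.dvd.mul_left (Dvd.dvd.mul_right (by norm_num) _) _

/-- `(1/jNum) * E₄³ = ∏ (1 - Xⁿ)^24`. -/
theorem jNum_inv_mul_eisenstein4 :
    jNum.invOfUnit 1 * eisenstein4 ^ 3 = etaProd ^ 24 := by
  have h1 : jNum * dedekindEtaUnit = eisenstein4 ^ 3 := by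
    rw [jNum, mul_assoc, mul_comm dedekindEtaUnitInv, dedekindEtaUnit_mul_inv, mul_one]
  rw [← h1, ← mul_assoc, mul_comm (jNum.invOfUnit 1), jNum_mul_inv, one_mul, dedekindEtaUnit]

theorem isUnit_eisenstein4 : IsUnit eisenstein4 := by
  rw [PowerSeries.isUnit_iff_constantCoeff, constantCoeff_eisenstein4]
  exact isUnit_one

/-- `C 2 ∣ θ (1/jNum)`. -/
theorem two_dvd_thD_jNum_inv : (C 2 : PowerSeries ℤ) ∣ thD (jNum.invOfUnit 1) := by
  have h := congrArg thD jNum_inv_mul_eisenstein4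
  rw [thD_mul, thD_pow eisenstein4 2, thD_pow etaProd 23] at h
  -- `E₄³ θ g = 24 (..) - g * 3 E₄² θ E₄`
  have h1 : (C 2 : PowerSeries ℤ) ∣ C (((23 : ℕ) : ℤ) + 1) * etaProd ^ 23 * thD etaProd := by
    refine Dvd.dvd.mul_right (Dvd.dvd.mul_right ?_ _) _
    exact ⟨C 12, by rw [← map_mul]; norm_num⟩
  have h2 : (C 2 : PowerSeries ℤ) ∣
      jNum.invOfUnit 1 * (C (((2 : ℕ) : ℤ) + 1) * eisenstein4 ^ 2 * thD eisenstein4) :=
    Dvd.dvd.mul_left (Dvd.dvd.mul_left two_dvd_thD_eisenstein4 _) _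
  have h3 : (C 2 : PowerSeries ℤ) ∣ eisenstein4 ^ 3 * thD (jNum.invOfUnit 1) := by
    have e : eisenstein4 ^ 3 * thD (jNum.invOfUnit 1) =
        C (((23 : ℕ) : ℤ) + 1) * etaProd ^ 23 * thD etaProd -
          jNum.invOfUnit 1 * (C (((2 : ℕ) : ℤ) + 1) * eisenstein4 ^ 2 * thD eisenstein4) := by
      rw [← h]; ring
    rw [e]
    exact dvd_sub h1 h2
  exact ((isUnit_eisenstein4.pow 3).dvd_mul_left).1 h3

/-- **[J2]** `w_J ≡ 1 mod 2`. -/
theorem wJ_eq_one_add_two_mul : ∃ r : PowerSeries ℤ, wJ = 1 + C 2 * r := by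
  obtain ⟨r, hr⟩ := two_dvd_thD_jNum_inv
  exact ⟨r * jNum, by rw [wJ, hr]; ring⟩

theorem map_wJ_of_two_eq_zero (k : Type*) [CommRing k] (h2 : (2 : k) = 0) :
    wJ.map (Int.castRingHom k) = 1 := by
  obtain ⟨r, hr⟩ := wJ_eq_one_add_two_mul
  rw [hr, map_add, map_mul, map_one, PowerSeries.map_C]
  have : (Int.castRingHom k) 2 = 0 := by simpa using h2
  rw [this, map_zero, zero_mul, add_zero]

theorem castLS_wJS_of_two_eq_zero (k : Type*) [CommRing k] (h2 : (2 : k) = 0) :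
    castLS k wJS = 1 := by
  rw [castLS_wJS, map_wJ_of_two_eq_zero k h2, map_one]

end Fermat.Agent.S45
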