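import Fermat.Agent.S45.Theta.RedK
import Fermat.Agent.S45.Abs.MeetAbs
import Fermat.Agent.S45.Mod.RamK

/-!
# S45 / modular part : the chain of step functions `u i = G(q^i τ)/G(q^(i+1) τ)` on `CtxK` (second source, helper24)

`D.uQ W hW K i = th K i (i+1)`, `D.uQ' W hW K i = q * th K (i+1) i`; `Ab = Gbar / Gbar ^ q`.
* `redsTo_uQ` (`i < K - s`) : `red_s (u i) = Ab ^ (q ^ nK K s i)`;
* `redsTo_uQ'` (`K - s ≤ i < K`) : `red_s (u' i) = χ Ab ^ (q ^ nK K s (i+1))`;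
* `uChainQ` : helper65's `UChain`; `meetQ` : the field `meet`.
-/

set_option autoImplicit false
set_option linter.unusedSectionVars false
noncomputable section

open ModularCurve
open Fermat.Agent.S24 Fermat.Agent.S36 Fermat.Agent.RED.Gauss

namespace Fermat.Agent.S45

namespace CtxK

variable (D : CtxK) {M₀ : ℕ} [NeZero M₀] (W : Wt1 M₀) (hW : M₀ ∣ D.M)

/-- `G(q^i τ)/G(q^(i+1) τ)` -/
def uQ (K i : ℕ) : D.Fk K := D.th W hW K i (i + 1)

/-- `q G(q^(i+1) τ)/G(q^i τ)` -/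
def uQ' (K i : ℕ) : D.Fk K := ((D.q : ℕ) : D.Fk K) * D.th W hW K (i + 1) i

/-- `Gbar / Gbar ^ q` -/
def AbQ : LaurentSeries D.k := W.GL D.k * W.GLinv D.k ^ D.q

theorem AbQ_ne_zero : D.AbQ W ≠ 0 := by
  have h1 : W.GLinv D.k ≠ 0 := right_ne_zero_of_mul_eq_one (W.GL_mul_GLinv D.k)
  exact mul_ne_zero (W.GL_ne_zero D.k) (pow_ne_zero _ h1)

theorem AbQ_pow (n : ℕ) :
    D.AbQ W ^ (D.q ^ n) = W.GL D.k ^ (D.q ^ n) * W.GLinv D.k ^ (D.q ^ (n + 1)) := by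
  rw [AbQ, mul_pow, ← pow_mul, pow_succ, mul_comm D.q]

theorem uQ_mul_uQ' (K i : ℕ) : D.uQ W hW K i * D.uQ' W hW K i = ((D.q : ℕ) : D.Fk K) := by
  rw [uQ, uQ', mul_left_comm, D.th_mul_swap, mul_one]

theorem redsTo_uQ {K s i : ℕ} (hs : s ≤ K) (hi : i < K - s) :
    RedsTo D.π (D.e K s (D.uQ W hW K i)) (D.AbQ W ^ (D.q ^ nK K s i)) := by
  have h := D.redsTo_th W hW hs (i := i) (i' := i + 1) (by omega) (by omega)
  rw [Nat.sub_eq_zero_of_le (show i ≤ K - s by omega),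
    Nat.sub_eq_zero_of_le (show i + 1 ≤ K - s by omega), pow_zero, pow_zero, div_one, one_mul,
    one_mul, nK_succ_of_lt hi, ← D.AbQ_pow W] at h
  exact h

theorem chiS_pow_oddQ (n : ℕ) : W.chiS D.k D.q ^ (2 * n + 1) = W.chiS D.k D.q := by
  rw [pow_succ, pow_mul, sq, W.chiS_mul_self, one_pow, one_mul]

theorem redsTo_uQ' {K s i : ℕ} (hs : s ≤ K) (hi : K - s ≤ i) (hiK : i < K) :
    RedsTo D.π (D.e K s (D.uQ' W hW K i))
      (W.chiS D.k D.q * D.AbQ W ^ (D.q ^ nK K s (i + 1))) := by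
  have h := D.redsTo_th W hW hs (i := i + 1) (i' := i) (by omega) (by omega)
  have e1 : i + 1 - (K - s) = (i - (K - s)) + 1 := by omega
  have hq0 := D.natCast_Fk_ne_zero K
  have e2 : ((D.q : ℕ) : D.Fk K) ^ (i - (K - s) + 1) / ((D.q : ℕ) : D.Fk K) ^ (i - (K - s))
      = ((D.q : ℕ) : D.Fk K) := by
    rw [pow_succ, mul_div_assoc, mul_comm, div_mul_cancel₀ _ (pow_ne_zero _ hq0)]
  have e3 : i - (K - s) + 1 + (i - (K - s)) = 2 * (i - (K - s)) + 1 := by ring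
  rw [e1, e2, e3, D.chiS_pow_oddQ W, nK_succ_of_le hs hi hiK, ← D.AbQ_pow W] at h
  exact h

theorem chiS_pow_qQ : W.chiS D.k D.q ^ D.q = W.chiS D.k D.q := by
  have h := W.chiS_pow_char (k := D.k) D.q D.hq
  have e : W.chiS D.k D.q ^ D.q = W.chiS D.k D.q ^ (D.q - 1) * W.chiS D.k D.q := by
    rw [← pow_succ, Nat.sub_add_cancel D.hq.pos]
  rw [e, h, one_mul]

/-! ### valuations -/

theorem val_uQ {K s i : ℕ} (hs : s ≤ K) (hi : i < K - s) :
    (D.OO K s hs).valuation (D.uQ W hW K i) = 1 :=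
  D.val_eq_one hs (D.redsTo_uQ W hW hs hi) (pow_ne_zero _ (D.AbQ_ne_zero W))

theorem val_uQ' {K s i : ℕ} (hs : s ≤ K) (hi : K - s ≤ i) (hiK : i < K) :
    (D.OO K s hs).valuation (D.uQ' W hW K i) = 1 :=
  D.val_eq_one hs (D.redsTo_uQ' W hW hs hi hiK)
    (mul_ne_zero (W.chiS_ne_zero D.q D.k) (pow_ne_zero _ (D.AbQ_ne_zero W)))

theorem val_uQ_le {K s i : ℕ} (hs : s ≤ K) (hiK : i < K) :
    (D.OO K s hs).valuation (D.uQ W hW K i) ≤ 1 := by
  rcases Nat.lt_or_ge i (K - s) with h | h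
  · exact (D.val_uQ W hW hs h).le
  · have h1 := congrArg (D.OO K s hs).valuation (D.uQ_mul_uQ' W hW K i)
    rw [map_mul, D.val_uQ' W hW hs h hiK, mul_one] at h1
    rw [h1]
    exact (D.valq_lt hs).le

theorem val_uQ'_le {K s i : ℕ} (hs : s ≤ K) (hiK : i < K) :
    (D.OO K s hs).valuation (D.uQ' W hW K i) ≤ 1 := by
  rcases Nat.lt_or_ge i (K - s) with h | h
  · have h1 := congrArg (D.OO K s hs).valuation (D.uQ_mul_uQ' W hW K i)
    rw [map_mul, D.val_uQ W hW hs h, one_mul] at h1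
    rw [h1]
    exact (D.valq_lt hs).le
  · exact (D.val_uQ' W hW hs h hiK).le

theorem uQ_mem {K : ℕ} (hK : 1 ≤ K) {i : ℕ} (hiK : i < K) :
    D.uQ W hW K i ∈ intCl D.R (D.t K) :=
  D.mem_B1_of (D.sysT hK) (fun s => D.val_uQ_le W hW (Nat.lt_succ_iff.1 s.2) hiK)
    (D.isIntegral_th W hW K _ _)

theorem uQ'_mem {K : ℕ} (hK : 1 ≤ K) {i : ℕ} (hiK : i < K) :
    D.uQ' W hW K i ∈ intCl D.R (D.t K) :=
  D.mem_B1_of (D.sysT hK) (fun s => D.val_uQ'_le W hW (Nat.lt_succ_iff.1 s.2) hiK)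
    (isIntegral_mul_abs (D.j K 0) (D.isIntegral_natCast K D.q) (D.isIntegral_th W hW K _ _))

/-- **helper65's `UChain` on `CtxK`.** -/
theorem uChainQ {K : ℕ} (hK : 1 ≤ K) :
    UChain D.R ((D.q : ℕ) : D.R) (D.t K) (D.O K) D.q K (fun s : Fin (K + 1) => K - (s : ℕ))
      (D.uQ W hW K) (D.uQ' W hW K) where
  le := fun s => Nat.sub_le _ _
  inj := fun s s' h => by
    have h1 := Nat.lt_succ_iff.1 s.2
    have h2 := Nat.lt_succ_iff.1 s'.2
    apply Fin.ext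
    simp only at h
    omega
  mem := fun i hi => D.uQ_mem W hW hK hi
  mem' := fun i hi => D.uQ'_mem W hW hK hi
  mul := fun i _ => by rw [map_natCast]; exact D.uQ_mul_uQ' W hW K i
  valF := fun s i hi => D.val_uQ W hW (Nat.lt_succ_iff.1 s.2) hi
  valV := fun s i hi hiK => D.val_uQ' W hW (Nat.lt_succ_iff.1 s.2) hi hiK
  relF := fun s i hi => by
    have hs := Nat.lt_succ_iff.1 s.2
    apply D.val_lt_one hs
    have t := (D.redsTo_uQ W hW hs hi).sub ((D.redsTo_uQ W hW hs (i := i) (by omega)).pow D.q)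
    rw [nK_succ_of_lt (show i < K - (s : ℕ) by omega), ← pow_mul, ← pow_succ, sub_self, ← map_pow,
      ← map_sub] at t
    exact t
  relV := fun s i hi hiK => by
    have hs := Nat.lt_succ_iff.1 s.2
    apply D.val_lt_one hs
    have t := (D.redsTo_uQ' W hW hs hi (by omega)).sub
      ((D.redsTo_uQ' W hW hs (i := i + 1) (by omega) hiK).pow D.q)
    rw [nK_succ_of_le hs (show K - (s : ℕ) ≤ i + 1 by omega) hiK, mul_pow, D.chiS_pow_qQ W,
      ← pow_mul, ← pow_succ, sub_self, ← map_pow, ← map_sub] at t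
    exact t
  relT := fun s h0 hlt => by
    have hs := Nat.lt_succ_iff.1 s.2
    refine ⟨((W.χ (D.q : ℤ) : ℤ) : D.R), ?_, ?_⟩
    · refine IsUnit.of_mul_eq_one ((W.χ (D.q : ℤ) : ℤ) : D.R) ?_
      rw [← Int.cast_mul, W.chi_sq, Int.cast_one]
    · apply D.val_lt_one hs
      have hc : RedsTo D.π (D.e K s (algebraMap D.R (D.Fk K) ((W.χ (D.q : ℤ) : ℤ) : D.R)))
          (W.chiS D.k D.q) := by
        rw [map_intCast, map_intCast]
        exact D.redsTo_chiS W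
      have t := (D.redsTo_uQ' W hW hs le_rfl hlt).sub
        (hc.mul (D.redsTo_uQ W hW hs (i := K - (s : ℕ) - 1) (by omega)))
      have e1 : nK K s (K - (s : ℕ) + 1) = nK K s (K - (s : ℕ) - 1) := by
        have h1 := nK_succ_of_le hs (le_refl (K - (s : ℕ))) hlt
        have h2 := nK_succ_of_lt (k := K) (s := s) (i := K - (s : ℕ) - 1) (by omega)
        rw [show K - (s : ℕ) - 1 + 1 = K - (s : ℕ) by omega] at h2
        omega
      rw [e1, sub_self, ← map_mul, ← map_sub] at t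
      exact t

include W hW in
/-- **the field `meet`.** -/
theorem meetQ {K : ℕ} (hK : 1 ≤ K) (𝔪 : Ideal (intCl D.R (D.t K))) (h𝔪 : 𝔪.IsMaximal)
    (i j : Fin (K + 1)) (hij : i ≠ j) (hi : (D.sysT hK).p i ≤ 𝔪) (hj : (D.sysT hK).p j ≤ 𝔪)
    (l : Fin (K + 1)) : (D.sysT hK).p l ≤ 𝔪 :=
  (D.uChainQ W hW hK).meet D.irr (D.sysT hK) D.hq.two_le hK 𝔪 h𝔪.isPrime i j hij hi hj l

/-! ### the two ends: `a = q G(q^K τ)/G(q^(K-1) τ)`, `b = G(τ)/G(q τ)` -/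

/-- `a` -/
def endAQ (K : ℕ) : D.Fk K := D.uQ' W hW K (K - 1)

/-- `b` -/
def endBQ (K : ℕ) : D.Fk K := D.uQ W hW K 0

theorem val_endAQ {K : ℕ} (hK : 1 ≤ K) :
    (D.OO K 0 (Nat.zero_le K)).valuation (D.endAQ W hW K)
      = (D.OO K 0 (Nat.zero_le K)).valuation ((D.q : ℕ) : D.Fk K) := by
  have h1 := congrArg (D.OO K 0 (Nat.zero_le K)).valuation (D.uQ_mul_uQ' W hW K (K - 1))
  rwa [map_mul, D.val_uQ W hW (Nat.zero_le K) (by omega), one_mul] at h1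

theorem val_endBQ {K : ℕ} (hK : 1 ≤ K) :
    (D.OO K K le_rfl).valuation (D.endBQ W hW K)
      = (D.OO K K le_rfl).valuation ((D.q : ℕ) : D.Fk K) := by
  have h1 := congrArg (D.OO K K le_rfl).valuation (D.uQ_mul_uQ' W hW K 0)
  rwa [map_mul, D.val_uQ' W hW le_rfl (by omega) (by omega), mul_one] at h1

theorem endAQ_lt {K : ℕ} (hK : 1 ≤ K) :
    (D.OO K 0 (Nat.zero_le K)).valuation (D.endAQ W hW K) < 1 := by
  rw [D.val_endAQ W hW hK]; exact D.valq_lt _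

theorem endAQ_ram {K : ℕ} (hK : 1 ≤ K) :
    (D.OO K 0 (Nat.zero_le K)).valuation (D.q : D.Fk K)
      ≤ (D.OO K 0 (Nat.zero_le K)).valuation (D.endAQ W hW K) := (D.val_endAQ W hW hK).ge

theorem endAQ_indep {K : ℕ} (hK : 1 ≤ K) (s : ℕ) (hs : s ≤ K) (h0 : s ≠ 0) :
    (D.OO K s hs).valuation (D.endAQ W hW K) = 1 :=
  D.val_uQ' W hW hs (by omega) (by omega)

theorem endBQ_lt {K : ℕ} (hK : 1 ≤ K) :
    (D.OO K K le_rfl).valuation (D.endBQ W hW K) < 1 := by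
  rw [D.val_endBQ W hW hK]; exact D.valq_lt _

theorem endBQ_ram {K : ℕ} (hK : 1 ≤ K) :
    (D.OO K K le_rfl).valuation (D.q : D.Fk K)
      ≤ (D.OO K K le_rfl).valuation (D.endBQ W hW K) := (D.val_endBQ W hW hK).ge

theorem endBQ_indep {K : ℕ} (s : ℕ) (hs : s ≤ K) (h0 : s ≠ K) :
    (D.OO K s hs).valuation (D.endBQ W hW K) = 1 :=
  D.val_uQ W hW hs (by omega)

theorem endAQ_mem {K : ℕ} (hK : 1 ≤ K) : D.endAQ W hW K ∈ intCl D.R (D.t K) :=
  D.uQ'_mem W hW hK (by omega)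

theorem endAQ_inv {K : ℕ} (hK : 1 ≤ K) :
    ∃ n : ℕ, (D.q : D.Fk K) ^ n / D.endAQ W hW K ∈ intCl D.R (D.t K) := by
  refine ⟨1, ?_⟩
  have h := D.uQ_mul_uQ' W hW K (K - 1)
  have h0 : D.uQ' W hW K (K - 1) ≠ 0 := by
    intro h1
    rw [h1, mul_zero] at h
    exact D.natCast_Fk_ne_zero K h.symm
  have e : (D.q : D.Fk K) ^ 1 / D.endAQ W hW K = D.uQ W hW K (K - 1) := by
    rw [pow_one, endAQ, ← h, mul_div_assoc, div_self h0, mul_one]
  rw [e]
  exact D.uQ_mem W hW hK (by omega)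

end CtxK

end Fermat.Agent.S45
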