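import Fermat.Agent.S45.Abs.MeetAbs
import Fermat.Agent.S45.Theta.StepK
import Fermat.Agent.S45.Theta.RedK
import Fermat.Agent.S45.Mod.RamK
import Fermat.Agent.S36.Theta.Inst
import Fermat.Agent.RED.S37.Defs

/-!
# S45 / [MODK-MEET] part 2 : the chain of the step functions on `CtxK`; the fields `meet`, `a_mem`, `a_inv` and the
two end uniformisers `ϖ 0 = a = q G(q^K τ)/G(q^(K-1) τ)`, `ϖ K = b = G(τ)/G(q τ)`.
-/

set_option autoImplicit false
set_option linter.unusedSectionVars false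
noncomputable section

open ModularCurve

namespace Fermat.Agent.S45

open Fermat.Agent.S24 Fermat.Agent.S36 Fermat.Agent.RED.Gauss Fermat.Agent.GAL.AD

namespace CtxK

variable (D : CtxK) {M₀ : ℕ} [NeZero M₀] (W : Wt1 M₀) (hM : M₀ ∣ D.M)

theorem chb_pow_q : D.chb W ^ D.q = D.chb W := by
  have h := W.chiS_pow_char (k := D.k) D.q D.hq
  have hq := D.hq.pos
  calc D.chb W ^ D.q = D.chb W ^ (D.q - 1 + 1) := by rw [Nat.sub_add_cancel hq]
    _ = D.chb W := by rw [pow_succ, chb, h, one_mul]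

theorem isIntegral_uK {k i : ℕ} (hi : i < k) :
    IsIntegral (Algebra.adjoin D.K {D.j k 0}) (D.uK W hM k i) := by
  rw [uK, D.ratK_eq W hM hi.le hi]
  exact W.isIntegral_rat0 D.A _ _ _ _ _ _ (D.embF0_j_zero k)

theorem isIntegral_uK' {k i : ℕ} (hi : i < k) :
    IsIntegral (Algebra.adjoin D.K {D.j k 0}) (D.uK' W hM k i) := by
  rw [uK', D.ratK_eq W hM hi hi.le]
  have h : IsIntegral (Algebra.adjoin D.K {D.j k 0})
      (W.rat0 D.A (lv D.M D.q k) (D.q ^ (i + 1)) (D.q ^ i) (lvl_dvdK D.q hM hi)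
        (lvl_dvdK D.q hM hi.le)) :=
    W.isIntegral_rat0 D.A _ _ _ _ _ _ (D.embF0_j_zero k)
  exact isIntegral_mul_abs (D.j k 0) (D.isIntegral_natCast k D.q) h

theorem val_uK_F {k s i : ℕ} (hs : s ≤ k) (hi : i < k - s) :
    (D.OO k s hs).valuation (D.uK W hM k i) = 1 :=
  D.val_eq_one hs ((D.redsTo_step W hM k (by omega) s hs i (by omega)).1 hi)
    (pow_ne_zero _ (D.Ab_ne_zero W))

theorem val_uK'_V {k s i : ℕ} (hs : s ≤ k) (hi : k - s ≤ i) (hik : i < k) :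
    (D.OO k s hs).valuation (D.uK' W hM k i) = 1 :=
  D.val_eq_one hs ((D.redsTo_step W hM k (by omega) s hs i hik).2 hi)
    (mul_ne_zero (D.chb_ne_zero W) (pow_ne_zero _ (D.Ab_ne_zero W)))

theorem val_uK'_F {k s i : ℕ} (hs : s ≤ k) (hi : i < k - s) :
    (D.OO k s hs).valuation (D.uK' W hM k i) = (D.OO k s hs).valuation ((D.q : ℕ) : D.Fk k) := by
  have := congrArg (D.OO k s hs).valuation (D.uK_mul W hM (k := k) (i := i) (by omega))
  rwa [map_mul, D.val_uK_F W hM hs hi, one_mul] at this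

theorem val_uK_V {k s i : ℕ} (hs : s ≤ k) (hi : k - s ≤ i) (hik : i < k) :
    (D.OO k s hs).valuation (D.uK W hM k i) = (D.OO k s hs).valuation ((D.q : ℕ) : D.Fk k) := by
  have := congrArg (D.OO k s hs).valuation (D.uK_mul W hM (k := k) (i := i) hik)
  rwa [map_mul, D.val_uK'_V W hM hs hi hik, mul_one] at this

theorem val_uK_le {k s i : ℕ} (hs : s ≤ k) (hik : i < k) :
    (D.OO k s hs).valuation (D.uK W hM k i) ≤ 1 := by
  rcases Nat.lt_or_ge i (k - s) with h | h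
  · exact (D.val_uK_F W hM hs h).le
  · rw [D.val_uK_V W hM hs h hik]; exact (D.valq_lt hs).le

theorem val_uK'_le {k s i : ℕ} (hs : s ≤ k) (hik : i < k) :
    (D.OO k s hs).valuation (D.uK' W hM k i) ≤ 1 := by
  rcases Nat.lt_or_ge i (k - s) with h | h
  · rw [D.val_uK'_F W hM hs h]; exact (D.valq_lt hs).le
  · exact (D.val_uK'_V W hM hs h hik).le

theorem uK_mem {k : ℕ} {e f : Fin (k + 1) → ℕ}
    (S : GaussSys D.K ((D.q : ℕ) : D.R) (D.t k) (D.O k) e f) {i : ℕ} (hi : i < k) :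
    D.uK W hM k i ∈ intCl D.R (D.t k) :=
  D.mem_B1_of S (fun _ => D.val_uK_le W hM _ hi) (D.isIntegral_uK W hM hi)

theorem uK'_mem {k : ℕ} {e f : Fin (k + 1) → ℕ}
    (S : GaussSys D.K ((D.q : ℕ) : D.R) (D.t k) (D.O k) e f) {i : ℕ} (hi : i < k) :
    D.uK' W hM k i ∈ intCl D.R (D.t k) :=
  D.mem_B1_of S (fun _ => D.val_uK'_le W hM _ hi) (D.isIntegral_uK' W hM hi)

theorem relF_uK {k s i : ℕ} (hs : s ≤ k) (hi : i + 1 < k - s) :
    (D.OO k s hs).valuation (D.uK W hM k (i + 1) - D.uK W hM k i ^ D.q) < 1 := by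
  apply D.val_lt_one hs
  have h1 := (D.redsTo_step W hM k (by omega) s hs (i + 1) (by omega)).1 hi
  have h2 := (D.redsTo_step W hM k (by omega) s hs i (by omega)).1 (by omega)
  have h3 := h1.sub (h2.pow D.q)
  rw [nK_succ_of_lt (show i < k - s by omega), ← pow_mul, ← pow_succ, sub_self] at h3
  rw [map_sub, map_pow]
  exact h3

theorem relV_uK {k s i : ℕ} (hs : s ≤ k) (hi : k - s ≤ i) (hik : i + 1 < k) :
    (D.OO k s hs).valuation (D.uK' W hM k i - D.uK' W hM k (i + 1) ^ D.q) < 1 := by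
  apply D.val_lt_one hs
  have h1 := (D.redsTo_step W hM k (by omega) s hs i (by omega)).2 hi
  have h2 := (D.redsTo_step W hM k (by omega) s hs (i + 1) hik).2 (by omega)
  have h3 := h1.sub (h2.pow D.q)
  rw [nK_succ_of_le hs (show k - s ≤ i + 1 by omega) hik, mul_pow, D.chb_pow_q W, ← pow_mul,
    ← pow_succ, sub_self] at h3
  rw [map_sub, map_pow]
  exact h3

theorem relT_uK {k s : ℕ} (hs : s ≤ k) (h0 : 0 < k - s) (h1 : k - s < k) :
    (D.OO k s hs).valuation (D.uK' W hM k (k - s)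
      - algebraMap D.R (D.Fk k) (((W.χ (D.q : ℤ) : ℤ)) : D.R) * D.uK W hM k (k - s - 1)) < 1 := by
  apply D.val_lt_one hs
  have a1 := (D.redsTo_step W hM k (by omega) s hs (k - s) h1).2 le_rfl
  have a2 := (D.redsTo_step W hM k (by omega) s hs (k - s - 1) (by omega)).1 (by omega)
  have a3 := a1.sub ((D.redsTo_chiS W).mul a2)
  have e1 : nK k s (k - s + 1) = nK k s (k - s - 1) := by
    unfold nK
    split_ifs <;> omega
  rw [e1, chb, sub_self] at a3
  rw [map_sub, map_mul, map_intCast, map_intCast]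
  exact a3

/-- **the chain of the step functions.** -/
theorem uChain {k : ℕ} {e f : Fin (k + 1) → ℕ}
    (S : GaussSys D.K ((D.q : ℕ) : D.R) (D.t k) (D.O k) e f) :
    UChain D.R ((D.q : ℕ) : D.R) (D.t k) (D.O k) D.q k (fun s : Fin (k + 1) => k - (s : ℕ))
      (D.uK W hM k) (D.uK' W hM k) where
  le := fun s => Nat.sub_le _ _
  inj := by
    intro s s' h
    have h1 := Nat.lt_succ_iff.1 s.2
    have h2 := Nat.lt_succ_iff.1 s'.2
    apply Fin.ext
    have h' : k - (s : ℕ) = k - (s' : ℕ) := h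
    omega
  mem := fun i hi => D.uK_mem W hM S hi
  mem' := fun i hi => D.uK'_mem W hM S hi
  mul := fun i hi => by rw [D.uK_mul W hM hi, map_natCast]
  valF := fun s i hi => D.val_uK_F W hM _ hi
  valV := fun s i hi hik => D.val_uK'_V W hM _ hi hik
  relF := fun s i hi => D.relF_uK W hM _ hi
  relV := fun s i hi hik => D.relV_uK W hM _ hi hik
  relT := fun s h0 h1 => ⟨((W.χ (D.q : ℤ) : ℤ) : D.R),
    IsUnit.of_mul_eq_one _ (by rw [← Int.cast_mul, W.chi_sq, Int.cast_one]),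
    D.relT_uK W hM _ h0 h1⟩

include W hM in
/-- **the field `meet`** for any Gauss system. -/
theorem meet_of_sys {k : ℕ} (hk : 1 ≤ k) {e f : Fin (k + 1) → ℕ}
    (S : GaussSys D.K ((D.q : ℕ) : D.R) (D.t k) (D.O k) e f)
    (𝔪 : Ideal (intCl D.R (D.t k))) (h𝔪 : 𝔪.IsMaximal) (i j : Fin (k + 1)) (hij : i ≠ j)
    (hi : S.p i ≤ 𝔪) (hj : S.p j ≤ 𝔪) (l : Fin (k + 1)) : S.p l ≤ 𝔪 :=
  (D.uChain W hM S).meet D.irr S D.hq.two_le hk 𝔪 h𝔪.isPrime i j hij hi hj l

/-! ### the two ends: `a = u' (k-1)`, `b = u 0` -/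

theorem endA_val {k : ℕ} (hk : 1 ≤ k) :
    (D.OO k 0 (Nat.zero_le k)).valuation (D.uK' W hM k (k - 1))
      = (D.OO k 0 (Nat.zero_le k)).valuation ((D.q : ℕ) : D.Fk k) :=
  D.val_uK'_F W hM _ (by omega)

theorem endA_indep {k : ℕ} (hk : 1 ≤ k) (s : ℕ) (hs : s ≤ k) (h0 : s ≠ 0) :
    (D.OO k s hs).valuation (D.uK' W hM k (k - 1)) = 1 :=
  D.val_uK'_V W hM _ (by omega) (by omega)

theorem endB_val {k : ℕ} (hk : 1 ≤ k) :
    (D.OO k k le_rfl).valuation (D.uK W hM k 0)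
      = (D.OO k k le_rfl).valuation ((D.q : ℕ) : D.Fk k) :=
  D.val_uK_V W hM _ (by omega) (by omega)

theorem endB_indep {k : ℕ} (s : ℕ) (hs : s ≤ k) (h0 : s ≠ k) :
    (D.OO k s hs).valuation (D.uK W hM k 0) = 1 :=
  D.val_uK_F W hM _ (by omega)

theorem q_div_uK' {k i : ℕ} (hi : i < k) :
    ((D.q : ℕ) : D.Fk k) ^ 1 / D.uK' W hM k i = D.uK W hM k i := by
  have h := D.uK_mul W hM hi
  have h0 : D.uK' W hM k i ≠ 0 := by
    intro h'
    rw [h', mul_zero] at h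
    exact D.natCast_Fk_ne_zero k h.symm
  rw [pow_one, div_eq_iff h0, h]

theorem q_div_uK {k i : ℕ} (hi : i < k) :
    ((D.q : ℕ) : D.Fk k) ^ 1 / D.uK W hM k i = D.uK' W hM k i := by
  have h := D.uK_mul W hM hi
  have h0 : D.uK W hM k i ≠ 0 := by
    intro h'
    rw [h', zero_mul] at h
    exact D.natCast_Fk_ne_zero k h.symm
  rw [pow_one, div_eq_iff h0, mul_comm, h]

end CtxK

end Fermat.Agent.S45
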