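import Fermat.Agent.S45.Mod.Ctx
import Fermat.Agent.S45.Mod.DegK
import Fermat.Agent.S45.Abs.NormStep
import Fermat.Agent.S36.Mod.NormExtB

/-!
# S45 / modular part : `[MODK-NORM]` the norms along `α = D.al k`, `β = D.be k` (level `k → k+1`) on the components

Inputs, collected in `CtxK.NormIn k`: finiteness and degree `q` of `α`, `β`; the transition formulas in `RedsTo` form (`trA`, `trB`);
uniformizers of the lower level with the exact absolute ramification index; ramification witnesses of the upper level.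

Outputs (`N = RED.TorsES.normAlong`):
* `comap_al`, `comap_be`;
* `redA` (`2 ≤ s`), `redB` (`s + 1 ≤ k`) : `v_s (φ (N u) - u ^ q) < 1` for `u ∈ O_s`;
* `unitA'`, `unitB'` : norms of units are units of the lower components; `unitB`;
* `valmix`, `onemix` : the two components `0`, `1` above the component `0` of the lower level (for `α`).
-/

set_option autoImplicit false
set_option linter.unusedSectionVars false
set_option linter.style.haveILetI false
noncomputable section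

open ModularCurve AlgebraicCurve Polynomial

namespace Fermat.Agent.S45

open Fermat.Agent.S24 Fermat.Agent.S36 Fermat.Agent.RED.Gauss Fermat.Agent.GAL.AD
  Fermat.Agent.RED.TorsES

/-! ### abstract complements -/

section Abs

variable {K F' F : Type*} [Field K] [Field F'] [Field F] [Algebra K F'] [Algebra K F] [CharZero F']

/-- **[NORMVAL]**: two rings above `O'`, residue degrees one. -/
theorem step_two_val (φ : F' →ₐ[K] F) (hfin : FiniteAlong K φ) {q : ℕ}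
    (hdeg : finrankAlong K φ = q) {O' : ValuationSubring F'} {ϖ' : F'} (hu : IsUnif O' ϖ')
    {Oa Ob : ValuationSubring F} (hne : Oa ≠ Ob)
    (ca : Oa.comap (φ : F' →+* F) = O') (cb : Ob.comap (φ : F' →+* F) = O') {ea eb : ℕ}
    (ra : ∃ ϖ : F, Oa.valuation ϖ < 1 ∧ Oa.valuation (φ ϖ') ≤ Oa.valuation ϖ ^ ea)
    (rb : ∃ ϖ : F, Ob.valuation ϖ < 1 ∧ Ob.valuation (φ ϖ') ≤ Ob.valuation ϖ ^ eb)
    (hsum : q ≤ ea + eb) {ϖa ϖb : F} (ha : IsUnif Oa ϖa) (hb : IsUnif Ob ϖb) {u : F} {na nb : ℤ}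
    (hua : Oa.valuation u = Oa.valuation ϖa ^ na) (hub : Ob.valuation u = Ob.valuation ϖb ^ nb) :
    O'.valuation (normAlong φ u) = O'.valuation ϖ' ^ (na + nb) := by
  letI := algebraAlong φ
  haveI : FiniteDimensional F' F := hfin
  have S : ExtSys O' ϖ' ![Oa, Ob] ![ea, eb] (fun _ => 1) :=
    nk_extSys_of_res_one hu
      (by
        intro a b hab
        fin_cases a <;> fin_cases b
        · rfl
        · exact absurd hab hne
        · exact absurd hab.symm hne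
        · rfl)
      (Fin.forall_fin_two.2 ⟨ca, cb⟩) (Fin.forall_fin_two.2 ⟨ra, rb⟩)
      (by rw [Fin.sum_univ_two]; exact hdeg.le.trans hsum)
  have h := S.norm_val ![ϖa, ϖb] (Fin.forall_fin_two.2 ⟨ha, hb⟩) (u := u) ![na, nb]
    (Fin.forall_fin_two.2 ⟨hua, hub⟩)
  rw [Fin.sum_univ_two] at h
  simp only [Matrix.cons_val_zero, Matrix.cons_val_one, Nat.cast_one, one_mul] at h
  exact h

/-- transport of `v' x = v' y ^ n` along a comap. -/
theorem val_map_eq_zpow {F' F : Type*} [Field F'] [Field F] (φ : F' →+* F)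
    {O : ValuationSubring F} {O' : ValuationSubring F'} (hc : O.comap φ = O') {x y : F'}
    (hy : y ≠ 0) {n : ℤ} (h : O'.valuation x = O'.valuation y ^ n) :
    O.valuation (φ x) = O.valuation (φ y) ^ n := by
  have h0 : O'.valuation y ^ n ≠ 0 := zpow_ne_zero _ ((Valuation.ne_zero_iff _).2 hy)
  have h3 : O'.valuation (x / y ^ n) = 1 := by
    rw [map_div₀, map_zpow₀, h, div_self h0]
  rw [← hc, GaussAux.comap_eq_one, map_div₀, map_div₀, map_zpow₀, map_zpow₀] at h3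
  have h4 : O.valuation (φ y) ^ n ≠ 0 :=
    zpow_ne_zero _ ((Valuation.ne_zero_iff _).2 (by simpa using hy))
  exact (div_eq_one_iff_eq h4).1 h3

end Abs

/-! ### arithmetic of `eK` -/

theorem nx_eK_al_ram {q k s : ℕ} (hq : q.Prime) (h2 : 2 ≤ s) (h : 2 * s ≤ k + 1) :
    eK q (k + 1) s = q * eK q k (s - 1) := by
  obtain ⟨r, rfl⟩ : ∃ r, s = r + 2 := ⟨s - 2, by omega⟩
  have e1 : min (r + 2) (k + 1 - (r + 2)) = (r + 1) + 1 := by omega
  have e2 : min (r + 2 - 1) (k - (r + 2 - 1)) = r + 1 := by omega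
  rw [eK, eK, e1, e2, Nat.totient_prime_pow_succ hq, Nat.totient_prime_pow_succ hq, pow_succ]
  ring

theorem nx_eK_be_ram {q k s : ℕ} (hq : q.Prime) (h : k + 1 ≤ 2 * s) (hs : s + 1 ≤ k) :
    eK q (k + 1) s = q * eK q k s := by
  obtain ⟨r, hr⟩ : ∃ r, k = s + r + 1 := ⟨k - s - 1, by omega⟩
  have e1 : min s (k + 1 - s) = (r + 1) + 1 := by omega
  have e2 : min s (k - s) = r + 1 := by omega
  rw [eK, eK, e1, e2, Nat.totient_prime_pow_succ hq, Nat.totient_prime_pow_succ hq, pow_succ]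
  ring

theorem nx_eK_succ_one {q k : ℕ} (hq : q.Prime) (hk : 1 ≤ k) : eK q (k + 1) 1 = q - 1 := by
  have e1 : min 1 (k + 1 - 1) = 0 + 1 := by omega
  rw [eK, e1, Nat.totient_prime_pow_succ hq, pow_zero, one_mul]

theorem nx_eK_succ_self {q k : ℕ} (hq : q.Prime) (hk : 1 ≤ k) : eK q (k + 1) k = q - 1 := by
  have e1 : min k (k + 1 - k) = 0 + 1 := by omega
  rw [eK, e1, Nat.totient_prime_pow_succ hq, pow_zero, one_mul]

theorem nx_eK_ne_zero {q : ℕ} (hq : q.Prime) (k s : ℕ) : eK q k s ≠ 0 :=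
  (Nat.totient_pos.2 (pow_pos hq.pos _)).ne'

namespace CtxK

variable (D : CtxK)

/-- the inputs of the norm part. -/
structure NormIn (k : ℕ) : Prop where
  fin_al : FiniteAlong D.K (D.al k)
  fin_be : FiniteAlong D.K (D.be k)
  deg_al : finrankAlong D.K (D.al k) = D.q
  deg_be : finrankAlong D.K (D.be k) = D.q
  trA : ∀ s, s ≤ k + 1 → ∀ (y : D.Fk k) (w : LaurentSeries D.k), RedsTo D.π (D.e k (s - 1) y) w →
    RedsTo D.π (D.e (k + 1) s (D.al k y)) (if 2 * s ≤ k + 1 then w else qExpand D.k D.q w)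
  trB : ∀ s, s ≤ k + 1 → ∀ (y : D.Fk k) (w : LaurentSeries D.k), RedsTo D.π (D.e k (min s k) y) w →
    RedsTo D.π (D.e (k + 1) s (D.be k y)) (if 2 * s ≤ k then qExpand D.k D.q w else w)
  unif' : ∀ s' (hs' : s' ≤ k), ∃ ϖ' : D.Fk k, IsUnif (D.OO k s' hs') ϖ' ∧
    (D.OO k s' hs').valuation (D.q : D.Fk k) = (D.OO k s' hs').valuation ϖ' ^ eK D.q k s'
  ram : ∀ s (hs : s ≤ k + 1), ∃ ϖ : D.Fk (k + 1), (D.OO (k + 1) s hs).valuation ϖ < 1 ∧
    (D.OO (k + 1) s hs).valuation (D.q : D.Fk (k + 1)) ≤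
      (D.OO (k + 1) s hs).valuation ϖ ^ eK D.q (k + 1) s

/-! ### generalities -/

theorem nx_redsTo_j (k s : ℕ) (hs : s ≤ k) (i : ℕ) (hi : i ≤ k) :
    RedsTo D.π (D.e k s (D.j k i)) (jqModC D.k ^ (D.q ^ nK k s i)) :=
  (D.tab k).redsTo_jI D.hA ⟨s, Nat.lt_succ_iff.2 hs⟩ ⟨i, Nat.lt_succ_iff.2 hi⟩

theorem nx_val_q_lt (k s : ℕ) (hs : s ≤ k) : (D.OO k s hs).valuation (D.q : D.Fk k) < 1 := by
  apply D.val_lt_one hs
  rw [map_natCast, ← map_natCast (HahnSeries.C : Kb →+* LaurentSeries Kb)]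
  exact D.toCtx.nx_redsTo_q

theorem nx_OO_ne {k s s' : ℕ} (hs : s ≤ k) (hs' : s' ≤ k) (h : s ≠ s') :
    D.OO k s hs ≠ D.OO k s' hs' := by
  obtain ⟨i, i', hi, hi', hii⟩ := nK_rows hs hs' h
  exact (D.tab k).ne_of_rows D.hA (fun s : Fin (k + 1) => D.disc k s (Nat.lt_succ_iff.1 s.2))
    (s := ⟨s, Nat.lt_succ_iff.2 hs⟩) (s' := ⟨s', Nat.lt_succ_iff.2 hs'⟩)
    ⟨i, Nat.lt_succ_iff.2 hi⟩ ⟨i', Nat.lt_succ_iff.2 hi'⟩ hii

theorem nx_al_j (k i : ℕ) (hi : i ≤ k) : D.al k (D.j k i) = D.j (k + 1) i :=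
  (aL_succ_of_le D.K D.M D.q k i hi _).symm

theorem nx_be_j (k i : ℕ) (hi : i ≤ k) : D.be k (D.j k i) = D.j (k + 1) (i + 1) :=
  (aL_succ_succ D.K D.M D.q k i hi _).symm

variable {D} {k : ℕ} (I : D.NormIn k)

include I

/-! ### comaps -/

theorem NormIn.comap_al (s : ℕ) (hs : s ≤ k + 1) (hs' : s - 1 ≤ k) :
    (D.OO (k + 1) s hs).comap (D.al k : D.Fk k →+* D.Fk (k + 1)) = D.OO k (s - 1) hs' :=
  fm_gv_comap_of_redsTo D.hπ (D.disc (k + 1) s hs) (D.disc k (s - 1) hs') _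
    (fun w => if 2 * s ≤ k + 1 then w else qExpand D.k D.q w) (by split_ifs <;> simp)
    fun y w h => I.trA s hs y w h

theorem NormIn.comap_be (s : ℕ) (hs : s ≤ k + 1) (hs' : min s k ≤ k) :
    (D.OO (k + 1) s hs).comap (D.be k : D.Fk k →+* D.Fk (k + 1)) = D.OO k (min s k) hs' :=
  fm_gv_comap_of_redsTo D.hπ (D.disc (k + 1) s hs) (D.disc k (min s k) hs') _
    (fun w => if 2 * s ≤ k then qExpand D.k D.q w else w) (by split_ifs <;> simp)
    fun y w h => I.trB s hs y w h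

theorem NormIn.trB_le (s : ℕ) (hs' : s ≤ k) (y : D.Fk k) (w : LaurentSeries D.k)
    (h : RedsTo D.π (D.e k s y) w) :
    RedsTo D.π (D.e (k + 1) s (D.be k y)) (if 2 * s ≤ k then qExpand D.k D.q w else w) :=
  I.trB s (by omega) y w (by rw [min_eq_left hs']; exact h)

theorem NormIn.trB_top (y : D.Fk k) (w : LaurentSeries D.k) (h : RedsTo D.π (D.e k k y) w) :
    RedsTo D.π (D.e (k + 1) (k + 1) (D.be k y)) w := by
  have := I.trB (k + 1) le_rfl y w (by rw [min_eq_right (Nat.le_succ k)]; exact h)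
  rwa [if_neg (by omega)] at this

theorem NormIn.comap_be_le (s : ℕ) (hs' : s ≤ k) (hs : s ≤ k + 1) :
    (D.OO (k + 1) s hs).comap (D.be k : D.Fk k →+* D.Fk (k + 1)) = D.OO k s hs' :=
  fm_gv_comap_of_redsTo D.hπ (D.disc (k + 1) s hs) (D.disc k s hs') _
    (fun w => if 2 * s ≤ k then qExpand D.k D.q w else w) (by split_ifs <;> simp)
    fun y w h => I.trB_le s hs' y w h

theorem NormIn.comap_be_top :
    (D.OO (k + 1) (k + 1) le_rfl).comap (D.be k : D.Fk k →+* D.Fk (k + 1)) = D.OO k k le_rfl :=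
  fm_gv_comap_of_redsTo D.hπ (D.disc (k + 1) (k + 1) le_rfl) (D.disc k k le_rfl) _ id rfl
    fun y w h => I.trB_top y w h

/-! ### independence of the powers of `j` in the inseparable steps -/

theorem NormIn.indA (s : ℕ) (hs : s ≤ k + 1) (hs' : s - 1 ≤ k) (h : ¬ 2 * s ≤ k + 1)
    (c : Fin D.q → D.Fk k) (hc : ∀ κ, c κ ∈ D.OO k (s - 1) hs')
    (hsum : (D.OO (k + 1) s hs).valuation
      (∑ κ, D.al k (c κ) * D.j (k + 1) (k + 1) ^ (κ : ℕ)) < 1) (κ : Fin D.q) :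
    (D.OO k (s - 1) hs').valuation (c κ) < 1 := by
  have hj : RedsTo D.π (D.e (k + 1) s (D.j (k + 1) (k + 1))) (jqModC D.k) := by
    have := D.nx_redsTo_j (k + 1) s hs (k + 1) le_rfl
    rwa [nK_self_right hs, show k + 1 - 2 * s = 0 by omega, pow_zero, pow_one] at this
  have h1 : RedsTo D.π (D.e (k + 1) s (∑ κ, D.al k (c κ) * D.j (k + 1) (k + 1) ^ (κ : ℕ)))
      (∑ κ : Fin D.q, qExpand D.k D.q (D.rd k (s - 1) hs' ⟨c κ, hc κ⟩) * jqModC D.k ^ (κ : ℕ)) := by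
    rw [map_sum]
    apply redsTo_finset_sum
    intro κ _
    rw [map_mul, map_pow]
    have := I.trA s hs (c κ) _ (D.redsTo_rd k (s - 1) hs' ⟨c κ, hc κ⟩)
    rw [if_neg h] at this
    exact this.mul (hj.pow _)
  have h2 : RedsTo D.π (D.e (k + 1) s (∑ κ, D.al k (c κ) * D.j (k + 1) (k + 1) ^ (κ : ℕ))) 0 :=
    (gv_valuation_lt_one_iff D.hπ (D.disc (k + 1) s hs)).1 hsum
  have h3 := RED.Desc.eq_zero_of_sum_qExpand_mul_pow D.q (jqModC D.k)
    (RED.Desc.order_jqModC' D.k) _ (h1.unique h2) κ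
  exact (gv_valuation_lt_one_iff D.hπ (D.disc k (s - 1) hs')).2 ⟨hc κ, h3⟩

theorem NormIn.indB (s : ℕ) (hs : s ≤ k + 1) (hs' : s ≤ k) (h : 2 * s ≤ k)
    (c : Fin D.q → D.Fk k) (hc : ∀ κ, c κ ∈ D.OO k s hs')
    (hsum : (D.OO (k + 1) s hs).valuation
      (∑ κ, D.be k (c κ) * D.j (k + 1) 0 ^ (κ : ℕ)) < 1) (κ : Fin D.q) :
    (D.OO k s hs').valuation (c κ) < 1 := by
  have hj : RedsTo D.π (D.e (k + 1) s (D.j (k + 1) 0)) (jqModC D.k) := by
    have := D.nx_redsTo_j (k + 1) s hs 0 (Nat.zero_le _)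
    rwa [nK_zero_right hs, show 2 * s - (k + 1) = 0 by omega, pow_zero, pow_one] at this
  have h1 : RedsTo D.π (D.e (k + 1) s (∑ κ, D.be k (c κ) * D.j (k + 1) 0 ^ (κ : ℕ)))
      (∑ κ : Fin D.q, qExpand D.k D.q (D.rd k s hs' ⟨c κ, hc κ⟩) * jqModC D.k ^ (κ : ℕ)) := by
    rw [map_sum]
    apply redsTo_finset_sum
    intro κ _
    rw [map_mul, map_pow]
    have := I.trB_le s hs' (c κ) _ (D.redsTo_rd k s hs' ⟨c κ, hc κ⟩)
    rw [if_pos h] at this
    exact this.mul (hj.pow _)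
  have h2 : RedsTo D.π (D.e (k + 1) s (∑ κ, D.be k (c κ) * D.j (k + 1) 0 ^ (κ : ℕ))) 0 :=
    (gv_valuation_lt_one_iff D.hπ (D.disc (k + 1) s hs)).1 hsum
  have h3 := RED.Desc.eq_zero_of_sum_qExpand_mul_pow D.q (jqModC D.k)
    (RED.Desc.order_jqModC' D.k) _ (h1.unique h2) κ
  exact (gv_valuation_lt_one_iff D.hπ (D.disc k s hs')).2 ⟨hc κ, h3⟩

/-! ### the steps with one extension -/

/-- `α`, the components `2 ≤ s`. -/
theorem NormIn.stepA (s : ℕ) (h2 : 2 ≤ s) (hs : s ≤ k + 1) (hs' : s - 1 ≤ k) :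
    (∀ u ∈ D.OO (k + 1) s hs,
      (D.OO (k + 1) s hs).valuation (D.al k (normAlong (D.al k) u) - u ^ D.q) < 1) ∧
    (∀ u, (D.OO (k + 1) s hs).valuation u = 1 →
      (D.OO k (s - 1) hs').valuation (normAlong (D.al k) u) = 1) := by
  obtain ⟨ϖ', hu, hv⟩ := I.unif' (s - 1) hs'
  by_cases h : 2 * s ≤ k + 1
  · obtain ⟨ϖ, h1, h3⟩ := I.ram s hs
    refine step_ram (D.al k) I.fin_al D.hq I.deg_al hu (D.nx_val_q_lt k (s - 1) hs')
      (I.comap_al s hs hs') h1 ?_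
    refine ram_le_of_abs _ (I.comap_al s hs hs') hu.ne_zero (nx_eK_ne_zero D.hq k (s - 1))
      (π' := (D.q : D.Fk k)) ?_ hv (nx_eK_al_ram D.hq h2 h)
    rw [map_natCast]
    exact h3
  · have hn1 : nK (k + 1) s (k + 1) = 0 := by rw [nK_self_right hs]; omega
    have hn2 : nK (k + 1) s k = 1 := by
      rw [nK_succ_of_le hs (by omega) (Nat.lt_succ_self k), hn1]
    refine step_insep (D.al k) I.fin_al D.hq I.deg_al hu (D.nx_val_q_lt k (s - 1) hs')
      (I.comap_al s hs hs') (ω := D.j (k + 1) (k + 1))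
      (D.mem_OO hs (D.nx_redsTo_j (k + 1) s hs (k + 1) le_rfl))
      (fun c hc hsum κ => I.indA s hs hs' h c hc hsum κ) (d := D.j k k)
      (D.mem_OO hs' (D.nx_redsTo_j k (s - 1) hs' k le_rfl)) ?_
    rw [D.nx_al_j k k le_rfl]
    apply D.val_lt_one hs
    have t := ((D.nx_redsTo_j (k + 1) s hs (k + 1) le_rfl).pow D.q).sub
      (D.nx_redsTo_j (k + 1) s hs k (Nat.le_succ k))
    rw [hn1, hn2, pow_zero, pow_one, pow_one, sub_self, ← map_pow, ← map_sub] at t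
    exact t

/-- `β`, the components `s + 1 ≤ k`. -/
theorem NormIn.stepB (s : ℕ) (h2 : s + 1 ≤ k) (hs : s ≤ k + 1) (hs' : s ≤ k) :
    (∀ u ∈ D.OO (k + 1) s hs,
      (D.OO (k + 1) s hs).valuation (D.be k (normAlong (D.be k) u) - u ^ D.q) < 1) ∧
    (∀ u, (D.OO (k + 1) s hs).valuation u = 1 →
      (D.OO k s hs').valuation (normAlong (D.be k) u) = 1) := by
  obtain ⟨ϖ', hu, hv⟩ := I.unif' s hs'
  by_cases h : 2 * s ≤ k
  · have hn1 : nK (k + 1) s 0 = 0 := by rw [nK_zero_right hs]; omega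
    have hn2 : nK (k + 1) s 1 = 1 := by
      rw [nK_succ_of_lt (by omega), hn1]
    refine step_insep (D.be k) I.fin_be D.hq I.deg_be hu (D.nx_val_q_lt k s hs')
      (I.comap_be_le s hs' hs) (ω := D.j (k + 1) 0)
      (D.mem_OO hs (D.nx_redsTo_j (k + 1) s hs 0 (Nat.zero_le _)))
      (fun c hc hsum κ => I.indB s hs hs' h c hc hsum κ) (d := D.j k 0)
      (D.mem_OO hs' (D.nx_redsTo_j k s hs' 0 (Nat.zero_le _))) ?_
    rw [D.nx_be_j k 0 (Nat.zero_le _)]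
    apply D.val_lt_one hs
    have t := ((D.nx_redsTo_j (k + 1) s hs 0 (Nat.zero_le _)).pow D.q).sub
      (D.nx_redsTo_j (k + 1) s hs (0 + 1) (by omega))
    rw [hn1, zero_add, hn2, pow_zero, pow_one, pow_one, sub_self, ← map_pow, ← map_sub] at t
    exact t
  · obtain ⟨ϖ, h1, h3⟩ := I.ram s hs
    refine step_ram (D.be k) I.fin_be D.hq I.deg_be hu (D.nx_val_q_lt k s hs')
      (I.comap_be_le s hs' hs) h1 ?_
    refine ram_le_of_abs _ (I.comap_be_le s hs' hs) hu.ne_zero (nx_eK_ne_zero D.hq k s)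
      (π' := (D.q : D.Fk k)) ?_ hv (nx_eK_be_ram D.hq (by omega) h2)
    rw [map_natCast]
    exact h3

/-- **the field `redα`** -/
theorem NormIn.redA (s : ℕ) (h2 : 2 ≤ s) (hs : s ≤ k + 1) (u : D.Fk (k + 1))
    (hu : u ∈ D.OO (k + 1) s hs) :
    (D.OO (k + 1) s hs).valuation (D.al k (normAlong (D.al k) u) - u ^ D.q) < 1 :=
  (I.stepA s h2 hs (by omega)).1 u hu

/-- **the field `redβ`** -/
theorem NormIn.redB (s : ℕ) (h2 : s + 1 ≤ k) (hs : s ≤ k + 1) (u : D.Fk (k + 1))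
    (hu : u ∈ D.OO (k + 1) s hs) :
    (D.OO (k + 1) s hs).valuation (D.be k (normAlong (D.be k) u) - u ^ D.q) < 1 :=
  (I.stepB s h2 hs (by omega)).1 u hu

/-! ### the two ends -/

theorem NormIn.ramA (s : ℕ) (hs : s ≤ k + 1) (hs' : s - 1 ≤ k) {ϖ' : D.Fk k} (hϖ' : ϖ' ≠ 0)
    (hv : (D.OO k (s - 1) hs').valuation (D.q : D.Fk k) =
      (D.OO k (s - 1) hs').valuation ϖ' ^ eK D.q k (s - 1)) {e : ℕ}
    (he : eK D.q (k + 1) s = e * eK D.q k (s - 1)) :
    ∃ ϖ : D.Fk (k + 1), (D.OO (k + 1) s hs).valuation ϖ < 1 ∧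
      (D.OO (k + 1) s hs).valuation (D.al k ϖ') ≤ (D.OO (k + 1) s hs).valuation ϖ ^ e := by
  obtain ⟨ϖ, h1, h3⟩ := I.ram s hs
  refine ⟨ϖ, h1, ram_le_of_abs _ (I.comap_al s hs hs') hϖ' (nx_eK_ne_zero D.hq k (s - 1))
    (π' := (D.q : D.Fk k)) ?_ hv he⟩
  rw [map_natCast]
  exact h3

theorem NormIn.ramB_le (s : ℕ) (hs : s ≤ k + 1) (hs' : s ≤ k) {ϖ' : D.Fk k} (hϖ' : ϖ' ≠ 0)
    (hv : (D.OO k s hs').valuation (D.q : D.Fk k) =
      (D.OO k s hs').valuation ϖ' ^ eK D.q k s) {e : ℕ}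
    (he : eK D.q (k + 1) s = e * eK D.q k s) :
    ∃ ϖ : D.Fk (k + 1), (D.OO (k + 1) s hs).valuation ϖ < 1 ∧
      (D.OO (k + 1) s hs).valuation (D.be k ϖ') ≤ (D.OO (k + 1) s hs).valuation ϖ ^ e := by
  obtain ⟨ϖ, h1, h3⟩ := I.ram s hs
  refine ⟨ϖ, h1, ram_le_of_abs _ (I.comap_be_le s hs' hs) hϖ' (nx_eK_ne_zero D.hq k s)
    (π' := (D.q : D.Fk k)) ?_ hv he⟩
  rw [map_natCast]
  exact h3

theorem NormIn.ramB_top {ϖ' : D.Fk k} (hϖ' : ϖ' ≠ 0)
    (hv : (D.OO k k le_rfl).valuation (D.q : D.Fk k) =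
      (D.OO k k le_rfl).valuation ϖ' ^ eK D.q k k) :
    ∃ ϖ : D.Fk (k + 1), (D.OO (k + 1) (k + 1) le_rfl).valuation ϖ < 1 ∧
      (D.OO (k + 1) (k + 1) le_rfl).valuation (D.be k ϖ') ≤
        (D.OO (k + 1) (k + 1) le_rfl).valuation ϖ ^ 1 := by
  obtain ⟨ϖ, h1, h3⟩ := I.ram (k + 1) le_rfl
  refine ⟨ϖ, h1, ram_le_of_abs _ I.comap_be_top hϖ' (nx_eK_ne_zero D.hq k k)
    (π' := (D.q : D.Fk k)) (E := eK D.q (k + 1) (k + 1)) ?_ hv (by rw [eK_self, eK_self])⟩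
  rw [map_natCast]
  exact h3

/-- `α` over the component `0` of the lower level: the components `0` and `1`. -/
theorem NormIn.twoA (hk : 1 ≤ k) :
    (∀ u, (D.OO (k + 1) 0 (Nat.zero_le _)).valuation u = 1 →
      (D.OO (k + 1) 1 (by omega)).valuation u = 1 →
      (D.OO k 0 (Nat.zero_le _)).valuation (normAlong (D.al k) u) = 1) ∧
    (∀ u, (D.OO (k + 1) 0 (Nat.zero_le _)).valuation (u - 1) < 1 →
      (D.OO (k + 1) 1 (by omega)).valuation (u - 1) < 1 →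
      (D.OO k 0 (Nat.zero_le _)).valuation (normAlong (D.al k) u - 1) < 1) := by
  obtain ⟨ϖ', hu, hv⟩ := I.unif' 0 (Nat.zero_le _)
  have hq1 := D.hq.pos
  exact step_two (D.al k) I.fin_al D.hq I.deg_al hu (D.nx_val_q_lt k 0 (Nat.zero_le _))
    (D.nx_OO_ne _ _ (by omega))
    (I.comap_al 0 (Nat.zero_le _) (Nat.zero_le _)) (I.comap_al 1 (by omega) (Nat.zero_le _))
    (ea := 1) (eb := D.q - 1)
    (I.ramA 0 (Nat.zero_le _) (Nat.zero_le _) hu.ne_zero hv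
      (by show eK D.q (k + 1) 0 = 1 * eK D.q k 0; rw [eK_zero, eK_zero]))
    (I.ramA 1 (by omega) (Nat.zero_le _) hu.ne_zero hv
      (by show eK D.q (k + 1) 1 = (D.q - 1) * eK D.q k 0; rw [eK_zero, nx_eK_succ_one D.hq hk, mul_one]))
    (by omega)

/-- `β` over the component `k` of the lower level: the components `k` and `k + 1`. -/
theorem NormIn.twoB (hk : 1 ≤ k) :
    (∀ u, (D.OO (k + 1) k (Nat.le_succ k)).valuation u = 1 →
      (D.OO (k + 1) (k + 1) le_rfl).valuation u = 1 →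
      (D.OO k k le_rfl).valuation (normAlong (D.be k) u) = 1) ∧
    (∀ u, (D.OO (k + 1) k (Nat.le_succ k)).valuation (u - 1) < 1 →
      (D.OO (k + 1) (k + 1) le_rfl).valuation (u - 1) < 1 →
      (D.OO k k le_rfl).valuation (normAlong (D.be k) u - 1) < 1) := by
  obtain ⟨ϖ', hu, hv⟩ := I.unif' k le_rfl
  have hq1 := D.hq.pos
  exact step_two (D.be k) I.fin_be D.hq I.deg_be hu (D.nx_val_q_lt k k le_rfl)
    (D.nx_OO_ne _ _ (by omega))
    (I.comap_be_le k le_rfl (Nat.le_succ k)) I.comap_be_top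
    (ea := D.q - 1) (eb := 1)
    (I.ramB_le k (Nat.le_succ k) le_rfl hu.ne_zero hv
      (by rw [eK_self, nx_eK_succ_self D.hq hk, mul_one]))
    (I.ramB_top hu.ne_zero hv)
    (by omega)

/-- **the field `unitβ`** -/
theorem NormIn.unitB (hk : 1 ≤ k) (u : D.Fk (k + 1))
    (hu : ∀ s (hs : s ≤ k + 1), (D.OO (k + 1) s hs).valuation u = 1) (s : ℕ) (hs : s ≤ k + 1) :
    (D.OO (k + 1) s hs).valuation (D.be k (normAlong (D.be k) u)) = 1 := by
  have htop := (I.twoB hk).1 u (hu _ _) (hu _ _)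
  rcases Nat.lt_or_ge s k with h | h
  · have h1 := (I.stepB s h hs h.le).2 u (hu s hs)
    rw [← I.comap_be_le s h.le hs, GaussAux.comap_eq_one] at h1
    exact h1
  · rcases Nat.eq_or_lt_of_le h with rfl | h'
    · rw [← I.comap_be_le k le_rfl hs, GaussAux.comap_eq_one] at htop
      exact htop
    · obtain rfl : s = k + 1 := by omega
      rw [← I.comap_be_top, GaussAux.comap_eq_one] at htop
      exact htop

/-- **the field `onemix`** -/
theorem NormIn.onemix (hk : 1 ≤ k) (u : D.Fk (k + 1))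
    (h0 : (D.OO (k + 1) 0 (Nat.zero_le _)).valuation (u - 1) < 1)
    (h1 : (D.OO (k + 1) 1 (by omega)).valuation (u - 1) < 1) :
    (D.OO (k + 1) 0 (Nat.zero_le _)).valuation (D.al k (normAlong (D.al k) u) - 1) < 1 ∧
    (D.OO (k + 1) 1 (by omega)).valuation (D.al k (normAlong (D.al k) u) - 1) < 1 := by
  have h := (I.twoA hk).2 u h0 h1
  constructor
  · have h2 := h
    rw [← I.comap_al 0 (Nat.zero_le _) (Nat.zero_le _), GaussAux.comap_lt_one] at h2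
    simpa using h2
  · have h2 := h
    rw [← I.comap_al 1 (by omega) (Nat.zero_le _), GaussAux.comap_lt_one] at h2
    simpa using h2

/-- **the field `valmix`** (with `q` as uniformizer of the component `0`) -/
theorem NormIn.valmix (hk : 1 ≤ k) {ϖ0 ϖ1 : D.Fk (k + 1)}
    (hϖ0 : IsUnif (D.OO (k + 1) 0 (Nat.zero_le _)) ϖ0)
    (hϖ1 : IsUnif (D.OO (k + 1) 1 (by omega)) ϖ1) {u : D.Fk (k + 1)} {n0 n1 : ℤ}
    (h0 : (D.OO (k + 1) 0 (Nat.zero_le _)).valuation u =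
      (D.OO (k + 1) 0 (Nat.zero_le _)).valuation ϖ0 ^ n0)
    (h1 : (D.OO (k + 1) 1 (by omega)).valuation u =
      (D.OO (k + 1) 1 (by omega)).valuation ϖ1 ^ n1) :
    (D.OO (k + 1) 0 (Nat.zero_le _)).valuation (D.al k (normAlong (D.al k) u)) =
      (D.OO (k + 1) 0 (Nat.zero_le _)).valuation (D.q : D.Fk (k + 1)) ^ (n0 + n1) := by
  obtain ⟨ϖ', hu, hv⟩ := I.unif' 0 (Nat.zero_le _)
  have hq1 := D.hq.pos
  have h := step_two_val (D.al k) I.fin_al I.deg_al hu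
    (D.nx_OO_ne (Nat.zero_le (k + 1)) (show 1 ≤ k + 1 by omega) (by omega))
    (I.comap_al 0 (Nat.zero_le _) (Nat.zero_le _)) (I.comap_al 1 (by omega) (Nat.zero_le _))
    (ea := 1) (eb := D.q - 1)
    (I.ramA 0 (Nat.zero_le _) (Nat.zero_le _) hu.ne_zero hv
      (by show eK D.q (k + 1) 0 = 1 * eK D.q k 0; rw [eK_zero, eK_zero]))
    (I.ramA 1 (by omega) (Nat.zero_le _) hu.ne_zero hv
      (by show eK D.q (k + 1) 1 = (D.q - 1) * eK D.q k 0; rw [eK_zero, nx_eK_succ_one D.hq hk, mul_one]))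
    (by omega) hϖ0 hϖ1 h0 h1
  rw [eK_zero, pow_one] at hv
  rw [← hv] at h
  have h2 := val_map_eq_zpow (D.al k : D.Fk k →+* D.Fk (k + 1))
    (I.comap_al 0 (Nat.zero_le _) (Nat.zero_le _))
    (Nat.cast_ne_zero.2 D.hq.ne_zero : (D.q : D.Fk k) ≠ 0) h
  rw [map_natCast] at h2
  exact h2

end CtxK

end Fermat.Agent.S45
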